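import Fermat.Agent.TwoAdic.TypeSpace.Hecke
import Fermat.Agent.BadPrime.Raise

/-!
# Evaluating a type space at a torus invariant vector

For a vector `w₀` fixed by the diagonal matrices, `Φ ↦ Φ w₀ ∣ diag(D, 1)` lands in cusp forms on
`Γ₀(M D²)`, is injective when the translates of `w₀` span, and intertwines the Hecke operators
at the primes not dividing `D`.
-/

set_option autoImplicit false

noncomputable section

namespace Fermat.Agent.TwoAdic.Weil

open UpperHalfPlane hiding I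
open CongruenceSubgroup Function Matrix.SpecialLinearGroup Fermat.Agent.Periods
open Fermat.Agent.TwoAdic.Cohom
open scoped MatrixGroups ModularForm Manifold

variable {D M : ℕ} {W : Type*} [AddCommGroup W] [Module ℂ W]
  {σ : Representation ℂ (GL (Fin 2) (ZMod D)) W} {w₀ : W}

variable (σ w₀) in
/-- `w₀` is fixed by the diagonal matrices. -/
def IsTorusFixed : Prop :=
  ∀ (g : GL (Fin 2) (ZMod D)) (a e : (ZMod D)ˣ),
    (g : Matrix (Fin 2) (Fin 2) (ZMod D)) = !![(a : ZMod D), 0; 0, (e : ZMod D)] → σ g w₀ = w₀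

theorem IsTorusFixed.red_apply (h : IsTorusFixed σ w₀) {X : IntMat}
    (hX : IsUnit ((X.det : ℤ) : ZMod D)) (h01 : ((X 0 1 : ℤ) : ZMod D) = 0)
    (h10 : ((X 1 0 : ℤ) : ZMod D) = 0) : σ (red D X) w₀ = w₀ := by
  have hprod : ((X 0 0 : ℤ) : ZMod D) * ((X 1 1 : ℤ) : ZMod D) = ((X.det : ℤ) : ZMod D) := by
    rw [Matrix.det_fin_two, Int.cast_sub, Int.cast_mul, Int.cast_mul, h01, zero_mul, sub_zero]
  have hu := hprod ▸ hX
  obtain ⟨a, ha⟩ := isUnit_of_mul_isUnit_left hu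
  obtain ⟨e, he⟩ := isUnit_of_mul_isUnit_right hu
  refine h _ a e ?_
  rw [coe_red hX]
  ext i j; fin_cases i <;> fin_cases j <;> simp [ha, he, h01, h10]

theorem evalFun_slash [NeZero D] (hfix : IsTorusFixed σ w₀) (Φ : typeSpace D M σ) {γ : SL(2, ℤ)}
    (hγ : γ ∈ Gamma0 (M * D ^ 2)) :
    evalFun D w₀ Φ.1 ∣[(2 : ℤ)] γ = evalFun D w₀ Φ.1 := by
  have hγ1 : γ ∈ Gamma0 (M * D * D) := by rwa [mul_assoc, ← sq]
  obtain ⟨γ', hγ', -, -, h01, hGL⟩ := exists_diag_conj (NeZero.ne D) hγ1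
  have hM : γ' ∈ Gamma0 M := BadPrime.gamma0_le_of_dvd (dvd_mul_right M D) hγ'
  have hD : γ' ∈ Gamma0 D := BadPrime.gamma0_le_of_dvd (dvd_mul_left D M) hγ'
  have hw : σ (redSL D γ') w₀ = w₀ := hfix.red_apply (isUnit_det_sl D _)
    (by rw [h01, Int.cast_mul, Int.cast_natCast, ZMod.natCast_self, zero_mul]) (Gamma0_mem.mp hD)
  have h := slash_gamma0 Φ hM w₀
  rw [hw, ModularForm.SL_slash] at h
  rw [evalFun, ModularForm.SL_slash, ← SlashAction.slash_mul]
  erw [hGL]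
  rw [SlashAction.slash_mul]
  erw [h]

variable (M σ w₀) in
/-- All forms of the type space vanish at the cusps. -/
def IsCuspidalType : Prop :=
  ∀ (Φ : typeSpace D M σ) (w : W) {c : OnePoint ℝ}, IsCusp c 𝒮ℒ → OnePoint.IsZeroAt c (Φ.1 w) 2

theorem isCuspidalType_of_kill [NeZero D] [NeZero M] (hMD : M.Coprime D) {b : ZMod D}
    (hkill : ∀ f : W →ₗ[ℂ] ℂ, (∀ g : GL (Fin 2) (ZMod D),
      (g : Matrix (Fin 2) (Fin 2) (ZMod D)) = !![1, b; 0, 1] → f ∘ₗ σ g = f) → f = 0) :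
    IsCuspidalType M σ :=
  fun Φ w _ hc => isZeroAt hMD hkill Φ w hc

variable [NeZero D] [NeZero M]

variable (hfix : IsTorusFixed σ w₀) (hcusp : IsCuspidalType M σ)

/-- Evaluation at `w₀` as a cusp form. -/
def evalForm : typeSpace D M σ →ₗ[ℂ] CuspForm (Gamma0 (M * D ^ 2)) 2 where
  toFun Φ :=
    { toFun := evalFun D w₀ Φ.1
      slash_action_eq' := fun A hA => by
        obtain ⟨γ, hγ, rfl⟩ := hA
        exact evalFun_slash hfix Φ hγ
      holo' := MDifferentiable.slash (mdiff Φ _) _ _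
      zero_at_cusps' := fun {c} hc => by
        obtain ⟨g, hg⟩ := heckeDiagMatrix_eq_map D
        rw [Subgroup.IsArithmetic.isCusp_iff_isCusp_SL2Z] at hc
        show OnePoint.IsZeroAt c (evalFun D w₀ Φ.1) 2
        rw [evalFun, hg]
        exact OnePoint.IsZeroAt.smul_iff.mp (hcusp Φ _ (isCusp_map_smul hc g)) }
  map_add' Φ Ψ := DFunLike.coe_injective (by
    show evalFun D w₀ (Φ.1 + Ψ.1) = evalFun D w₀ Φ.1 + evalFun D w₀ Ψ.1
    simp only [evalFun, LinearMap.add_apply, SlashAction.add_slash])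
  map_smul' a Φ := DFunLike.coe_injective (by
    show evalFun D w₀ (a • Φ.1) = a • evalFun D w₀ Φ.1
    simp only [evalFun, LinearMap.smul_apply, ModularForm.smul_slash,
      ModularForm.σ_heckeDiagMatrix, ContinuousAlgEquiv.refl_apply])

theorem coe_evalForm (Φ : typeSpace D M σ) :
    (evalForm hfix hcusp Φ : ℍ → ℂ) = evalFun D w₀ Φ.1 := rfl

variable (hspan : Submodule.span ℂ {w | ∃ g : GL (Fin 2) (ZMod D), ∃ b : ZMod D,
  (g : Matrix (Fin 2) (Fin 2) (ZMod D)) = !![1, b; 0, 1] ∧ σ g w₀ = w} = ⊤)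

include hspan in
theorem evalForm_injective : Injective (evalForm hfix hcusp) :=
  (injective_iff_map_eq_zero _).mpr fun Φ h =>
    evalFun_eq_zero hspan Φ (congrArg (fun f : CuspForm (Gamma0 (M * D ^ 2)) 2 => (f : ℍ → ℂ)) h)

include hfix hcusp hspan in
theorem finiteDimensional_typeSpace : FiniteDimensional ℂ (typeSpace D M σ) :=
  haveI : NeZero (M * D ^ 2) := ⟨mul_ne_zero (NeZero.ne M) (pow_ne_zero 2 (NeZero.ne D))⟩
  haveI := BadPrime.finiteDimensional_cuspForm (M * D ^ 2)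
  FiniteDimensional.of_injective _ (evalForm_injective hfix hcusp hspan)

/-! ### Hecke equivariance -/

omit [NeZero D] [NeZero M] in
theorem evalFun_raiseMap [NeZero D] {r : ℕ} (hr : r.Coprime D) (hfix : IsTorusFixed σ w₀)
    (Φ : W →ₗ[ℂ] (ℍ → ℂ)) :
    evalFun D w₀ (raiseMap D σ r Φ) =
      evalFun D w₀ Φ ∣[(2 : ℤ)] ModularForm.heckeDiagMatrix r := by
  rw [evalFun, evalFun, raiseMap_apply,
    hfix.red_apply (isUnit_det_diagMat hr) (by simp [diagMat]) (by simp [diagMat]),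
    ← SlashAction.slash_mul, ← SlashAction.slash_mul]
  congr 1
  rcases eq_or_ne r 0 with rfl | hr0
  · simp
  apply Matrix.GeneralLinearGroup.ext
  intro i j
  rw [Units.val_mul, Units.val_mul, ModularForm.val_heckeDiagMatrix hr0,
    ModularForm.val_heckeDiagMatrix (NeZero.ne D)]
  fin_cases i <;> fin_cases j <;> simp [mul_comm]

omit [NeZero M] in
omit [NeZero D] in
theorem dvd_mul_sq_iff {p : ℕ} (_hp : p.Prime) (hpD : p.Coprime D) : p ∣ M * D ^ 2 ↔ p ∣ M :=
  ⟨fun h => (Nat.Coprime.pow_right 2 hpD).dvd_of_dvd_mul_right h, fun h => h.mul_right _⟩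

omit [NeZero M] in
theorem evalFun_heckeMap {p : ℕ} (hp : p.Prime) (hpD : p.Coprime D)
    (hfix : IsTorusFixed σ w₀) (Φ : W →ₗ[ℂ] (ℍ → ℂ))
    (hT : ∀ t : ℤ, ∀ w, Φ (σ (redSL D (ModularGroup.T ^ t)) w) ∣[(2 : ℤ)]
      (ModularGroup.T ^ t) = Φ w) :
    evalFun D w₀ (heckeMap D M σ p Φ) = heckeSlashSum (M * D ^ 2) p (evalFun D w₀ Φ) := by
  have : Fact p.Prime := ⟨hp⟩
  rw [evalFun, heckeMap_apply, SlashAction.sum_slash, heckeSlashSum]
  let e : HeckeIdx (M * D ^ 2) p → HeckeIdx M p := fun i =>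
    ⟨i.1.map fun j : Fin p => (⟨D * (j : ℕ) % p, Nat.mod_lt _ hp.pos⟩ : Fin p), fun h hM =>
      i.2 (Option.map_eq_none_iff.mp h) ((dvd_mul_sq_iff hp hpD).mpr hM)⟩
  have hD' : ((D : ℕ) : ZMod p) ≠ 0 := fun h => by
    rw [ZMod.natCast_eq_zero_iff] at h
    exact (Nat.Prime.coprime_iff_not_dvd hp).mp hpD h
  have hinj : Injective e := by
    rintro ⟨_ | a, ha⟩ ⟨_ | b, hb⟩ h <;>
      simp only [e, Subtype.mk.injEq, Option.map_none, Option.map_some, reduceCtorEq,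
        Option.some.injEq] at h ⊢
    have h2 : ((D * (a : ℕ) : ℕ) : ZMod p) = ((D * (b : ℕ) : ℕ) : ZMod p) := by
      rw [ZMod.natCast_eq_natCast_iff']
      exact congrArg Fin.val h
    push_cast at h2
    have h3 := mul_left_cancel₀ hD' h2
    rw [ZMod.natCast_eq_natCast_iff', Nat.mod_eq_of_lt a.2, Nat.mod_eq_of_lt b.2] at h3
    exact Fin.ext h3
  have hsurj : Surjective e := by
    rintro ⟨_ | b, hb⟩
    · exact ⟨⟨none, fun _ h => hb rfl ((dvd_mul_sq_iff hp hpD).mp h)⟩, rfl⟩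
    · refine ⟨⟨some ⟨((D : ZMod p)⁻¹ * (b : ℕ)).val, ZMod.val_lt _⟩, fun h => by simp at h⟩,
        Subtype.ext (congrArg some (Fin.ext ?_))⟩
      show D * ((D : ZMod p)⁻¹ * (b : ℕ)).val % p = b
      rw [← Nat.mod_eq_of_lt b.2, ← ZMod.natCast_eq_natCast_iff', Nat.cast_mul,
        ZMod.natCast_val, ZMod.cast_id', id_eq, ← mul_assoc, mul_inv_cancel₀ hD', one_mul, ZMod.natCast_mod]
  refine (Fintype.sum_bijective e ⟨hinj, hsurj⟩ _ _ fun i => ?_).symm
  rw [evalFun, ← SlashAction.slash_mul, ← SlashAction.slash_mul]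
  obtain ⟨_ | j, hi⟩ := i
  · rw [hfix.red_apply (isUnit_det_heckeMat hpD _) (by simp [e, heckeMat]) (by simp [e, heckeMat])]
    congr 1
    apply Matrix.GeneralLinearGroup.ext
    intro a b
    rw [Units.val_mul, Units.val_mul, val_heckeGL hp.ne_zero, val_heckeGL hp.ne_zero,
      val_heckeDiagMatrix_eq (NeZero.ne D)]
    fin_cases a <;> fin_cases b <;>
      simp [e, heckeMat, diagMat, Matrix.mul_apply, Fin.sum_univ_two, mul_comm]
  · set k : ℕ := D * (j : ℕ) % p with hk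
    set t : ℕ := D * (j : ℕ) / p with ht
    have hjk : D * (j : ℕ) = k + p * t := (Nat.mod_add_div _ _).symm
    set T' : SL(2, ℤ) := ModularGroup.T ^ (t : ℤ) with hT'
    have hTm : (T' : IntMat) = !![1, (t : ℤ); 0, 1] := ModularGroup.coe_T_zpow _
    have hred : σ (red D (heckeMat M p (e ⟨some j, hi⟩))) w₀ = σ (redSL D T')⁻¹ w₀ := by
      have hX : (T' : IntMat) * heckeMat M p (e ⟨some j, hi⟩) =
          !![1, (D : ℤ) * (j : ℕ); 0, (p : ℤ)] := by
        rw [hTm]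
        show !![1, (t : ℤ); 0, 1] * !![1, ((k : ℕ) : ℤ); 0, (p : ℤ)] = _
        rw [Matrix.mul_fin_two]
        have hjk' : (D : ℤ) * (j : ℕ) = (k : ℤ) + (p : ℤ) * t := by exact_mod_cast hjk
        congrm !![?_, ?_; ?_, ?_]
        · ring
        · linear_combination -hjk'
        · ring
        · ring
      have hu := isUnit_det_heckeMat (M := M) hpD (e ⟨some j, hi⟩)
      have h2 := congrArg (red D) hX
      rw [red_mul (isUnit_det_sl D _) hu] at h2
      rw [eq_inv_mul_of_mul_eq h2, map_mul, Module.End.mul_apply]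
      congr 1
      exact hfix.red_apply (by
        rw [Matrix.det_fin_two_of]; simpa using (ZMod.isUnit_iff_coprime p D).mpr hpD)
        (by simp) (by simp)
    have hGL : ModularForm.heckeDiagMatrix D * heckeGL (M * D ^ 2) p ⟨some j, hi⟩ =
        mapGL ℝ T' * (heckeGL M p (e ⟨some j, hi⟩) * ModularForm.heckeDiagMatrix D) := by
      apply Matrix.GeneralLinearGroup.ext
      intro a b
      rw [Units.val_mul, Units.val_mul, Units.val_mul, val_heckeGL hp.ne_zero,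
        val_heckeGL hp.ne_zero, val_heckeDiagMatrix_eq (NeZero.ne D),
        show ((mapGL ℝ T' : GL (Fin 2) ℝ) : Matrix (Fin 2) (Fin 2) ℝ) =
          (T' : IntMat).map (Int.cast : ℤ → ℝ) from rfl, hTm]
      have hjk' : (D : ℝ) * (j : ℕ) = (k : ℝ) + (p : ℝ) * t := by exact_mod_cast hjk
      fin_cases a <;> fin_cases b <;>
        simp [e, heckeMat, diagMat, Matrix.mul_apply, Fin.sum_univ_two, ← hk]
      linear_combination hjk'
    have hw := hT (t : ℤ) (σ (redSL D T')⁻¹ w₀)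
    rw [← hT', ← Module.End.mul_apply, ← map_mul, mul_inv_cancel, map_one,
      Module.End.one_apply] at hw
    rw [hred, ← hw, ModularForm.SL_slash, hGL, SlashAction.slash_mul]
    rfl

omit [NeZero D] [NeZero M] in
theorem slash_T_zpow_of_mem (Φ : typeSpace D M σ) (t : ℤ) (w : W) :
    Φ.1 (σ (redSL D (ModularGroup.T ^ t)) w) ∣[(2 : ℤ)] (ModularGroup.T ^ t) = Φ.1 w :=
  slash_gamma0 Φ (Gamma0_mem.mpr (by rw [ModularGroup.coe_T_zpow]; simp)) w

theorem evalForm_heckeType_of_not_dvd {p : ℕ} (hp : p.Prime) (hpD : p.Coprime D) (hpM : ¬ p ∣ M)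
    (Φ : typeSpace D M σ) :
    evalForm hfix hcusp (heckeType D M σ hp hpD Φ) =
      CuspForm.heckeTLin 2 hp (fun h => hpM ((dvd_mul_sq_iff hp hpD).mp h))
        (evalForm hfix hcusp Φ) :=
  DFunLike.coe_injective
    ((evalFun_heckeMap hp hpD hfix Φ.1 (slash_T_zpow_of_mem Φ)).trans
      (heckeSlashSum_T (fun h => hpM ((dvd_mul_sq_iff hp hpD).mp h)) _))

theorem evalForm_heckeType_of_dvd {p : ℕ} (hp : p.Prime) (hpD : p.Coprime D) (hpM : p ∣ M)
    [NeZero (M * D ^ 2)] (Φ : typeSpace D M σ) :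
    evalForm hfix hcusp (heckeType D M σ hp hpD Φ) =
      CuspForm.heckeULin 2 (hpM.mul_right (D ^ 2)) (evalForm hfix hcusp Φ) :=
  DFunLike.coe_injective
    ((evalFun_heckeMap hp hpD hfix Φ.1 (slash_T_zpow_of_mem Φ)).trans
      (heckeSlashSum_U (hpM.mul_right (D ^ 2)) _))

omit [NeZero M] in
theorem evalFun_contractType {p : ℕ} (hp : p.Prime) (hpD : p.Coprime D) (hpM : p ∣ M)
    (hfix : IsTorusFixed σ w₀) (Φ : typeSpace D (p * M) σ) :
    evalFun D w₀ (contractType D M σ hp hpD hpM Φ).1 =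
      ModularForm.heckeU 2 p (evalFun D w₀ Φ.1) :=
  (evalFun_heckeMap hp hpD hfix Φ.1 (slash_T_zpow_of_mem Φ)).trans
    (heckeSlashSum_U (hpM.mul_right (D ^ 2)) _)

end Fermat.Agent.TwoAdic.Weil
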