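import Fermat.Agent.TwoAdic.RingClass.Local
import Fermat.Agent.TwoAdic.Weil.Plane
import Mathlib.Algebra.CharP.Quotient
import Mathlib.Algebra.Algebra.ZMod
import Mathlib.RingTheory.Norm.Basic
import Mathlib.LinearAlgebra.FreeModule.PID

/-!
# The residue planes at inert primes

For a prime `q` inert in the quadratic field `K`, `Residue K q = 𝓞 K / q` is a plane over `ZMod q`
whose norm is the reduction of the norm; an element is a square iff its norm is one.

Owner: helper77 (LT2, P3b).
-/

set_option autoImplicit false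
set_option linter.unusedSectionVars false

noncomputable section

open NumberField Module
open Fermat.Agent.TwoAdic.RingClass

namespace Fermat.Agent.TwoAdic.TypeSpace

variable (K : Type*) [Field K] [NumberField K]

/-- The residue ring at `q`. -/
abbrev Residue (q : ℕ) : Type _ := 𝓞 K ⧸ condIdeal K q

variable {K} {q : ℕ}

instance residueField [hm : (condIdeal K q).IsMaximal] : Field (Residue K q) :=
  Ideal.Quotient.field _

instance residueFintype [NeZero q] : Fintype (Residue K q) := Fintype.ofFinite _

theorem residue_natCast_self : ((q : ℕ) : Residue K q) = 0 := by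
  rw [← map_natCast (Ideal.Quotient.mk (condIdeal K q)), Ideal.Quotient.eq_zero_iff_mem]
  exact Ideal.mem_span_singleton_self _

instance residue_charP [hq : Fact q.Prime] [hm : (condIdeal K q).IsMaximal] :
    CharP (Residue K q) q := by
  obtain ⟨p, hp⟩ := CharP.exists (Residue K q)
  have hdvd : p ∣ q := (CharP.cast_eq_zero_iff (Residue K q) p q).mp residue_natCast_self
  rcases (Nat.dvd_prime hq.out).mp hdvd with h | h
  · exact absurd h (CharP.char_ne_one (Residue K q) p)
  · exact h ▸ hp

instance residueAlgebra [Fact q.Prime] [(condIdeal K q).IsMaximal] :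
    Algebra (ZMod q) (Residue K q) :=
  ZMod.algebra _ q

theorem algebraMap_intCast [Fact q.Prime] [(condIdeal K q).IsMaximal] (a : ℤ) :
    algebraMap (ZMod q) (Residue K q) (a : ZMod q) = (a : Residue K q) :=
  map_intCast _ a

variable (h2 : finrank ℚ K = 2)

include h2

theorem card_residue [NeZero q] : Fintype.card (Residue K q) = q ^ 2 := by
  rw [← Nat.card_eq_fintype_card, natCard_quotient_condIdeal, h2]

theorem finrank_residue [Fact q.Prime] [(condIdeal K q).IsMaximal] :
    finrank (ZMod q) (Residue K q) = 2 := by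
  have h := Module.card_eq_pow_finrank (K := ZMod q) (V := Residue K q)
  rw [card_residue h2, ZMod.card] at h
  exact (Nat.pow_right_injective (Fact.out : q.Prime).two_le h).symm

theorem isPlane_residue [Fact q.Prime] [(condIdeal K q).IsMaximal] :
    Weil.IsPlane (ZMod q) (Residue K q) :=
  ⟨finrank_residue h2⟩

/-- The norm of the residue plane is the reduction of the norm. -/
theorem norm_mk [Fact q.Prime] [(condIdeal K q).IsMaximal] (x : 𝓞 K) :
    Algebra.norm (ZMod q) (Ideal.Quotient.mk (condIdeal K q) x) =
      ((Algebra.norm ℤ x : ℤ) : ZMod q) := by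
  classical
  set π := Ideal.Quotient.mk (condIdeal K q) with hπ
  let b := Free.chooseBasis ℤ (𝓞 K)
  have hcard : Fintype.card (Free.ChooseBasisIndex ℤ (𝓞 K)) = finrank (ZMod q) (Residue K q) := by
    rw [← finrank_eq_card_chooseBasisIndex, RingOfIntegers.rank, h2, finrank_residue h2]
  have key : ∀ (c : Free.ChooseBasisIndex ℤ (𝓞 K) → ℤ),
      π (∑ i, c i • b i) = ∑ i, (c i : ZMod q) • π (b i) := fun c => by
    simp only [Algebra.smul_def, map_sum, map_mul, algebraMap_int_eq, eq_intCast, map_intCast]
  have hspan : ⊤ ≤ Submodule.span (ZMod q) (Set.range fun i => π (b i)) := by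
    rintro y -
    obtain ⟨y, rfl⟩ := Ideal.Quotient.mk_surjective y
    show π y ∈ _
    rw [← b.sum_repr y, key]
    exact Submodule.sum_mem _ fun i _ =>
      Submodule.smul_mem _ _ (Submodule.subset_span (Set.mem_range_self i))
  let b' := basisOfTopLeSpanOfCardEqFinrank _ hspan hcard
  have hb' : ∀ i, b' i = π (b i) := fun i => by
    simp [b', coe_basisOfTopLeSpanOfCardEqFinrank]
  have hM : Algebra.leftMulMatrix b' (π x) =
      (Algebra.leftMulMatrix b x).map (Int.cast : ℤ → ZMod q) := by
    ext i j
    rw [Algebra.leftMulMatrix_eq_repr_mul, Matrix.map_apply, Algebra.leftMulMatrix_eq_repr_mul,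
      hb', ← map_mul, ← b.sum_repr (x * b j), key]
    simp only [← hb', map_sum, map_smul, Basis.repr_self, Finsupp.coe_finset_sum,
      Finset.sum_apply, Finsupp.smul_apply, Finsupp.single_apply, smul_eq_mul, mul_ite, mul_one,
      mul_zero, Finset.sum_ite_eq', Finset.mem_univ, if_true]
  rw [Algebra.norm_eq_matrix_det b', hM, Algebra.norm_eq_matrix_det b x]
  exact ((Int.castRingHom (ZMod q)).map_det _).symm

/-- A nonzero residue is a square iff its norm is a square. -/
theorem isSquare_of_isSquare_norm [Fact q.Prime] [(condIdeal K q).IsMaximal] (hq2 : q ≠ 2)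
    {u : Residue K q} (hu : u ≠ 0) (h : IsSquare (Algebra.norm (ZMod q) u)) : IsSquare u := by
  have hE : ringChar (Residue K q) ≠ 2 := by
    rw [ringChar.eq (Residue K q) q]; exact hq2
  rw [FiniteField.isSquare_iff hE hu, card_residue h2]
  haveI := isPlane_residue (q := q) h2
  have hN : algebraMap (ZMod q) (Residue K q) (Algebra.norm (ZMod q) u) = u ^ (q + 1) := by
    rw [FiniteField.algebraMap_norm_eq_pow_sum, finrank_residue h2, Nat.card_zmod]
    simp [Finset.sum_range_succ, add_comm]
  have hF : ringChar (ZMod q) ≠ 2 := by rwa [ZMod.ringChar_zmod_n]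
  have h0 : Algebra.norm (ZMod q) u ≠ 0 := mt Algebra.norm_eq_zero_iff.mp hu
  have h1 := (FiniteField.isSquare_iff hF h0).mp h
  rw [ZMod.card] at h1
  have h3 := congrArg (algebraMap (ZMod q) (Residue K q)) h1
  rw [map_pow, map_one, hN, ← pow_mul] at h3
  obtain ⟨c, hc⟩ : 2 ∣ q + 1 := by
    have := (Fact.out : q.Prime).eq_two_or_odd.resolve_left hq2
    omega
  obtain ⟨e, rfl⟩ : ∃ e, q = 2 * e + 1 := ⟨c - 1, by omega⟩
  rw [show (2 * e + 1) ^ 2 / 2 = (2 * e + 1 + 1) * ((2 * e + 1) / 2) by
    rw [show (2 * e + 1) ^ 2 = 2 * (2 * e * e + 2 * e) + 1 by ring]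
    have : (2 * e + 1) / 2 = e := by omega
    rw [this]
    have : (2 * (2 * e * e + 2 * e) + 1) / 2 = 2 * e * e + 2 * e := by omega
    rw [this]
    ring]
  exact h3

end Fermat.Agent.TwoAdic.TypeSpace
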