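import Fermat.Agent.TwoAdic.TypeSpace.ClassForm
import Fermat.Agent.TwoAdic.TypeSpace.Planes
import Fermat.Agent.TwoAdic.RingClass.MuTilde
import Fermat.Agent.TwoAdic.Weil.Span
import Fermat.Agent.TwoAdic.Weil.Sign
import Mathlib.Analysis.SpecialFunctions.Complex.CircleAddChar
import Mathlib.Analysis.Complex.Polynomial.Basic
import Mathlib.FieldTheory.IsAlgClosed.Basic
import Mathlib.NumberTheory.LegendreSymbol.QuadraticChar.Basic

/-!
# The type `σ_μ` at an auxiliary set

For `f = ∏ Q`: the Weil data on the planes `𝓞 K / q` with the characters `t ↦ e(-t/f)`, the local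
characters of order 4, and the coordinates of the planes attached to an ideal form.

Owner: helper77 (LT2, P3b).
-/

set_option autoImplicit false
set_option linter.unusedSectionVars false

noncomputable section

open NumberField Module
open scoped Classical
open Fermat.Agent.TwoAdic.RingClass Fermat.Agent.TwoAdic.Theta

namespace Fermat.Agent.TwoAdic.TypeSpace

/-- Each prime of `Q` is a prime. -/
class PrimeSet (Q : Finset ℕ) : Prop where
  fact_prime : ∀ q : Q, Fact (q : ℕ).Prime

instance fact_prime_coe {Q : Finset ℕ} [PrimeSet Q] (q : Q) : Fact (q : ℕ).Prime :=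
  PrimeSet.fact_prime q

/-- Each prime of `Q` is inert in the quadratic field `K`. -/
class InertSet (K : Type*) [Field K] [NumberField K] (Q : Finset ℕ) : Prop where
  finrank_eq_two : finrank ℚ K = 2
  maximal : ∀ q : Q, (condIdeal K (q : ℕ)).IsMaximal

variable (K : Type*) [Field K] [NumberField K] {f : ℕ} [NeZero f] {Q : Finset ℕ}

instance isMaximal_coe [InertSet K Q] (q : Q) : (condIdeal K (q : ℕ)).IsMaximal :=
  InertSet.maximal q

instance isPlane_coe [PrimeSet Q] [InertSet K Q] (q : Q) :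
    Weil.IsPlane (ZMod (q : ℕ)) (Residue K (q : ℕ)) :=
  isPlane_residue (InertSet.finrank_eq_two (Q := Q))

/-- The hypotheses give the instances. -/
theorem primeSet_of_isAuxSet (h : IsAuxSet K f Q) : PrimeSet Q := ⟨fun q => ⟨h.prime q q.2⟩⟩

theorem inertSet_of_isAuxSet (h : IsAuxSet K f Q) : InertSet K Q :=
  ⟨h.finrank_eq, fun q => by
    have : NeZero (q : ℕ) := ⟨(h.prime q q.2).ne_zero⟩
    exact (h.inert q q.2).isMaximal condIdeal_ne_bot⟩

section Crt

variable [PrimeSet Q] (hf : ∏ q ∈ Q, q = f)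

include hf

/-- Reduction modulo a prime of `Q`. -/
def proj (q : Q) : ZMod f →+* ZMod (q : ℕ) :=
  ZMod.castHom (hf ▸ Finset.dvd_prod_of_mem _ q.2) _

theorem proj_bijective : Function.Bijective fun (a : ZMod f) (q : Q) => proj hf q a := by
  rw [Fintype.bijective_iff_injective_and_card, ZMod.card, Fintype.card_pi]
  refine ⟨fun a b h => ?_, ?_⟩
  · obtain ⟨a, rfl⟩ := ZMod.intCast_surjective a
    obtain ⟨b, rfl⟩ := ZMod.intCast_surjective b
    rw [ZMod.intCast_eq_intCast_iff_dvd_sub, ← hf, Nat.cast_prod]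
    refine Finset.prod_dvd_of_coprime (fun x hx y hy hxy => ?_) fun q hq => ?_
    · exact Int.isCoprime_iff_nat_coprime.mpr ((Nat.coprime_primes (fact_prime_coe ⟨x, hx⟩).out
        (fact_prime_coe ⟨y, hy⟩).out).mpr hxy)
    · have h1 := congrFun h ⟨q, hq⟩
      simpa [proj, ZMod.intCast_eq_intCast_iff_dvd_sub] using h1
  · simp only [ZMod.card]
    rw [Finset.prod_coe_sort Q (fun q : ℕ => q), hf]

/-- The idempotent section of `proj q`. -/
def idem (q : Q) : ZMod (q : ℕ) →+ ZMod f :=
  (AddEquiv.ofBijective (AddMonoidHom.pi fun q : Q => (proj hf q).toAddMonoidHom)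
    (proj_bijective hf)).symm.toAddMonoidHom.comp
      (AddMonoidHom.single (fun q : Q => ZMod (q : ℕ)) q)

theorem proj_idem (q q' : Q) (t : ZMod (q : ℕ)) :
    proj hf q' (idem hf q t) = Pi.single (M := fun q : Q => ZMod (q : ℕ)) q t q' :=
  congrFun ((AddEquiv.ofBijective (AddMonoidHom.pi fun q : Q => (proj hf q).toAddMonoidHom)
    (proj_bijective hf)).apply_symm_apply _) q'

theorem sum_idem_proj (a : ZMod f) : ∑ q : Q, idem hf q (proj hf q a) = a := by
  refine (proj_bijective hf).1 (funext fun q => ?_)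
  simp only [map_sum, proj_idem, Finset.sum_pi_single, Finset.mem_univ, if_true]

/-- The additive characters, with product `a ↦ e(-a/f)`. -/
def addCharAt (q : Q) : AddChar (ZMod (q : ℕ)) ℂ :=
  ZMod.stdAddChar.compAddMonoidHom (-idem hf q)

theorem addCharAt_apply (q : Q) (t : ZMod (q : ℕ)) :
    addCharAt hf q t = ZMod.stdAddChar (-idem hf q t) := rfl

theorem addCharAt_eq_one_iff (q : Q) (t : ZMod (q : ℕ)) : addCharAt hf q t = 1 ↔ t = 0 := by
  refine ⟨fun h => ?_, fun h => by simp [h]⟩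
  rw [addCharAt_apply, ← AddChar.map_zero_eq_one (ZMod.stdAddChar (N := f))] at h
  have h2 := congrArg (proj hf q) (neg_eq_zero.mp (ZMod.injective_stdAddChar h))
  rwa [proj_idem, Pi.single_eq_same, map_zero] at h2

/-- The Weil data. -/
def data : Weil.Data (ZMod f) (fun q : Q => ZMod (q : ℕ)) ℂ where
  proj := proj hf
  char := addCharAt hf
  char_ne q h := one_ne_zero ((addCharAt_eq_one_iff hf q 1).mp (by rw [h]; rfl))
  inv q := invertibleOfNonzero (by rw [ZMod.card]; exact_mod_cast (fact_prime_coe q).out.ne_zero)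

theorem data_proj (q : Q) : (data hf).proj q = proj hf q := rfl

theorem prod_char (a : ZMod f) :
    ∏ q : Q, (data hf).char q ((data hf).proj q a) = ZMod.stdAddChar (-a) := by
  show ∏ q : Q, addCharAt hf q (proj hf q a) = _
  simp only [addCharAt_apply]
  conv_rhs => rw [← sum_idem_proj hf a, ← Finset.sum_neg_distrib]
  exact (map_prod (ZMod.stdAddChar (N := f)).toMonoidHom
    (fun q : Q => Multiplicative.ofAdd (-idem hf q (proj hf q a))) Finset.univ).symm

theorem data_surjective :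
    Function.Surjective fun (a : ZMod f) (q : Q) => (data hf).proj q a :=
  (proj_bijective hf).2

end Crt

variable {K}

section Mu

variable [PrimeSet Q] [InertSet K Q]

theorem pow_pred_eq_one_of_scalar {q : Q} (u : (Residue K (q : ℕ))ˣ) (a : ZMod (q : ℕ))
    (h : algebraMap (ZMod (q : ℕ)) (Residue K (q : ℕ)) a = u) : u ^ ((q : ℕ) - 1) = 1 := by
  have ha : a ≠ 0 := by
    rintro rfl
    exact u.ne_zero (by rw [← h, map_zero])
  refine Units.ext ?_
  rw [Units.val_pow_eq_pow_val, ← h, ← map_pow, ZMod.pow_card_sub_one_eq_one ha, map_one,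
    Units.val_one]

theorem norm_eq_pow {q : Q} (x : Residue K (q : ℕ)) :
    algebraMap (ZMod (q : ℕ)) (Residue K (q : ℕ)) (Algebra.norm (ZMod (q : ℕ)) x) =
      x ^ ((q : ℕ) + 1) := by
  rw [FiniteField.algebraMap_norm_eq_pow_sum, finrank_residue (InertSet.finrank_eq_two (Q := Q)),
    Nat.card_zmod]
  simp [Finset.sum_range_succ, add_comm]

variable (ν : ∀ q : Q, ResUnits K (q : ℕ) →* ℂˣ) (h : IsAuxSet K f Q)
  (hν : ∀ q, IsLocalChar (ν q))

include h hν

theorem isCuspidal : Weil.IsCuspidal (F := fun q : Q => ZMod (q : ℕ))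
    (E := fun q : Q => Residue K (q : ℕ)) ν where
  trivial q u a ha := (hν q).eq_one u (pow_pred_eq_one_of_scalar u a ha)
  exists_ne_one q := by
    obtain ⟨x, hx, hne⟩ := (hν q).exists_ne_one (h.four_dvd q q.2) (h.natCard_resUnits q.2)
    refine ⟨x, (algebraMap (ZMod (q : ℕ)) (Residue K (q : ℕ))).injective ?_, hne⟩
    rw [norm_eq_pow, map_one, ← Units.val_pow_eq_pow_val, hx, Units.val_one]

theorem local_sq {q : Q} (x : ResUnits K (q : ℕ)) :
    ν q x ^ 2 = if IsSquare x then 1 else -1 := by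
  have hne : (q : ℕ) ≠ 2 := fun e => by
    have := h.four_dvd q q.2
    omega
  split_ifs with hx
  · obtain ⟨y, rfl⟩ := hx
    rw [map_mul, ← sq, ← pow_mul]
    exact (hν q).pow_four y
  · obtain ⟨g, hg⟩ := (hν q).exists_orderOf
    have hgsq : ∀ z : ResUnits K (q : ℕ), IsSquare z → ν q z ^ 2 = 1 := by
      rintro z ⟨y, rfl⟩
      rw [map_mul, ← sq, ← pow_mul]
      exact (hν q).pow_four y
    have hgne : ¬ IsSquare g := fun hs => by
      have := orderOf_dvd_of_pow_eq_one (hgsq g hs)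
      rw [hg] at this
      norm_num at this
    have : NeZero (q : ℕ) := ⟨(h.prime q q.2).ne_zero⟩
    have hchar : ringChar (Residue K (q : ℕ)) ≠ 2 := by
      rw [ringChar.eq (Residue K (q : ℕ)) (q : ℕ)]; exact hne
    have hu : ∀ z : ResUnits K (q : ℕ), IsSquare (z : Residue K (q : ℕ)) → IsSquare z := by
      rintro z ⟨y, hy⟩
      exact ⟨Units.mk0 y (by rintro rfl; exact z.ne_zero (by rw [hy, mul_zero])), Units.ext hy⟩
    have hsq : IsSquare (g⁻¹ * x) := by
      refine hu _ ?_
      rw [Units.val_mul, Units.val_inv_eq_inv_val, ← quadraticChar_one_iff_isSquare (by simp),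
        map_mul]
      rcases quadraticChar_dichotomy (F := Residue K (q : ℕ))
        (a := (g : Residue K (q : ℕ))⁻¹) (by simp) with h1 | h1
      · rw [quadraticChar_one_iff_isSquare (by simp)] at h1
        exact absurd (hu g (by simpa using h1.inv)) hgne
      · rcases quadraticChar_dichotomy (F := Residue K (q : ℕ))
          (a := (x : Residue K (q : ℕ))) x.ne_zero with h2 | h2
        · rw [quadraticChar_one_iff_isSquare x.ne_zero] at h2
          exact absurd (hu x h2) hx
        · rw [h1, h2]; norm_num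
    have h4 : (ν q g ^ 2) ^ 2 = 1 := by rw [← pow_mul]; exact (hν q).pow_four g
    have hne1 : ν q g ^ 2 ≠ 1 := fun e => by
      have := orderOf_dvd_of_pow_eq_one e
      rw [hg] at this
      norm_num at this
    have hgm : ν q g ^ 2 = -1 := by
      refine Units.ext ?_
      have h4' : ((ν q g ^ 2 : ℂˣ) : ℂ) ^ 2 = 1 := by
        rw [← Units.val_pow_eq_pow_val, h4, Units.val_one]
      rcases sq_eq_one_iff.mp h4' with e | e
      · exact absurd (Units.ext e) hne1
      · rw [e]; simp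
    rw [show x = g * (g⁻¹ * x) by group, map_mul, mul_pow, hgsq _ hsq, hgm, mul_one]

theorem hasSign : Weil.HasSign (F := fun q : Q => ZMod (q : ℕ))
    (E := fun q : Q => Residue K (q : ℕ)) ν := by
  intro q x
  have hne : (q : ℕ) ≠ 2 := fun e => by
    have := h.four_dvd q q.2
    omega
  have hconj : Units.map (Weil.planeConj (ZMod (q : ℕ)) (Residue K (q : ℕ)) :
      Residue K (q : ℕ) →* Residue K (q : ℕ)) x = x ^ (q : ℕ) :=
    Units.ext (by simp [Weil.planeConj])
  rw [hconj, map_mul, (hν q).map_pow_q (h.four_dvd q q.2), map_inv, ← mul_inv, ← sq,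
    local_sq ν h hν x]
  have hiff : IsSquare x ↔ IsSquare (Algebra.norm (ZMod (q : ℕ)) (x : Residue K (q : ℕ))) := by
    constructor
    · rintro ⟨y, rfl⟩
      exact ⟨Algebra.norm (ZMod (q : ℕ)) (y : Residue K (q : ℕ)), by rw [Units.val_mul, map_mul]⟩
    · intro hs
      obtain ⟨y, hy⟩ := isSquare_of_isSquare_norm (InertSet.finrank_eq_two (Q := Q)) hne x.ne_zero hs
      exact ⟨Units.mk0 y (by rintro rfl; exact x.ne_zero (by rw [hy, mul_zero])), Units.ext hy⟩
  by_cases hx : IsSquare x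
  · simp [hx, hiff.mp hx]
  · simp [hx, mt hiff.mpr hx]

end Mu

section Coord

variable [PrimeSet Q] [InertSet K Q] (hf : ∏ q ∈ Q, q = f) {I : Ideal (𝓞 K)} (F : IdealForm I)

/-- The absolute norm of an ideal prime to `f` is a unit modulo `f`. -/
theorem isUnit_absNorm (h2 : finrank ℚ K = 2) (hI : IsCoprime I (condIdeal K f)) :
    IsUnit ((Ideal.absNorm I : ℕ) : ZMod f) := by
  obtain ⟨i, hi, j, hj, hij⟩ := Ideal.isCoprime_iff_exists.mp hI
  rw [ZMod.isUnit_iff_coprime]
  by_contra hne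
  obtain ⟨p, hp, hpI, hpf⟩ := Nat.Prime.not_coprime_iff_dvd.mp hne
  obtain ⟨j', rfl⟩ := Ideal.mem_span_singleton'.mp hj
  have h1 : (p : ℤ) ∣ Algebra.norm ℤ i :=
    (Int.natCast_dvd_natCast.mpr hpI).trans (Ideal.absNorm_dvd_norm_of_mem hi)
  obtain ⟨σ, -, hN, -⟩ := exists_conj (K := K) h2
  have h3 : ∃ z : ℤ, Algebra.norm ℤ i = 1 + (f : ℤ) * z := by
    refine ⟨(f : ℤ) * Algebra.norm ℤ j' - Algebra.trace ℤ (𝓞 K) j', ?_⟩
    apply Int.cast_injective (α := K)
    obtain ⟨σ', -, hN', hT'⟩ := exists_conj (K := K) h2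
    push_cast
    rw [hN', hT', hN', show i = 1 - j' * (f : 𝓞 K) by linear_combination hij]
    push_cast
    rw [map_sub, map_mul, map_one, map_natCast]
    ring
  obtain ⟨z, hz⟩ := h3
  rw [hz] at h1
  have h4 : (p : ℤ) ∣ 1 := by
    have := (Int.natCast_dvd_natCast.mpr hpf).mul_right z
    exact (Int.dvd_add_left this).mp h1
  exact hp.not_dvd_one (by exact_mod_cast h4)

variable (hI : IsCoprime I (condIdeal K f))

/-- A norm lift of `1 / N I`. -/
def scaleUnit : ∀ q : Q, (Residue K (q : ℕ))ˣ :=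
  Weil.normLift (fun q : Q => Residue K (q : ℕ)) (data hf)
    ((isUnit_absNorm (InertSet.finrank_eq_two (Q := Q)) hI).unit⁻¹)

theorem norm_scaleUnit (q : Q) :
    Algebra.norm (ZMod (q : ℕ)) (scaleUnit hf hI q : Residue K (q : ℕ)) *
      ((Ideal.absNorm I : ℕ) : ZMod (q : ℕ)) = 1 := by
  have hnl : Algebra.norm (ZMod (q : ℕ)) (scaleUnit hf hI q : Residue K (q : ℕ)) =
      proj hf q (((isUnit_absNorm (InertSet.finrank_eq_two (Q := Q)) hI).unit⁻¹ : (ZMod f)ˣ) :
        ZMod f) :=
    Weil.isNormLift_normLift (E := fun q : Q => Residue K (q : ℕ)) (data hf) _ q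
  rw [hnl]
  conv_lhs => rw [← map_natCast (proj hf q)]
  rw [← map_mul, IsUnit.val_inv_mul, map_one]

/-- The coordinates `v ↦ h (v₁ ω₀ + v₂ ω₁)`. -/
def coord : ZMod f × ZMod f →+ ∀ q : Q, Residue K (q : ℕ) where
  toFun v q := (scaleUnit hf hI q : Residue K (q : ℕ)) *
    (algebraMap _ _ (proj hf q v.1) * Ideal.Quotient.mk _ (F.ω 0) +
      algebraMap _ _ (proj hf q v.2) * Ideal.Quotient.mk _ (F.ω 1))
  map_zero' := by funext q; simp
  map_add' v w := by funext q; simp; ring

theorem coord_intCast (x : ℤ × ℤ) (q : Q) :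
    coord hf F hI ((x.1 : ZMod f), (x.2 : ZMod f)) q =
      (scaleUnit hf hI q : Residue K (q : ℕ)) * Ideal.Quotient.mk _ (combo F.ω x) := by
  simp [coord, combo, proj, ZMod.cast_intCast (hf ▸ Finset.dvd_prod_of_mem _ q.2 : (q : ℕ) ∣ f)]

theorem norm_coord (v : ZMod f × ZMod f) (q : Q) :
    Algebra.norm (ZMod (q : ℕ)) (coord hf F hI v q) = (data hf).proj q (F.form.eval v) := by
  obtain ⟨a, b⟩ := v
  obtain ⟨a, rfl⟩ := ZMod.intCast_surjective a
  obtain ⟨b, rfl⟩ := ZMod.intCast_surjective b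
  rw [coord_intCast hf F hI (a, b), map_mul,
    norm_mk (InertSet.finrank_eq_two (Q := Q)), F.norm_combo, Int.cast_mul, Int.cast_natCast,
    ← mul_assoc, norm_scaleUnit, one_mul, data_proj, ← F.form.eval_intCast (R := ZMod f) (a, b),
    map_intCast]

theorem coord_bijective : Function.Bijective (coord hf F hI) := by
  rw [Fintype.bijective_iff_injective_and_card]
  refine ⟨(injective_iff_map_eq_zero _).mpr fun v hv => ?_, ?_⟩
  · obtain ⟨a, b⟩ := v
    obtain ⟨a, rfl⟩ := ZMod.intCast_surjective a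
    obtain ⟨b, rfl⟩ := ZMod.intCast_surjective b
    have hmem : combo F.ω (a, b) ∈ I := (F.mem_iff _).mpr ⟨_, rfl⟩
    have hq : ∀ q ∈ Q, ((q : ℕ) : 𝓞 K) ∣ combo F.ω (a, b) := fun q hq => by
      have h1 := congrFun hv ⟨q, hq⟩
      rw [coord_intCast hf F hI (a, b)] at h1
      simp only [Pi.zero_apply, Units.mul_right_eq_zero] at h1
      exact Ideal.mem_span_singleton.mp (Ideal.Quotient.eq_zero_iff_mem.mp h1)
    have hdvd : ((f : ℕ) : 𝓞 K) ∣ combo F.ω (a, b) := by
      rw [← hf, Nat.cast_prod]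
      refine Finset.prod_dvd_of_coprime (fun x hx y hy hxy => ?_) hq
      exact ((Nat.coprime_primes (fact_prime_coe ⟨x, hx⟩).out
        (fact_prime_coe ⟨y, hy⟩).out).mpr hxy).cast
    have hin : combo F.ω (a, b) ∈ I * condIdeal K f := by
      rw [Ideal.mul_eq_inf_of_coprime (Ideal.isCoprime_iff_sup_eq.mp hI)]
      exact ⟨hmem, Ideal.mem_span_singleton.mpr hdvd⟩
    rw [condIdeal, Ideal.mem_mul_span_singleton] at hin
    obtain ⟨z, hz, hzeq⟩ := hin
    obtain ⟨w, rfl⟩ := (F.mem_iff z).mp hz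
    have hw : combo F.ω ((f : ℤ) * w.1, (f : ℤ) * w.2) = combo F.ω (a, b) := by
      rw [← hzeq]
      simp [combo]
      ring
    have he := F.combo_injective hw
    rw [Prod.ext_iff] at he
    show ((a : ZMod f), (b : ZMod f)) = 0
    simp only at he
    rw [← he.1, ← he.2]
    simp
  · simp only [Fintype.card_prod, ZMod.card, Fintype.card_pi,
      card_residue (InertSet.finrank_eq_two (Q := Q))]
    rw [Finset.prod_coe_sort Q (fun q : ℕ => q ^ 2), Finset.prod_pow, hf, sq]

end Coord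

end Fermat.Agent.TwoAdic.TypeSpace
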