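import Fermat.Agent.TwoAdic.TypeSpace.ThetaSeries
import Fermat.Agent.TwoAdic.TypeSpace.Eval
import Fermat.Prelude.Thm_UpperHalfPlane_qCoeff_heckeU

/-!
# The coefficients of the halved theta product and of its contraction

Half the product `θ_φ · θ₀` has algebraic integral coefficients, because `φ` is even and vanishes
at the origin, and `θ₀ ≡ 1 (mod 2)`: modulo 2 the coefficients are the sums of `φ` over the
representations up to sign. Contracting twice by `U₂` lowers the level by 4 and keeps every fourth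
coefficient.

Owner: helper74 (LT2, P3).
-/

set_option autoImplicit false
set_option linter.unusedSectionVars false
set_option linter.style.haveILetI false

noncomputable section

open UpperHalfPlane hiding I
open CongruenceSubgroup Fermat.Agent.TwoAdic.Theta
open scoped MatrixGroups ModularForm Manifold

namespace Fermat.Agent.TwoAdic.TypeSpace

/-- One of `x`, `-x` for each nonzero `x`. -/
def IsPosVec (x : ℤ × ℤ) : Prop := 0 < x.1 ∨ (x.1 = 0 ∧ 0 < x.2)

instance (x : ℤ × ℤ) : Decidable (IsPosVec x) := by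
  unfold IsPosVec
  infer_instance

theorem isPosVec_neg_iff {x : ℤ × ℤ} (hx : x ≠ 0) : IsPosVec (-x) ↔ ¬ IsPosVec x := by
  obtain ⟨a, b⟩ := x
  simp only [Ne, Prod.ext_iff, Prod.fst_zero, Prod.snd_zero] at hx
  simp only [IsPosVec, Prod.fst_neg, Prod.snd_neg]
  omega

/-- A sum of an even function over a symmetric finite set avoiding zero is twice a half sum. -/
theorem sum_eq_two_mul_half {R : Type*} [CommRing R] (s : Finset (ℤ × ℤ)) (h0 : (0 : ℤ × ℤ) ∉ s)
    (hs : ∀ x ∈ s, -x ∈ s) (g : ℤ × ℤ → R) (hg : ∀ x ∈ s, g (-x) = g x) :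
    ∑ x ∈ s, g x = 2 * ∑ x ∈ s.filter IsPosVec, g x := by
  have hne : ∀ x ∈ s, x ≠ 0 := fun x hx e => h0 (e ▸ hx)
  rw [two_mul]
  conv_lhs => rw [← Finset.sum_filter_add_sum_filter_not s IsPosVec]
  congr 1
  refine Finset.sum_nbij' (fun x => -x) (fun x => -x) ?_ ?_ (by simp) (by simp) ?_
  · intro x hx
    simp only [Finset.mem_filter] at hx ⊢
    exact ⟨hs x hx.1, (isPosVec_neg_iff (hne x hx.1)).mpr hx.2⟩
  · intro x hx
    simp only [Finset.mem_filter] at hx ⊢
    exact ⟨hs x hx.1, fun h => (isPosVec_neg_iff (hne x hx.1)).mp h hx.2⟩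
  · intro x hx
    exact (hg x (Finset.mem_filter.mp hx).1).symm

section Half

variable {m : ℕ} [NeZero m] (f : PosForm) {R : Type*} [CommRing R]

/-- The sum of a weight over the representations of `n` by `f` up to sign. -/
def halfCoeff (φ : ZMod m × ZMod m → R) (n : ℕ) : R :=
  ∑ x ∈ (finite_repsOf f n).toFinset.filter IsPosVec, φ (vecCast m x)

theorem map_halfCoeff {R' : Type*} [CommRing R'] (g : R →+* R') (φ : ZMod m × ZMod m → R) (n : ℕ) :
    g (halfCoeff f φ n) = halfCoeff f (fun v => g (φ v)) n :=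
  map_sum g _ _

theorem halfCoeff_zero (φ : ZMod m × ZMod m → R) : halfCoeff f φ 0 = 0 := by
  refine Finset.sum_eq_zero fun x hx => ?_
  simp only [Finset.mem_filter, Set.Finite.mem_toFinset, repsOf, Set.mem_ofPred_eq,
    Nat.cast_zero, PosForm.eval_eq_zero_iff] at hx
  obtain ⟨rfl, h⟩ := hx
  simp [IsPosVec] at h

theorem sum_repsOf_eq (φ : ZMod m × ZMod m → R) (h0 : φ 0 = 0) (heven : ∀ v, φ (-v) = φ v)
    (n : ℕ) :
    ∑ x ∈ (finite_repsOf f n).toFinset, φ (vecCast m x) = 2 * halfCoeff f φ n := by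
  rcases Nat.eq_zero_or_pos n with rfl | hn
  · rw [halfCoeff_zero, mul_zero]
    refine Finset.sum_eq_zero fun x hx => ?_
    simp only [Set.Finite.mem_toFinset, repsOf, Set.mem_ofPred_eq, Nat.cast_zero,
      PosForm.eval_eq_zero_iff] at hx
    subst hx
    rw [show vecCast m (0 : ℤ × ℤ) = 0 by simp [vecCast]]
    exact h0
  · refine sum_eq_two_mul_half _ ?_ ?_ _ ?_
    · simp only [Set.Finite.mem_toFinset, repsOf, Set.mem_ofPred_eq]
      intro h
      rw [(f.eval_eq_zero_iff 0).mpr rfl] at h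
      omega
    · intro x hx
      simp only [Set.Finite.mem_toFinset, repsOf, Set.mem_ofPred_eq] at hx ⊢
      rw [← hx]
      simp [PosForm.eval]
    · intro x _
      rw [show vecCast m (-x) = -vecCast m x by simp [vecCast], heven]

/-- The number of representations of a positive integer is even. -/
theorem cast_card_repsOf (f₁ : PosForm) (h2 : (2 : R) = 0) (n : ℕ) :
    ((finite_repsOf f₁ n).toFinset.card : R) = if n = 0 then 1 else 0 := by
  rcases Nat.eq_zero_or_pos n with rfl | hn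
  · have h : (finite_repsOf f₁ 0).toFinset = {0} := by
      ext x
      simp [repsOf, PosForm.eval_eq_zero_iff]
    simp [h]
  · rw [if_neg hn.ne', Finset.card_eq_sum_ones, Nat.cast_sum, Nat.cast_one,
      sum_eq_two_mul_half _ ?_ ?_ _ (fun _ _ => rfl), h2, zero_mul]
    · simp only [Set.Finite.mem_toFinset, repsOf, Set.mem_ofPred_eq]
      intro h
      rw [(f₁.eval_eq_zero_iff 0).mpr rfl] at h
      omega
    · intro x hx
      simp only [Set.Finite.mem_toFinset, repsOf, Set.mem_ofPred_eq] at hx ⊢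
      rw [← hx]
      simp [PosForm.eval]

/-- The coefficients of half the product, over any ring. -/
def prodCoeff (f₁ : PosForm) (φ : ZMod m × ZMod m → R) (n : ℕ) : R :=
  (m : R) * ∑ p ∈ Finset.HasAntidiagonal.antidiagonal n,
    halfCoeff f φ p.1 * ((finite_repsOf f₁ p.2).toFinset.card : R)

theorem map_prodCoeff {R' : Type*} [CommRing R'] (g : R →+* R') (f₁ : PosForm)
    (φ : ZMod m × ZMod m → R) (n : ℕ) :
    g (prodCoeff f f₁ φ n) = prodCoeff f f₁ (fun v => g (φ v)) n := by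
  simp [prodCoeff, map_sum, map_halfCoeff]

theorem prodCoeff_of_two_eq_zero (f₁ : PosForm) (h2 : (2 : R) = 0) (hm : Odd m)
    (φ : ZMod m × ZMod m → R) (n : ℕ) : prodCoeff f f₁ φ n = halfCoeff f φ n := by
  obtain ⟨j, rfl⟩ := hm
  rw [prodCoeff, Finset.sum_eq_single ((n, 0) : ℕ × ℕ)]
  · rw [cast_card_repsOf f₁ h2, if_pos rfl, Nat.cast_add, Nat.cast_mul, Nat.cast_two, h2]
    simp
  · intro p hp hne
    rw [Finset.HasAntidiagonal.mem_antidiagonal] at hp
    rw [cast_card_repsOf f₁ h2, if_neg, mul_zero]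
    intro h
    exact hne (Prod.ext (by omega) h)
  · exact fun h => absurd (Finset.HasAntidiagonal.mem_antidiagonal.mpr (add_zero n)) h

end Half

section Contraction

variable {D M : ℕ} [NeZero D] [NeZero M] {W : Type*} [AddCommGroup W] [Module ℂ W]
  {σ : Representation ℂ (GL (Fin 2) (ZMod D)) W} {w₀ : W}

/-- `U_p` on type spaces keeps every `p`-th coefficient. -/
theorem qCoeff_evalFun_contractType {p : ℕ} (hp : p.Prime) (hpD : p.Coprime D) (hpM : p ∣ M)
    (hfix : Weil.IsTorusFixed σ w₀) (Φ : Weil.typeSpace D (p * M) σ) (n : ℕ) :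
    ModularFormClass.qCoeff (Weil.evalFun D w₀ (Weil.contractType D M σ hp hpD hpM Φ).1) n =
      ModularFormClass.qCoeff (Weil.evalFun D w₀ Φ.1) (n * p) := by
  haveI : NeZero (p * M) := ⟨mul_ne_zero hp.ne_zero (NeZero.ne M)⟩
  let F : SlashInvariantForm (Gamma0 (p * M * D ^ 2)) 2 :=
    { toFun := Weil.evalFun D w₀ Φ.1
      slash_action_eq' := fun A hA => by
        obtain ⟨γ, hγ, rfl⟩ := hA
        exact Weil.evalFun_slash hfix Φ hγ }
  have hper : Function.Periodic (Weil.evalFun D w₀ Φ.1 ∘ ofComplex) 1 := by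
    have h := SlashInvariantFormClass.periodic_comp_ofComplex (h := (1 : ℝ)) F (by simp)
    rw [Complex.ofReal_one] at h
    exact h
  have hbdd : IsBoundedAtImInfty (Weil.evalFun D w₀ Φ.1) := by
    obtain ⟨g, hg⟩ := Weil.heckeDiagMatrix_eq_map D
    have hc : IsCusp OnePoint.infty 𝒮ℒ := Subgroup.isCusp_of_mem_strictPeriods one_pos (by simp)
    rw [← OnePoint.isBoundedAt_infty_iff (f := Weil.evalFun D w₀ Φ.1) (k := 2), Weil.evalFun, hg]
    exact OnePoint.IsBoundedAt.smul_iff.mp (Weil.isBoundedAt Φ _ (Weil.isCusp_map_smul hc g))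
  rw [Weil.evalFun_contractType hp hpD hpM hfix,
    UpperHalfPlane.qCoeff_heckeU hper (MDifferentiable.slash (Weil.mdiff Φ _) _ _) hbdd 2
      hp.ne_zero, ModularForm.coeffHeckeU_apply]

end Contraction

variable {m : ℕ} [NeZero m] {ι : Type*} [Fintype ι] {F E : ι → Type*}
  [∀ i, Field (F i)] [∀ i, Field (E i)] [∀ i, Fintype (F i)] [∀ i, Fintype (E i)]
  [∀ i, Algebra (F i) (E i)] [∀ i, Weil.IsPlane (F i) (E i)]
  {f : PosForm} {d : Weil.Data (ZMod m) F ℂ} (P : PlaneCoord f d E)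
  {μ : (i : ι) → (E i)ˣ →* ℂˣ}

theorem pull_cusp_neg (hμ : Weil.IsCuspidal (F := F) μ) (w : Weil.cusp (F := F) μ)
    (v : ZMod m × ZMod m) :
    P.pull (w : ((i : ι) → E i) → ℂ) (-v) = P.pull (w : ((i : ι) → E i) → ℂ) v := by
  have hscal : ∀ i, algebraMap (F i) (E i) (-1) = ((-1 : (E i)ˣ) : E i) := fun i => by simp
  have hnorm : ∀ i, Algebra.norm (F i) (((fun _ => -1 : ∀ i, (E i)ˣ) i : (E i)ˣ) : E i) = 1 :=
    fun i => by
      rw [← hscal, Algebra.norm_algebraMap,
        (inferInstance : Weil.IsPlane (F i) (E i)).finrank_eq_two]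
      ring
  have hone : Weil.muVal μ (fun _ => -1) = 1 := Finset.prod_eq_one fun i _ => by
    rw [hμ.trivial i _ (-1) (hscal i), Units.val_one]
  have h := w.2 (fun _ => -1) hnorm (P.equiv v)
  rw [hone, one_mul] at h
  rw [PlaneCoord.pull_apply, PlaneCoord.pull_apply, map_neg, ← h]
  refine congrArg (w : ((i : ι) → E i) → ℂ) (funext fun i => ?_)
  simp [Weil.scale]

theorem pull_cusp_zero [Nonempty ι] (hμ : Weil.IsCuspidal (F := F) μ) (w : Weil.cusp (F := F) μ) :
    P.pull (w : ((i : ι) → E i) → ℂ) 0 = 0 :=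
  Weil.apply_eq_zero_of_zero hμ w (i := Classical.arbitrary ι) (by simp)

/-- The coefficients of half the evaluated product. -/
theorem qCoeff_evalFun_half_thetaProd [Nonempty ι] (hμ : Weil.IsCuspidal (F := F) μ) (f₀ : PosForm)
    (w : Weil.cusp (F := F) μ) (n : ℕ) :
    ModularFormClass.qCoeff (Weil.evalFun m w ((2 : ℂ)⁻¹ • P.thetaProd μ f₀)) n =
      prodCoeff f (scaleForm m f₀) (P.pull (w : ((i : ι) → E i) → ℂ)) n := by
  have h1 := analyticAt_thetaForm f m (P.pull (w : ((i : ι) → E i) → ℂ))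
  have h2 := analyticAt_thetaForm (scaleForm m f₀) 1 (fun _ => 1)
  have h12 : AnalyticAt ℂ (cuspFunction (1 : ℝ) (Weil.evalFun m w (P.thetaProd μ f₀))) 0 := by
    rw [evalFun_thetaProd]
    have h := UpperHalfPlane.cuspFunction_mul (h := (1 : ℝ)) h1.continuousAt h2.continuousAt
    have hmul : AnalyticAt ℂ (cuspFunction (1 : ℝ)
        (thetaH f m (P.pull (w : ((i : ι) → E i) → ℂ)) *
          thetaH (scaleForm m f₀) 1 fun _ => 1)) 0 := by
      rw [h]; exact h1.mul h2
    rw [UpperHalfPlane.cuspFunction_smul hmul.continuousAt]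
    exact hmul.const_smul
  have heval : Weil.evalFun m w ((2 : ℂ)⁻¹ • P.thetaProd μ f₀) =
      (2 : ℂ)⁻¹ • Weil.evalFun m w (P.thetaProd μ f₀) := by
    simp only [Weil.evalFun, LinearMap.smul_apply, ModularForm.smul_slash,
      ModularForm.σ_heckeDiagMatrix, ContinuousAlgEquiv.refl_apply]
  have hq := qCoeff_evalFun_thetaProd P f₀ w n
  rw [ModularFormClass.qCoeff] at hq ⊢
  rw [heval, UpperHalfPlane.qExpansion_smul h12, map_smul, hq, smul_eq_mul, prodCoeff]
  simp only [sum_repsOf_eq f _ (pull_cusp_zero P hμ w) (pull_cusp_neg P hμ w), mul_assoc,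
    ← Finset.mul_sum]
  ring

variable (μ) in
/-- Half the product, contracted twice: a form of type `rep d μ` of level `2 k`. -/
def thetaContract (hm : m.Coprime f.disc) {f₀ : PosForm} (h₀ : f₀.disc = f.disc) (h2m : Odd m)
    (k : ℕ) (hk : f.disc ∣ 8 * k) : Weil.typeSpace m (2 * k) (Weil.rep d μ) :=
  Weil.contractType m (2 * k) (Weil.rep d μ) Nat.prime_two (Nat.coprime_two_left.mpr h2m)
    (dvd_mul_right 2 k)
    (Weil.contractType m (2 * (2 * k)) (Weil.rep d μ) Nat.prime_two (Nat.coprime_two_left.mpr h2m)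
      (dvd_mul_right 2 (2 * k))
      ⟨(2 : ℂ)⁻¹ • P.thetaProd μ f₀, Submodule.smul_mem _ _
        (P.thetaProd_mem hm h₀ (by rwa [show 2 * (2 * (2 * k)) = 8 * k by ring]))⟩)

variable [Nonempty ι] (hμ : Weil.IsCuspidal (F := F) μ) (hm : m.Coprime f.disc) {f₀ : PosForm}
  (h₀ : f₀.disc = f.disc) (h2m : Odd m) (k : ℕ) [NeZero k] (hk : f.disc ∣ 8 * k)
  {w : Weil.cusp (F := F) μ} (hfix : Weil.IsTorusFixed (Weil.rep d μ) w)

include hμ hfix

theorem qCoeff_evalFun_thetaContract (n : ℕ) :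
    ModularFormClass.qCoeff (Weil.evalFun m w (thetaContract P μ hm h₀ h2m k hk).1) n =
      prodCoeff f (scaleForm m f₀) (P.pull (w : ((i : ι) → E i) → ℂ)) (4 * n) := by
  rw [thetaContract, qCoeff_evalFun_contractType _ _ _ hfix,
    qCoeff_evalFun_contractType _ _ _ hfix, qCoeff_evalFun_half_thetaProd P hμ,
    show n * 2 * 2 = 4 * n by ring]

/-- The coefficients come from any ring containing the values of `w`. -/
theorem qCoeff_evalFun_thetaContract_lift {S : Type*} [CommRing S] (j : S →+* ℂ)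
    (wS : ((i : ι) → E i) → S) (hwS : ∀ x, j (wS x) = (w : ((i : ι) → E i) → ℂ) x) (n : ℕ) :
    ModularFormClass.qCoeff (Weil.evalFun m w (thetaContract P μ hm h₀ h2m k hk).1) n =
      j (prodCoeff f (scaleForm m f₀) (fun v => wS (P.equiv v)) (4 * n)) := by
  rw [qCoeff_evalFun_thetaContract P hμ hm h₀ h2m k hk hfix, map_prodCoeff]
  simp only [hwS]
  rfl

/-- Integrality and reduction modulo 2 of the contracted product. -/
theorem exists_coeff_thetaContract {S : Type*} [CommRing S] (j : S →+* ℂ) {κ : Type*} [CommRing κ]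
    (h2 : (2 : κ) = 0) (red : S →+* κ) (wS : ((i : ι) → E i) → S)
    (hwS : ∀ x, j (wS x) = (w : ((i : ι) → E i) → ℂ) x) :
    ∃ c : ℕ → S, ∀ n,
      ModularFormClass.qCoeff (Weil.evalFun m w (thetaContract P μ hm h₀ h2m k hk).1) n = j (c n) ∧
      red (c n) = halfCoeff f (fun v => red (wS (P.equiv v))) (4 * n) :=
  ⟨fun n => prodCoeff f (scaleForm m f₀) (fun v => wS (P.equiv v)) (4 * n), fun n =>
    ⟨qCoeff_evalFun_thetaContract_lift P hμ hm h₀ h2m k hk hfix j wS hwS n, by
      rw [map_prodCoeff, prodCoeff_of_two_eq_zero f _ h2 h2m]⟩⟩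

end Fermat.Agent.TwoAdic.TypeSpace
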