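import Fermat.Agent.TwoAdic.TypeSpace.ClassForm
import Fermat.Agent.TwoAdic.TypeSpace.IdealSeries.Recursion
import Fermat.Agent.TwoAdic.TypeSpace.ProductCoeff

/-!
# Ideals of given norm and representations by the forms of the classes

For a choice of an ideal prime to `f` with a form in each class, the representations of `n ≥ 1`
by the forms, up to sign, correspond to the ideals of norm `n`: `v` goes to `(combo v) I⁻¹`.

Owner: helper77 (LT2, P3b).
-/

set_option autoImplicit false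
set_option linter.unusedSectionVars false
set_option maxHeartbeats 200000

noncomputable section

open NumberField Module
open scoped Classical nonZeroDivisors
open Fermat.Agent.TwoAdic.RingClass Fermat.Agent.TwoAdic.Theta

namespace Fermat.Agent.TwoAdic.TypeSpace

/-- The positive representations. -/
def halfReps (g : PosForm) (n : ℕ) : Finset (ℤ × ℤ) :=
  (finite_repsOf g n).toFinset.filter IsPosVec

theorem mem_halfReps {g : PosForm} {n : ℕ} {v : ℤ × ℤ} :
    v ∈ halfReps g n ↔ g.eval v = n ∧ IsPosVec v := by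
  simp [halfReps, repsOf]

theorem ne_zero_of_eval {g : PosForm} {n : ℕ} (hn : n ≠ 0) {v : ℤ × ℤ} (h : g.eval v = n) :
    v ≠ 0 := by
  rintro rfl
  rw [(g.eval_eq_zero_iff 0).mpr rfl] at h
  exact hn (by exact_mod_cast h.symm)

variable (K : Type*) [Field K] [NumberField K]

/-- An ideal prime to `f` and a form for each class. -/
structure ClassReps (f : ℕ) where
  /-- the ideals -/
  ideal : ClassGroup (𝓞 K) → primeTo K f
  mk0_ideal : ∀ c, ClassGroup.mk0 (primeToNonzero K f (ideal c)) = c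
  /-- the forms -/
  form : ∀ c, IdealForm (ideal c : Ideal (𝓞 K))

theorem exists_classReps (h2 : finrank ℚ K = 2) (hneg : discr K < 0) (f : ℕ) [NeZero f] :
    Nonempty (ClassReps K f) := by
  choose I hI using fun c => exists_primeTo_mk0_eq (K := K) (f := f) c
  exact ⟨⟨I, hI, fun c => (exists_idealForm h2 hneg _ (I c).2.1).some⟩⟩

namespace ClassReps

variable {K} {f : ℕ} [NeZero f] (R : ClassReps K f)

theorem combo_mem (c : ClassGroup (𝓞 K)) (v : ℤ × ℤ) :
    combo (R.form c).ω v ∈ (R.ideal c : Ideal (𝓞 K)) :=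
  ((R.form c).mem_iff _).mpr ⟨v, rfl⟩

/-- The ideal `(combo v) I_c⁻¹`. -/
def idealOf (c : ClassGroup (𝓞 K)) (v : ℤ × ℤ) : Ideal (𝓞 K) :=
  Classical.choose (Ideal.dvd_iff_le.mpr ((Ideal.span_singleton_le_iff_mem _).mpr (R.combo_mem c v)))

theorem mul_idealOf (c : ClassGroup (𝓞 K)) (v : ℤ × ℤ) :
    (R.ideal c : Ideal (𝓞 K)) * R.idealOf c v = Ideal.span {combo (R.form c).ω v} :=
  (Classical.choose_spec (Ideal.dvd_iff_le.mpr
    ((Ideal.span_singleton_le_iff_mem _).mpr (R.combo_mem c v)))).symm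

theorem absNorm_idealOf (c : ClassGroup (𝓞 K)) (v : ℤ × ℤ) :
    (Ideal.absNorm (R.idealOf c v) : ℤ) = (R.form c).form.eval v := by
  have h := congrArg (fun I => (Ideal.absNorm I : ℤ)) (R.mul_idealOf c v)
  simp only [map_mul, Ideal.absNorm_span_singleton, Nat.cast_mul, Int.natCast_natAbs,
    (R.form c).norm_combo, abs_mul, Nat.abs_cast,
    abs_of_nonneg ((R.form c).form.eval_nonneg_int v)] at h
  exact mul_left_cancel₀ (Int.natCast_ne_zero.mpr fun e =>
    (R.ideal c).2.1 (Ideal.absNorm_eq_zero_iff.mp e)) h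

theorem mk0_idealOf {c : ClassGroup (𝓞 K)} {v : ℤ × ℤ} (hb : R.idealOf c v ∈ (Ideal (𝓞 K))⁰) :
    ClassGroup.mk0 ⟨R.idealOf c v, hb⟩ = c⁻¹ := by
  refine eq_inv_of_mul_eq_one_right ?_
  have h : ClassGroup.mk0 (primeToNonzero K f (R.ideal c) * ⟨R.idealOf c v, hb⟩) = 1 :=
    (mk0_eq_one_iff_span _).mpr ⟨_, R.mul_idealOf c v⟩
  rwa [map_mul, R.mk0_ideal] at h

/-- The representations up to sign correspond to the ideals of norm `n`. -/
theorem sum_idealsOfNorm {A : Type*} [AddCommMonoid A] (hunits : ∀ u : (𝓞 K)ˣ, u = 1 ∨ u = -1)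
    {n : ℕ} (hn : n ≠ 0) (G : Ideal (𝓞 K) → A) :
    ∑ b ∈ idealsOfNorm K n, G b =
      ∑ c : ClassGroup (𝓞 K), ∑ v ∈ halfReps (R.form c).form n, G (R.idealOf c v) := by
  rw [Finset.sum_sigma']
  symm
  have hnz : ∀ (c : ClassGroup (𝓞 K)) (v : ℤ × ℤ), v ∈ halfReps (R.form c).form n →
      R.idealOf c v ∈ (Ideal (𝓞 K))⁰ := fun c v hv => by
    refine mem_nonZeroDivisors_iff_ne_zero.mpr fun e => hn ?_
    have h := R.absNorm_idealOf c v
    rw [e, map_zero, (mem_halfReps.mp hv).1] at h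
    exact_mod_cast h.symm
  refine Finset.sum_bij (fun p _ => R.idealOf p.1 p.2) ?_ ?_ ?_ (fun _ _ => rfl)
  · rintro ⟨c, v⟩ hp
    rw [Finset.mem_sigma] at hp
    rw [mem_idealsOfNorm]
    have h := R.absNorm_idealOf c v
    rw [(mem_halfReps.mp hp.2).1] at h
    exact_mod_cast h
  · rintro ⟨c, v⟩ hp ⟨c', v'⟩ hp' he
    rw [Finset.mem_sigma] at hp hp'
    have hv := mem_halfReps.mp hp.2
    have hv' := mem_halfReps.mp hp'.2
    change R.idealOf c v = R.idealOf c' v' at he
    obtain rfl : c = c' := by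
      rw [← inv_inj, ← R.mk0_idealOf (hnz c v hp.2), ← R.mk0_idealOf (hnz c' v' hp'.2)]
      exact congrArg ClassGroup.mk0 (Subtype.ext he)
    have hspan := R.mul_idealOf c v
    rw [he, R.mul_idealOf c v', Ideal.span_singleton_eq_span_singleton] at hspan
    obtain ⟨u, hu⟩ := hspan
    rcases hunits u with rfl | rfl
    · rw [Units.val_one, mul_one] at hu
      rw [(R.form c).combo_injective hu]
    · rw [Units.val_neg, Units.val_one, mul_neg, mul_one, ← combo_neg] at hu
      have := (R.form c).combo_injective hu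
      subst this
      exact absurd hv.2 ((isPosVec_neg_iff (ne_zero_of_eval hn hv'.1)).not.mpr (not_not.mpr hv'.2))
  · intro b hb
    rw [mem_idealsOfNorm] at hb
    have hb0 : b ∈ (Ideal (𝓞 K))⁰ := mem_nonZeroDivisors_iff_ne_zero.mpr fun e => hn (by
      rw [← hb, e, map_zero])
    set c := (ClassGroup.mk0 ⟨b, hb0⟩)⁻¹ with hc
    have hone : ClassGroup.mk0 (primeToNonzero K f (R.ideal c) * ⟨b, hb0⟩) = 1 := by
      rw [map_mul, R.mk0_ideal, hc, inv_mul_cancel]
    obtain ⟨z, hz⟩ := (mk0_eq_one_iff_span _).mp hone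
    change (R.ideal c : Ideal (𝓞 K)) * b = Ideal.span {z} at hz
    have hzmem : z ∈ (R.ideal c : Ideal (𝓞 K)) := by
      have h1 : z ∈ (R.ideal c : Ideal (𝓞 K)) * b := by
        rw [hz]
        exact Ideal.mem_span_singleton_self z
      exact Ideal.le_of_dvd (dvd_mul_right _ b) h1
    obtain ⟨v, rfl⟩ := ((R.form c).mem_iff z).mp hzmem
    have hval : ∀ w : ℤ × ℤ, R.idealOf c w = b ↔
        Ideal.span {combo (R.form c).ω w} = Ideal.span {combo (R.form c).ω v} := fun w => by
      rw [← R.mul_idealOf c w, ← hz]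
      exact ⟨fun h => by rw [h], fun h => mul_left_cancel₀ (R.ideal c).2.1 h⟩
    have heval : (R.form c).form.eval v = n := by
      rw [← R.absNorm_idealOf c v, (hval v).mpr rfl, hb]
    by_cases hv : IsPosVec v
    · exact ⟨⟨c, v⟩, Finset.mem_sigma.mpr ⟨Finset.mem_univ _, mem_halfReps.mpr ⟨heval, hv⟩⟩,
        (hval v).mpr rfl⟩
    · refine ⟨⟨c, -v⟩, Finset.mem_sigma.mpr ⟨Finset.mem_univ _, mem_halfReps.mpr
        ⟨by rw [← heval]; simp [PosForm.eval],
          (isPosVec_neg_iff (ne_zero_of_eval hn heval)).mpr hv⟩⟩, (hval (-v)).mpr ?_⟩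
      rw [combo_neg, Ideal.span_singleton_neg]

end ClassReps

end Fermat.Agent.TwoAdic.TypeSpace
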