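import Fermat.Agent.TwoAdic.HeckeSide.WeilInstance
import Fermat.Agent.TwoAdic.TypeSpace.IdealCount
import Fermat.Agent.TwoAdic.TypeSpace.GoodPart.Residual
import Fermat.Agent.TwoAdic.TypeSpace.ProductCoeff
import Fermat.Agent.Hecke.EigenformOfChar

/-!
# The universal theta form of the type `σ_μ`

For `g` in `G''`: a form of type `σ_μ` and level `2 m` whose evaluation at the torus invariant
vector has integral coefficients reducing to the series of the class `g`.

Over each class `c` the product `θ θ₀ / 2` is precomposed with the multiplication by the function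
of the signs of the norms selecting the residues of class `g`, then contracted twice by `U₂`.

Owner: helper77 (LT2, P3b).
-/

set_option autoImplicit false
set_option linter.unusedSectionVars false

noncomputable section

open scoped Classical MatrixGroups

namespace Fermat.Agent.TwoAdic.Weil

variable {ι : Type*} [Fintype ι] {F E : ι → Type*}
  [∀ i, Field (F i)] [∀ i, Field (E i)] [∀ i, Fintype (F i)] [∀ i, Fintype (E i)]
  [∀ i, Algebra (F i) (E i)] [∀ i, IsPlane (F i) (E i)]
  {A : Type*} [CommRing A] {R : Type*} [CommRing R] [IsDomain R]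
  {d : Data A F R} {μ : ∀ i, (E i)ˣ →* Rˣ}

/-- Multiplication by a function commuting with the Weil operators. -/
def mulOp {G : (∀ i, E i) → R} (hG : WeilCommutes d μ G) : Module.End R (cusp (F := F) μ) :=
  ((LinearMap.mulLeft R G).comp (cusp (F := F) μ).subtype).codRestrict _ fun φ => (hG φ).1

theorem coe_mulOp {G : (∀ i, E i) → R} (hG : WeilCommutes d μ G) (φ : cusp (F := F) μ) :
    (mulOp hG φ : (∀ i, E i) → R) = G * (φ : (∀ i, E i) → R) := rfl

theorem mulOp_rep {G : (∀ i, E i) → R} (hG : WeilCommutes d μ G) (g : GL (Fin 2) A)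
    (hg : (g : Matrix (Fin 2) (Fin 2) A).det = 1) (φ : cusp (F := F) μ) :
    mulOp hG (rep d μ g φ) = rep d μ g (mulOp hG φ) :=
  Subtype.ext (by
    rw [coe_mulOp, rep_of_det_eq_one d g hg, rep_of_det_eq_one d g hg, coe_mulOp, (hG φ).2 _ hg])

theorem comp_mem_typeSpace {D M : ℕ} {W : Type*} [AddCommGroup W] [Module ℂ W]
    {σ : Representation ℂ (GL (Fin 2) (ZMod D)) W} {Φ : W →ₗ[ℂ] (UpperHalfPlane → ℂ)}
    (hΦ : Φ ∈ typeSpace D M σ) (L : W →ₗ[ℂ] W)
    (hL : ∀ (γ : SL(2, ℤ)) (w : W), L (σ (redSL D γ) w) = σ (redSL D γ) (L w)) :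
    Φ.comp L ∈ typeSpace D M σ :=
  ⟨fun w => hΦ.1 (L w), fun w => hΦ.2.1 (L w), fun γ hγ w => by
    rw [LinearMap.comp_apply, LinearMap.comp_apply, hL, hΦ.2.2 γ hγ]⟩

end Fermat.Agent.TwoAdic.Weil

namespace Fermat.Agent.TwoAdic.TypeSpace

open NumberField Module RingClass

variable {K : Type*} [Field K] [NumberField K]

/-- An imaginary quadratic field of discriminant less than `-4` has only the units `±1`. -/
theorem units_eq_of_discr_lt (h2 : finrank ℚ K = 2) (hd : discr K < -4) (u : (𝓞 K)ˣ) :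
    u = 1 ∨ u = -1 := by
  obtain ⟨σ, -, hN, hT⟩ := exists_conj (K := K) h2
  have hcard : Fintype.card (Free.ChooseBasisIndex ℤ (𝓞 K)) = 2 := by
    rw [← finrank_eq_card_chooseBasisIndex, RingOfIntegers.rank, h2]
  let b : Basis (Fin 2) ℤ (𝓞 K) :=
    (Free.chooseBasis ℤ (𝓞 K)).reindex (Fintype.equivFinOfCardEq hcard)
  set ω : Fin 2 → 𝓞 K := ![1, (u : 𝓞 K)]
  set t : ℤ := Algebra.trace ℤ (𝓞 K) (u : 𝓞 K)
  set N : ℤ := Algebra.norm ℤ (u : 𝓞 K)
  have h1 : Algebra.discr ℤ ω = (b.det ω) ^ 2 * discr K := by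
    rw [← NumberField.discr_eq_discr K b]
    conv_lhs => rw [show ω = Matrix.vecMul b ((b.toMatrix ω).map (algebraMap ℤ (𝓞 K))) from
      (Basis.toMatrix_map_vecMul b ω).symm]
    rw [Algebra.discr_of_matrix_vecMul, Basis.det_apply]
  have h3 : Algebra.discr ℤ ω = t ^ 2 - 4 * N := by
    apply Int.cast_injective (α := K)
    rw [Algebra.discr_def, Matrix.det_fin_two]
    simp only [Algebra.traceMatrix_apply, Algebra.traceForm_apply, ω, Matrix.cons_val_zero,
      Matrix.cons_val_one, one_mul, mul_one]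
    push_cast [t, N]
    simp only [hT, hN]
    push_cast
    simp only [map_mul, map_one]
    ring
  have hN1 : N = 1 ∨ N = -1 := Int.isUnit_iff.mp (u.isUnit.map (Algebra.norm ℤ))
  rw [h1] at h3
  rcases eq_or_ne (b.det ω) 0 with h0 | h0
  · rw [h0] at h3
    have hcases : N = 1 ∧ (t = 2 ∨ t = -2) := by
      rcases hN1 with e | e
      · refine ⟨e, sq_eq_sq_iff_eq_or_eq_neg.mp (by rw [e] at h3; linarith)⟩
      · nlinarith [sq_nonneg t]
    have hmul : (u : K) * σ (u : K) = 1 := by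
      rw [← hN (u : 𝓞 K)]; exact_mod_cast hcases.1
    have hadd : (u : K) + σ (u : K) = (t : K) := (hT (u : 𝓞 K)).symm
    rcases hcases.2 with e | e <;> rw [e] at hadd <;> push_cast at hadd
    · left
      have : ((u : K) - 1) ^ 2 = 0 := by linear_combination (u : K) * hadd - hmul
      exact Units.ext (RingOfIntegers.ext (by
        simpa [sub_eq_zero] using pow_eq_zero_iff two_ne_zero |>.mp this))
    · right
      have : ((u : K) + 1) ^ 2 = 0 := by linear_combination (u : K) * hadd - hmul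
      exact Units.ext (RingOfIntegers.ext (by
        simpa [eq_neg_iff_add_eq_zero] using pow_eq_zero_iff two_ne_zero |>.mp this))
  · have h4 : (1 : ℤ) ≤ (b.det ω) ^ 2 := by
      have := sq_pos_of_ne_zero h0
      omega
    have : (b.det ω) ^ 2 * discr K ≤ 1 * discr K := mul_le_mul_of_nonpos_right h4 (by linarith)
    rcases hN1 with e | e <;> rw [e] at h3 <;> nlinarith [sq_nonneg t]

/-- Two residues whose norms have the same sign differ by a square. -/
theorem exists_sq_eq_mul_inv {q : ℕ} [Fact q.Prime] [(condIdeal K q).IsMaximal]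
    (h2 : finrank ℚ K = 2) (hq : q ≠ 2) (y y' : (Residue K q)ˣ)
    (h : IsSquare (Algebra.norm (ZMod q) (y : Residue K q)) ↔
      IsSquare (Algebra.norm (ZMod q) (y' : Residue K q))) :
    ∃ z : (Residue K q)ˣ, z ^ 2 = y * y'⁻¹ := by
  have := isPlane_residue (q := q) h2
  set a := Algebra.norm (ZMod q) (y : Residue K q) with ha_def
  set a' := Algebra.norm (ZMod q) (y' : Residue K q) with ha'_def
  have ha : a ≠ 0 := fun e => y.ne_zero (Algebra.norm_eq_zero_iff.mp e)
  have ha' : a' ≠ 0 := fun e => y'.ne_zero (Algebra.norm_eq_zero_iff.mp e)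
  have hchar : ringChar (ZMod q) ≠ 2 := by rwa [ZMod.ringChar_zmod_n]
  have hprod : IsSquare (a * a') := by
    rw [← quadraticChar_one_iff_isSquare (mul_ne_zero ha ha'), map_mul]
    by_cases hs : IsSquare a
    · rw [(quadraticChar_one_iff_isSquare ha).mpr hs,
        (quadraticChar_one_iff_isSquare ha').mpr (h.mp hs), one_mul]
    · rw [quadraticChar_neg_one_iff_not_isSquare.mpr hs,
        quadraticChar_neg_one_iff_not_isSquare.mpr (mt h.mpr hs)]
      norm_num
  have hN : IsSquare (Algebra.norm (ZMod q) ((y * y'⁻¹ : (Residue K q)ˣ) : Residue K q)) := by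
    obtain ⟨r, hr⟩ := hprod
    refine ⟨r / a', ?_⟩
    have hinv : Algebra.norm (ZMod q) ((y'⁻¹ : (Residue K q)ˣ) : Residue K q) = a'⁻¹ :=
      eq_inv_of_mul_eq_one_left (by rw [ha'_def, ← map_mul, Units.inv_mul, map_one])
    rw [Units.val_mul, map_mul, ← ha_def, hinv, div_mul_div_comm, ← hr]
    field_simp
  obtain ⟨r, hr⟩ := isSquare_of_isSquare_norm h2 hq (y * y'⁻¹).ne_zero hN
  exact ⟨Units.mk0 r (by rintro rfl; exact (y * y'⁻¹).ne_zero (by rw [hr, mul_zero])),
    Units.ext (by rw [Units.val_pow_eq_pow_val, Units.val_mk0, hr, sq])⟩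

theorem qCoeff_sum {N : ℕ} {k : ℤ} {κ : Type*} (s : Finset κ)
    (Φ : κ → CuspForm (CongruenceSubgroup.Gamma0 N) k) (n : ℕ) :
    ModularFormClass.qCoeff (⇑(∑ i ∈ s, Φ i)) n =
      ∑ i ∈ s, ModularFormClass.qCoeff (⇑(Φ i)) n := by
  induction s using Finset.induction with
  | empty => simp only [Finset.sum_empty]; exact Hecke.qCoeff_zero n
  | insert i s hi ih => rw [Finset.sum_insert hi, Finset.sum_insert hi, Hecke.qCoeff_add, ih]

end Fermat.Agent.TwoAdic.TypeSpace

namespace Fermat.Agent.TwoAdic.HeckeSide.HeckeData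

open NumberField
open Fermat.Agent.TwoAdic.RingClass Fermat.Agent.TwoAdic.TypeSpace Fermat.Agent.TwoAdic.Theta
open Fermat.Agent.TwoAdic.Count (AlgInt)

variable (D : HeckeData)

theorem odd_f : Odd D.f := by
  rw [Nat.odd_iff, ← Nat.two_dvd_ne_zero]
  exact D.not_dvd_f Nat.prime_two fun q e => absurd (e ▸ D.q_odd q) (by decide)

theorem two_coprime_f : Nat.Coprime 2 D.f := Nat.coprime_two_left.mpr D.odd_f

theorem two_mul_m_coprime_f : (2 * D.m).Coprime D.f :=
  Nat.Coprime.coprime_dvd_left (dvd_mul_right (2 * D.m) D.r) D.M_coprime_f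

theorem discr_neg : discr D.K < 0 := by
  rw [D.discr_eq]
  have := Nat.pos_of_ne_zero D.m_ne_zero
  omega

theorem units_eq_one_or (u : (𝓞 D.K)ˣ) : u = 1 ∨ u = -1 := by
  refine units_eq_of_discr_lt D.finrank_eq ?_ u
  rw [D.discr_eq]
  have := Nat.pos_of_ne_zero D.m_ne_zero
  omega

/-- The cube roots of unity of `k` lift. -/
theorem exists_algInt_red_eq (c : ClassGroup (𝓞 D.K)) :
    ∃ a : AlgInt, D.red a = (((D.χ c)⁻¹ : D.kˣ) : D.k) := by
  obtain ⟨z, hz⟩ : ∃ z : ℂ, IsPrimitiveRoot z 3 := ⟨_, Complex.isPrimitiveRoot_exp 3 (by norm_num)⟩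
  set a : AlgInt := ⟨z, hz.isIntegral (by norm_num)⟩
  have ha : a ^ 2 + a + 1 = 0 := Subtype.ext (by
    show z ^ 2 + z + 1 = 0
    have h3 : (z - 1) * (z ^ 2 + z + 1) = 0 := by linear_combination hz.pow_eq_one
    exact (mul_eq_zero.mp h3).resolve_left (sub_ne_zero.mpr (hz.ne_one (by norm_num))))
  have hb : D.red a ^ 2 + D.red a + 1 = 0 := by
    simpa using congrArg D.red ha
  set t : D.k := (((D.χ c)⁻¹ : D.kˣ) : D.k)
  have ht : t ^ 3 = 1 := by
    rw [← Units.val_pow_eq_pow_val, inv_pow, D.χ_cube, inv_one, Units.val_one]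
  have key : (t - 1) * ((t - D.red a) * (t - D.red a ^ 2)) = 0 := by
    linear_combination ht + (-(t ^ 2) + t + (t - 1) * (D.red a - 1)) * hb
  rcases mul_eq_zero.mp key with h | h
  · exact ⟨1, by rw [map_one, sub_eq_zero.mp h]⟩
  rcases mul_eq_zero.mp h with h | h
  · exact ⟨a, (sub_eq_zero.mp h).symm⟩
  · exact ⟨a ^ 2, by rw [map_pow, sub_eq_zero.mp h]⟩

section Universal

variable (R : ClassReps D.K D.f) (c : ClassGroup (𝓞 D.K))

theorem form_disc : (R.form c).form.disc = 8 * D.m := by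
  have h := (R.form c).coe_disc
  rw [D.discr_eq, neg_neg] at h
  exact_mod_cast h

theorem f_coprime_disc : D.f.Coprime (R.form c).form.disc := by
  rw [D.form_disc R c, show 8 * D.m = 2 * (2 * (2 * D.m)) by ring]
  exact (Nat.Coprime.mul_left D.two_coprime_f (Nat.Coprime.mul_left D.two_coprime_f
    D.two_mul_m_coprime_f)).symm

/-- The coordinates of the class `c`. -/
def classCoord : ZMod D.f × ZMod D.f →+ ∀ q : D.Q, Residue D.K (q : ℕ) :=
  coord D.prod_Q (R.form c) (R.ideal c).2.2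

/-- The same as plane coordinates. -/
def classPlaneCoord : PlaneCoord (R.form c).form D.weilData
    (fun q : D.Q => Residue D.K (q : ℕ)) :=
  PlaneCoord.ofNorm (R.form c).form D.weilData (D.classCoord R c)
    (coord_bijective D.prod_Q (R.form c) (R.ideal c).2.2)
    (norm_coord D.prod_Q (R.form c) (R.ideal c).2.2) (prod_char D.prod_Q)

/-- The signs of the norms. -/
def signs (x : ∀ q : D.Q, Residue D.K (q : ℕ)) : D.Q → Bool :=
  fun q => decide (IsSquare (Algebra.norm (ZMod (q : ℕ)) (x q)))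

/-- The class in `G''` of the ideals `(z) / I_c` with `z ≡ y / h` modulo `f`. -/
def classOfUnits (y : ∀ q : D.Q, (Residue D.K (q : ℕ))ˣ) : G2 D.K D.f :=
  toG2 D.K D.f (resHom (D.aux'.resEquiv.symm
    fun q => y q * (scaleUnit D.prod_Q (R.ideal c).2.2 q)⁻¹)) *
    (toG2 D.K D.f (cls (R.ideal c)))⁻¹

theorem classOfUnits_congr (y y' : ∀ q : D.Q, (Residue D.K (q : ℕ))ˣ)
    (h : D.signs (fun q => y q) = D.signs (fun q => y' q)) :
    D.classOfUnits R c y = D.classOfUnits R c y' := by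
  have hz : ∀ q : D.Q, ∃ z : (Residue D.K (q : ℕ))ˣ, z ^ 2 = y q * (y' q)⁻¹ := fun q =>
    exists_sq_eq_mul_inv D.finrank_eq (fun e => absurd (e ▸ D.q_odd q) (by decide)) _ _
      (decide_eq_decide.mp (congrFun h q))
  choose z hz using hz
  rw [classOfUnits, classOfUnits, mul_left_inj, ← mul_inv_eq_one, ← map_inv, ← map_inv, ← map_mul,
    ← map_mul, toG2_eq_one_iff]
  refine ⟨1, odd_one, ?_⟩
  rw [pow_one]
  refine Subgroup.mem_map_of_mem _ ⟨D.aux'.resEquiv.symm z, D.aux'.resEquiv.injective ?_⟩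
  rw [powMonoidHom_apply, map_pow, map_mul, map_inv, MulEquiv.apply_symm_apply,
    MulEquiv.apply_symm_apply, MulEquiv.apply_symm_apply]
  funext q
  rw [Pi.pow_apply, Pi.mul_apply, Pi.inv_apply]
  exact (hz q).trans (by group)

variable (g : G2 D.K D.f) (s : AlgInt)

/-- `s` on the signs of the residues of class `g`. -/
def selectSign (ε : D.Q → Bool) : AlgInt :=
  if ∃ y : ∀ q : D.Q, (Residue D.K (q : ℕ))ˣ,
    D.signs (fun q => y q) = ε ∧ D.classOfUnits R c y = g then s else 0

/-- An integral lift of the value of a local character. -/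
def nuInt (q : D.Q) (u : ResUnits D.K (q : ℕ)) : AlgInt := (D.exists_algInt_nu q u).choose

theorem coe_nuInt (q : D.Q) (u : ResUnits D.K (q : ℕ)) :
    ((D.nuInt q u : AlgInt) : ℂ) = (D.nu q u : ℂ) :=
  (D.exists_algInt_nu q u).choose_spec.1

theorem red_nuInt (q : D.Q) (u : ResUnits D.K (q : ℕ)) : D.red (D.nuInt q u) = 1 :=
  (D.exists_algInt_nu q u).choose_spec.2

/-- An integral lift of the torus invariant vector. -/
def baseInt (x : ∀ q : D.Q, Residue D.K (q : ℕ)) : AlgInt :=
  if hx : ∀ q, x q ≠ 0 then ∏ q, D.nuInt q (Weil.unitsOf x hx q) else 0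

theorem coe_baseInt (x : ∀ q : D.Q, Residue D.K (q : ℕ)) :
    ((D.baseInt x : AlgInt) : ℂ) = Weil.baseFun D.nu x := by
  rw [baseInt, Weil.baseFun]
  split_ifs with hx
  · rw [Weil.muVal, SubmonoidClass.coe_finsetProd]
    exact Finset.prod_congr rfl fun q _ => D.coe_nuInt q _
  · rfl

/-- The lifted weight. -/
def weightInt (x : ∀ q : D.Q, Residue D.K (q : ℕ)) : AlgInt :=
  D.selectSign R c g s (D.signs x) * D.baseInt x

/-- The reduced weight at a vector is the summand of the series. -/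
theorem red_weightInt_classCoord (hs : D.red s = (((D.χ c)⁻¹ : D.kˣ) : D.k)) (v : ℤ × ℤ) :
    D.red (D.weightInt R c g s (D.classCoord R c (vecCast D.f v))) =
      if h : R.idealOf c v ∈ primeTo D.K D.f then
        (if toG2 D.K D.f (cls ⟨_, h⟩) = g then
          ((D.χ.comp toClassGroup) (cls ⟨R.idealOf c v, h⟩) : D.k) else 0) else 0 := by
  set z := combo (R.form c).ω v with hz
  set x := D.classCoord R c (vecCast D.f v) with hxdef
  have hx : ∀ q, x q = (scaleUnit D.prod_Q (R.ideal c).2.2 q : Residue D.K (q : ℕ)) *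
      Ideal.Quotient.mk _ z := fun q => coord_intCast D.prod_Q (R.form c) (R.ideal c).2.2 v q
  by_cases h : R.idealOf c v ∈ primeTo D.K D.f
  · rw [dif_pos h]
    have hzm : Ideal.span {z} ∈ primeTo D.K D.f := by
      rw [hz, ← R.mul_idealOf c v]
      exact mul_mem (R.ideal c).2 h
    obtain ⟨uf, huf⟩ := (span_mem_primeTo_iff.mp hzm).2
    have hmk : ∀ q : D.Q, (resMap D.K (D.aux'.dvd q.2) uf : Residue D.K (q : ℕ)) =
        Ideal.Quotient.mk _ z := fun q => resMap_coe (D.aux'.dvd q.2) huf.symm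
    have hne : ∀ q, x q ≠ 0 := fun q => by
      rw [hx, ← hmk q]
      exact mul_ne_zero (Units.ne_zero _) (Units.ne_zero (M₀ := Residue D.K (q : ℕ)) _)
    have hcls : D.classOfUnits R c (Weil.unitsOf x hne) = toG2 D.K D.f (cls ⟨_, h⟩) := by
      have he : D.aux'.resEquiv.symm (fun q => Weil.unitsOf x hne q *
          (scaleUnit D.prod_Q (R.ideal c).2.2 q)⁻¹) = uf := by
        rw [MulEquiv.symm_apply_eq]
        funext q
        rw [IsAuxSet.resEquiv_apply, mul_inv_eq_iff_eq_mul]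
        refine Units.ext ?_
        show x q = (resMap D.K (D.aux'.dvd q.2) uf : Residue D.K (q : ℕ)) *
          (scaleUnit D.prod_Q (R.ideal c).2.2 q : Residue D.K (q : ℕ))
        rw [hx, hmk, mul_comm]
      rw [classOfUnits, he, resHom_of_mk hzm huf.symm, ← map_inv, ← map_mul]
      congr 1
      rw [mul_inv_eq_iff_eq_mul, ← map_mul]
      exact congrArg cls (Subtype.ext ((R.mul_idealOf c v).symm.trans (mul_comm _ _)))
    have hu : ((D.χ.comp toClassGroup) (cls ⟨R.idealOf c v, h⟩) : D.k) =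
        (((D.χ c)⁻¹ : D.kˣ) : D.k) := by
      rw [MonoidHom.comp_apply, toClassGroup_cls, ← map_inv]
      exact congrArg (fun t => (D.χ t : D.k)) (R.mk0_idealOf _)
    have hiff : (∃ y : ∀ q : D.Q, (Residue D.K (q : ℕ))ˣ,
        D.signs (fun q => y q) = D.signs x ∧ D.classOfUnits R c y = g) ↔
          toG2 D.K D.f (cls ⟨_, h⟩) = g := by
      refine ⟨fun ⟨y, hy, hyg⟩ => ?_, fun hg => ⟨Weil.unitsOf x hne, rfl, hcls.trans hg⟩⟩
      rw [← hyg, ← hcls]
      exact (D.classOfUnits_congr R c y _ hy).symm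
    rw [weightInt, map_mul, baseInt, dif_pos hne, map_prod,
      Finset.prod_eq_one fun q _ => D.red_nuInt q _, mul_one, selectSign, apply_ite D.red, hs,
      map_zero, hu]
    exact if_congr hiff rfl rfl
  · rw [dif_neg h, weightInt, map_mul, baseInt, dif_neg, map_zero, mul_zero]
    intro hne
    refine h ?_
    have hq : ∀ q : D.Q, z ∉ condIdeal D.K (q : ℕ) := fun q hm => hne q (by
      rw [hx, Ideal.Quotient.eq_zero_iff_mem.mpr hm, mul_zero])
    have hz0 : Ideal.span {z} ≠ (0 : Ideal (𝓞 D.K)) := by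
      rw [Ideal.zero_eq_bot, Ne, Ideal.span_singleton_eq_bot]
      intro e
      obtain ⟨q⟩ := (inferInstance : Nonempty D.Q)
      exact hq q (e ▸ zero_mem _)
    have hzm : Ideal.span {z} ∈ primeTo D.K D.f := by
      refine ⟨hz0, ?_⟩
      have hprod : condIdeal D.K D.f = ∏ q ∈ D.Q, condIdeal D.K q := by
        rw [← D.prod_Q, condIdeal, Nat.cast_prod, ← Ideal.prod_span_singleton]
        rfl
      rw [hprod]
      refine IsCoprime.prod_right fun q hqQ => ?_
      have hmax : (condIdeal D.K q).IsMaximal := InertSet.maximal (⟨q, hqQ⟩ : D.Q)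
      rw [Ideal.isCoprime_iff_sup_eq]
      exact hmax.out.2 _ (right_lt_sup.mpr fun hle =>
        hq ⟨q, hqQ⟩ ((Ideal.span_singleton_le_iff_mem _).mp hle))
    rw [hz, ← R.mul_idealOf c v] at hzm
    exact (mul_mem_primeTo_iff.mp hzm).2

/-- The form of the class `c`. -/
theorem exists_classForm : ∃ Φ : Weil.typeSpace D.f (2 * D.m) D.sigma, ∀ n,
    ModularFormClass.qCoeff (Weil.evalFun D.f D.w0 Φ.1) n =
      ((prodCoeff (R.form c).form (scaleForm D.f (R.form 1).form)
        (fun v => D.weightInt R c g s (D.classCoord R c v)) (4 * n) : AlgInt) : ℂ) := by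
  set P := D.classPlaneCoord R c
  let _ : Invertible (2 : ℂ) := invertibleOfNonzero two_ne_zero
  have hG : Weil.WeilCommutes D.weilData D.nu
      (fun x => ((D.selectSign R c g s (D.signs x) : AlgInt) : ℂ)) := by
    have h := Weil.weilCommutes_of_signs D.weilData D.isCuspidal_nu D.hasSign_nu
      fun ε => ((D.selectSign R c g s ε : AlgInt) : ℂ)
    convert h using 4
    exact funext fun q => by simp only [signs, decide_eq_decide]
  set L := Weil.mulOp hG
  have h₀ : (R.form 1).form.disc = (R.form c).form.disc := by rw [D.form_disc, D.form_disc]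
  have hM : (R.form c).form.disc ∣ 2 * (2 * (2 * D.m)) := ⟨1, by rw [D.form_disc R c]; ring⟩
  have hΨ : (((2 : ℂ)⁻¹ • P.thetaProd D.nu (R.form 1).form).comp L) ∈
      Weil.typeSpace D.f (2 * (2 * (2 * D.m))) D.sigma :=
    Weil.comp_mem_typeSpace
      (Submodule.smul_mem _ _ (P.thetaProd_mem (D.f_coprime_disc R c) h₀ hM)) L fun γ w =>
      Weil.mulOp_rep hG _ (by rw [Theta.coe_redSL, Theta.det_slRedMat]) w
  have : NeZero (2 * D.m) := ⟨mul_ne_zero two_ne_zero D.m_ne_zero⟩
  have : NeZero (2 * (2 * D.m)) := ⟨mul_ne_zero two_ne_zero (NeZero.ne _)⟩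
  refine ⟨Weil.contractType D.f (2 * D.m) D.sigma Nat.prime_two D.two_coprime_f (dvd_mul_right _ _)
    (Weil.contractType D.f (2 * (2 * D.m)) D.sigma Nat.prime_two D.two_coprime_f (dvd_mul_right _ _)
      ⟨_, hΨ⟩), fun n => ?_⟩
  rw [qCoeff_evalFun_contractType _ _ _ D.isTorusFixed,
    qCoeff_evalFun_contractType _ _ _ D.isTorusFixed, show n * 2 * 2 = 4 * n by ring]
  show ModularFormClass.qCoeff
    (Weil.evalFun D.f (L D.w0) ((2 : ℂ)⁻¹ • P.thetaProd D.nu (R.form 1).form)) (4 * n) = _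
  rw [qCoeff_evalFun_half_thetaProd P D.isCuspidal_nu]
  refine Eq.trans ?_ (map_prodCoeff (R.form c).form (algebraMap AlgInt ℂ) _ _ _).symm
  congr 1
  funext v
  show ((D.selectSign R c g s (D.signs (D.classCoord R c v)) : AlgInt) : ℂ) *
      Weil.baseFun D.nu (D.classCoord R c v) = _
  rw [← coe_baseInt]
  rfl

end Universal

/-- **The universal theta form.** -/
theorem exists_universal (g : G2 D.K D.f) : ∃ Φ : Weil.typeSpace D.f (2 * D.m) D.sigma, ∀ n,
    ∃ a : AlgInt, (a : ℂ) = ModularFormClass.qCoeff (Weil.evalFun D.f D.w0 Φ.1) n ∧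
      D.red a = series (toG2 D.K D.f) (D.χ.comp toClassGroup) g n := by
  obtain ⟨R⟩ := exists_classReps D.K D.finrank_eq D.discr_neg D.f
  choose s hs using D.exists_algInt_red_eq
  choose Φ hΦ using fun c => D.exists_classForm R c g (s c)
  have : NeZero (2 * D.m) := ⟨mul_ne_zero two_ne_zero D.m_ne_zero⟩
  refine ⟨∑ c, Φ c, fun n => ⟨∑ c, prodCoeff (R.form c).form (scaleForm D.f (R.form 1).form)
    (fun v => D.weightInt R c g (s c) (D.classCoord R c v)) (4 * n), ?_, ?_⟩⟩
  · rw [AddSubmonoidClass.coe_finsetSum, ← Weil.coe_evalForm D.isTorusFixed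
      (D.isCuspidalType D.two_mul_m_coprime_f), map_sum, qCoeff_sum]
    exact Finset.sum_congr rfl fun c _ => (hΦ c n).symm
  rw [map_sum]
  simp only [map_prodCoeff, prodCoeff_of_two_eq_zero _ _ CharTwo.two_eq_zero D.odd_f]
  rcases eq_or_ne n 0 with rfl | hn
  · rw [Finset.sum_eq_zero fun c _ => by rw [mul_zero, halfCoeff_zero], series_eq_coeff, theta_zero]
    rfl
  obtain ⟨P, hPN, hmul⟩ := exists_mul_self_eq_of_dvd_discr D.finrank_eq Nat.prime_two
    (show ((2 : ℕ) : ℤ) ∣ discr D.K from ⟨-(4 * (D.m : ℤ)), by rw [D.discr_eq]; push_cast; ring⟩)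
  have h2f : ¬ 2 ∣ D.f := fun h => Nat.not_even_iff_odd.mpr D.odd_f (even_iff_two_dvd.mpr h)
  have h4 := congrFun (upSeq_upSeq (π := toG2 D.K D.f) (u := D.χ.comp toClassGroup) Nat.prime_two
    h2f hPN hmul (MonoidAlgebra.single g⁻¹ 1)) n
  rw [seriesMap_single, one_smul, inv_inv] at h4
  change series (toG2 D.K D.f) (D.χ.comp toClassGroup) g (2 * (2 * n)) = _ at h4
  rw [← h4, show 2 * (2 * n) = 4 * n by ring, series,
    R.sum_idealsOfNorm D.units_eq_one_or (mul_ne_zero four_ne_zero hn)]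
  refine Finset.sum_congr rfl fun c _ => Finset.sum_congr rfl fun v _ => ?_
  refine (D.red_weightInt_classCoord R c g (s c) (hs c) v).trans ?_
  exact dite_congr rfl (fun _ => by congr 1) fun _ => rfl

end Fermat.Agent.TwoAdic.HeckeSide.HeckeData
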