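import Fermat.Agent.TwoAdic.TypeSpace.Eval
import Fermat.Agent.Periods.Injective

/-!
# Periods of a type space

`typePeriod Φ` is the class in `H¹(Γ₀(M), σ^∨)` of `γ ↦ (w ↦ F_w (γ i) - F_w i)`, `F_w` a primitive
of `Φ w`.  `conjH1` is the involution induced by `γ ↦ j γ j`, `j = diag(-1, 1)`.  Combining the two
gives an injective Hecke equivariant map from two copies of the type space: restricted to the torus
invariant vector it is `periodHomPair` of the evaluations.

Owner: helper62 (LT2).
-/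

set_option autoImplicit false

noncomputable section

namespace Fermat.Agent.TwoAdic.Cohom

open CongruenceSubgroup Fermat.Agent.Periods ModularCurve.Period
open scoped MatrixGroups

variable {D M : ℕ}

/-- `diag(-1, 1)`. -/
def jMat : IntMat := !![-1, 0; 0, 1]

theorem det_jMat : jMat.det = -1 := by simp [jMat, Matrix.det_fin_two_of]

theorem isUnit_det_jMat : IsUnit ((jMat.det : ℤ) : ZMod D) := by
  rw [det_jMat]; simp

theorem jConjMat_eq (X : IntMat) : jConjMat X = jMat * X * jMat := by
  conv_rhs => rw [Matrix.eta_fin_two X, jMat, Matrix.mul_fin_two, Matrix.mul_fin_two]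
  ext i j; fin_cases i <;> fin_cases j <;> simp [jConjMat]

theorem red_jMat_mul_self : red D jMat * red D jMat = 1 := by
  rw [← red_mul isUnit_det_jMat isUnit_det_jMat,
    show jMat * jMat = (1 : IntMat) by
      rw [jMat, Matrix.mul_fin_two, Matrix.one_fin_two]; congrm !![?_, ?_; ?_, ?_] <;> norm_num,
    red_one]

theorem isUnit_det_jConjMat {X : IntMat} (hX : IsUnit ((X.det : ℤ) : ZMod D)) :
    IsUnit (((jConjMat X).det : ℤ) : ZMod D) := by
  rwa [jConjMat_det]

theorem red_jConjMat {X : IntMat} (hX : IsUnit ((X.det : ℤ) : ZMod D)) :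
    red D (jConjMat X) = red D jMat * red D X * red D jMat := by
  rw [jConjMat_eq, red_mul _ isUnit_det_jMat, red_mul isUnit_det_jMat hX]
  rw [Matrix.det_mul, Int.cast_mul]
  exact isUnit_det_jMat.mul hX

theorem redHom_jConj (γ : Gamma0 M) :
    redHom D _ (jConjGamma0 M γ) = red D jMat * redHom D _ γ * red D jMat :=
  red_jConjMat (isUnit_det_gammaMat γ)

theorem jConjGamma0_negOne : jConjGamma0 M (negOne M) = negOne M := by
  apply gammaMat_injective
  rw [gammaMat_jConjGamma0, gammaMat_negOne]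
  ext i j; fin_cases i <;> fin_cases j <;> simp [jConjMat]

variable {k : Type*} [CommRing k] {A : Type*} [AddCommGroup A] [Module k A]
  (ρ : Representation k (GL (Fin 2) (ZMod D)) A)

theorem apply_jMat_twice (a : A) : ρ (red D jMat) (ρ (red D jMat) a) = a := by
  rw [← Module.End.mul_apply, ← map_mul, red_jMat_mul_self, map_one, Module.End.one_apply]

/-- `f ↦ (γ ↦ j f (j γ j))` on cocycles. -/
def conjCocycles : cocycles M ρ →ₗ[k] cocycles M ρ :=
  LinearMap.codRestrict _
    (LinearMap.pi fun γ => (ρ (red D jMat)).comp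
      ((LinearMap.proj (jConjGamma0 M γ)).comp (cocycles M ρ).subtype)) fun f =>
    ⟨fun γ δ => by
      show ρ (red D jMat) ((f : Gamma0 M → A) (jConjGamma0 M (γ * δ))) =
        ρ (red D jMat) ((f : Gamma0 M → A) (jConjGamma0 M γ)) +
          ρ (redHom D _ γ) (ρ (red D jMat) ((f : Gamma0 M → A) (jConjGamma0 M δ)))
      rw [map_mul, f.2.1, map_add, redHom_jConj, map_mul, map_mul, Module.End.mul_apply,
        Module.End.mul_apply, apply_jMat_twice], by
      show ρ (red D jMat) ((f : Gamma0 M → A) (jConjGamma0 M (negOne M))) = 0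
      rw [jConjGamma0_negOne, f.2.2, map_zero]⟩

theorem conjCocycles_apply (f : cocycles M ρ) (γ : Gamma0 M) :
    (conjCocycles ρ f : Gamma0 M → A) γ =
      ρ (red D jMat) ((f : Gamma0 M → A) (jConjGamma0 M γ)) := rfl

/-- The involution of `H¹` induced by `j`. -/
def conjH1 : H1 M ρ →ₗ[k] H1 M ρ :=
  Submodule.mapQ _ _ (conjCocycles ρ) fun f hf => by
    obtain ⟨a, ha⟩ := hf
    refine ⟨ρ (red D jMat) a, funext fun γ => ?_⟩
    have h := congrFun ha (jConjGamma0 M γ)
    rw [cobound_apply, redHom_jConj, map_mul, map_mul, Module.End.mul_apply,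
      Module.End.mul_apply] at h
    show cobound M ρ (ρ (red D jMat) a) γ =
      ρ (red D jMat) ((f : Gamma0 M → A) (jConjGamma0 M γ))
    rw [cobound_apply, show (f : Gamma0 M → A) (jConjGamma0 M γ) = _ from h.symm, map_sub,
      apply_jMat_twice]

theorem conjH1_mk (f : cocycles M ρ) :
    conjH1 ρ (Submodule.Quotient.mk f : H1 M ρ) = Submodule.Quotient.mk (conjCocycles ρ f) := rfl

theorem conjH1_conjH1 (x : H1 M ρ) : conjH1 ρ (conjH1 ρ x) = x := by
  obtain ⟨f, rfl⟩ := Submodule.Quotient.mk_surjective _ x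
  rw [conjH1_mk, conjH1_mk]
  congr 1
  refine Subtype.ext (funext fun γ => ?_)
  rw [conjCocycles_apply, conjCocycles_apply, apply_jMat_twice, jConjGamma0_jConjGamma0]

/-- The Hecke family conjugated by `j`. -/
def conjFamily (M : ℕ) {p : ℕ} (hp : p.Prime) (hpD : p.Coprime D) :
    Family M D (HeckeIdx M p) where
  mat i := jConjMat (heckeMat M p i)
  unit i := isUnit_det_jConjMat (isUnit_det_heckeMat hpD i)
  det_ne i := by rw [jConjMat_det]; exact heckeMat_det_ne_zero hp i
  separated i j g h := heckeMat_separated hp i j (jConjGamma0 M g) (by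
    have h' := congrArg jConjMat h
    rwa [jConjMat_jConjMat, jConjMat_mul, jConjMat_jConjMat, ← gammaMat_jConjGamma0] at h')
  perm γ := transferPerm hp (jConjGamma0 M γ)
  elt γ i := jConjGamma0 M (transferElt hp (jConjGamma0 M γ) i)
  step γ i := by
    have h' := congrArg jConjMat (cosetStep_transfer hp (jConjGamma0 M γ) i)
    rwa [jConjMat_mul, jConjMat_mul, ← gammaMat_jConjGamma0, ← gammaMat_jConjGamma0,
      jConjGamma0_jConjGamma0] at h'

/-- The involution commutes with the Hecke operators. -/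
theorem conjH1_heckeH1 {p : ℕ} (hp : p.Prime) (hpD : p.Coprime D) (x : H1 M ρ) :
    conjH1 ρ (heckeH1 ρ hp hpD x) = heckeH1 ρ hp hpD (conjH1 ρ x) := by
  obtain ⟨f, rfl⟩ := Submodule.Quotient.mk_surjective _ x
  choose e δ hδ using heckeMat_jConj (N := M) (p := p) hp
  have hinj : Function.Injective e := by
    intro x y hxy
    refine (conjFamily M hp hpD).separated x y (δ x * (δ y)⁻¹) ?_
    show jConjMat (heckeMat M p x) = gammaMat (δ x * (δ y)⁻¹) * jConjMat (heckeMat M p y)
    rw [hδ y, ← Matrix.mul_assoc, ← gammaMat_mul, inv_mul_cancel_right, hδ x, hxy]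
  have hP : heckeH1 ρ hp hpD = (conjFamily M hp hpD).onH1 ρ :=
    ((conjFamily M hp hpD).onH1_eq ρ (heckeFamily M hp hpD)
      (Equiv.ofBijective e (Finite.injective_iff_bijective.mp hinj)) δ hδ).symm
  conv_rhs => rw [hP, conjH1_mk, Family.onH1_mk]
  rw [heckeH1, Family.onH1_mk, conjH1_mk]
  congr 1
  refine Subtype.ext (funext fun γ => ?_)
  show ρ (red D jMat) ((heckeFamily M hp hpD).onFun ρ f.1 (jConjGamma0 M γ)) =
    (conjFamily M hp hpD).onFun ρ (conjCocycles ρ f).1 γ
  rw [Family.onFun_apply, Family.onFun_apply, map_sum]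
  refine Finset.sum_congr rfl fun i _ => ?_
  rw [conjCocycles_apply]
  show ρ (red D jMat) (ρ (red D (heckeMat M p i))⁻¹
      ((f : Gamma0 M → A) (transferElt hp (jConjGamma0 M γ) i))) =
    ρ (red D (jConjMat (heckeMat M p i)))⁻¹ (ρ (red D jMat)
      ((f : Gamma0 M → A) (jConjGamma0 M (jConjGamma0 M (transferElt hp (jConjGamma0 M γ) i)))))
  rw [jConjGamma0_jConjGamma0, red_jConjMat (isUnit_det_heckeMat hpD i), mul_inv_rev, mul_inv_rev,
    inv_eq_of_mul_eq_one_right red_jMat_mul_self, map_mul, map_mul, Module.End.mul_apply,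
    Module.End.mul_apply, apply_jMat_twice]

end Fermat.Agent.TwoAdic.Cohom

namespace Fermat.Agent.TwoAdic.Weil

open UpperHalfPlane hiding I
open CongruenceSubgroup Function Matrix.SpecialLinearGroup Fermat.Agent.Periods
open ModularCurve ModularCurve.Period Fermat.Agent.TwoAdic.Cohom
open scoped MatrixGroups ModularForm Manifold

variable {D M : ℕ} {W : Type*} [AddCommGroup W] [Module ℂ W]
  {σ : Representation ℂ (GL (Fin 2) (ZMod D)) W}

theorem exists_primitive [NeZero D] (hcusp : IsCuspidalType M σ) (Φ : typeSpace D M σ) (w : W) :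
    ∃ F : ℍ → ℂ, IsPrimitive (Φ.1 w) F ∧ F UpperHalfPlane.I = 0 := by
  have hT : (ModularGroup.T ^ (D : ℤ) : SL(2, ℤ)) ∈ Gamma0 M :=
    Gamma0_mem.mpr (by rw [ModularGroup.coe_T_zpow]; simp)
  have hinv : ∀ τ : ℍ, Φ.1 w ((D : ℝ) +ᵥ τ) = Φ.1 w τ := by
    intro τ
    have h := congrFun (slash_gamma0 Φ hT w) τ
    rw [redSL_T_zpow_eq_one dvd_rfl, map_one, Module.End.one_apply, slash_T_zpow_apply] at h
    exact_mod_cast h
  have hper : Periodic (Φ.1 w ∘ ofComplex) ((D : ℝ) : ℂ) := by
    intro z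
    by_cases hz : 0 < z.im
    · have hz' : 0 < (z + ((D : ℝ) : ℂ)).im := by simpa using hz
      simp only [Function.comp_apply, ofComplex_apply_of_im_pos hz, ofComplex_apply_of_im_pos hz']
      convert hinv ⟨z, hz⟩ using 2
      ext
      simp [add_comm]
    · have hz' : (z + ((D : ℝ) : ℂ)).im ≤ 0 := by simpa using hz
      simp only [Function.comp_apply, ofComplex_apply_of_im_nonpos (not_lt.mp hz),
        ofComplex_apply_of_im_nonpos hz']
  have hzero : IsZeroAtImInfty (Φ.1 w) := by
    have h := hcusp Φ w (isCusp_SL2Z_iff'.mpr ⟨1, rfl⟩)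
    rwa [map_one, one_smul, OnePoint.isZeroAt_infty_iff] at h
  obtain ⟨F, hF, -⟩ := exists_primitive_of_periodic (Nat.cast_pos.mpr (NeZero.pos D)) hper
    (mdiff Φ w) hzero
  exact ⟨fun τ => F τ + -F UpperHalfPlane.I, hF.add_const _, by simp⟩

variable [NeZero D] (hcusp : IsCuspidalType M σ)

/-- The primitive of `Φ w` vanishing at `i`, linearly in `w`. -/
def prim (Φ : typeSpace D M σ) : W →ₗ[ℂ] (ℍ → ℂ) where
  toFun w := (exists_primitive hcusp Φ w).choose
  map_add' v w := funext fun z => by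
    have h := (exists_primitive hcusp Φ (v + w)).choose_spec
    have hv := (exists_primitive hcusp Φ v).choose_spec
    have hw := (exists_primitive hcusp Φ w).choose_spec
    have hvw := hv.1.add hw.1
    rw [← map_add] at hvw
    have e := h.1.sub_eq_sub hvw z UpperHalfPlane.I
    simp only [Pi.add_apply, h.2, hv.2, hw.2, add_zero, sub_zero] at e ⊢
    exact sub_eq_zero.mp e
  map_smul' a w := funext fun z => by
    have h := (exists_primitive hcusp Φ (a • w)).choose_spec
    have hw := (exists_primitive hcusp Φ w).choose_spec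
    have haw := hw.1.const_smul a
    rw [← map_smul] at haw
    have e := h.1.sub_eq_sub haw z UpperHalfPlane.I
    simp only [Pi.smul_apply, h.2, hw.2, smul_zero, sub_zero, RingHom.id_apply] at e ⊢
    exact sub_eq_zero.mp e

theorem isPrimitive_prim (Φ : typeSpace D M σ) (w : W) :
    IsPrimitive (Φ.1 w) (prim hcusp Φ w) :=
  (exists_primitive hcusp Φ w).choose_spec.1

theorem prim_I (Φ : typeSpace D M σ) (w : W) : prim hcusp Φ w UpperHalfPlane.I = 0 :=
  (exists_primitive hcusp Φ w).choose_spec.2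

/-- The normalised primitive is unique. -/
theorem prim_eq {Φ : typeSpace D M σ} {w : W} {G : ℍ → ℂ} (hG : IsPrimitive (Φ.1 w) G) (z : ℍ) :
    prim hcusp Φ w z = G z - G UpperHalfPlane.I := by
  have h := (isPrimitive_prim hcusp Φ w).sub_eq_sub hG z UpperHalfPlane.I
  rw [prim_I] at h
  linear_combination h

theorem redSL_coe (γ : Gamma0 M) : redSL D (γ : SL(2, ℤ)) = redHom D _ γ := rfl

theorem slash_eq_inv (Φ : typeSpace D M σ) (γ : Gamma0 M) (w : W) :
    Φ.1 w ∣[(2 : ℤ)] (γ : SL(2, ℤ)) = Φ.1 (σ (redHom D _ γ)⁻¹ w) := by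
  have h := slash_gamma0 Φ γ.2 (σ (redHom D _ γ)⁻¹ w)
  rwa [redSL_coe, ← Module.End.mul_apply, ← map_mul, mul_inv_cancel, map_one,
    Module.End.one_apply] at h

theorem prim_smul (Φ : typeSpace D M σ) (γ : Gamma0 M) (w : W) (z : ℍ) :
    prim hcusp Φ w ((γ : SL(2, ℤ)) • z) =
      prim hcusp Φ w ((γ : SL(2, ℤ)) • UpperHalfPlane.I) +
        prim hcusp Φ (σ (redHom D _ γ)⁻¹ w) z := by
  have h1 := (isPrimitive_prim hcusp Φ w).comp_SL_smul (γ : SL(2, ℤ))
  rw [slash_eq_inv] at h1
  rw [prim_eq hcusp h1 z]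
  ring

/-- The period cocycle of `Φ`. -/
def periodCocycle (Φ : typeSpace D M σ) : cocycles M σ.dual :=
  ⟨fun γ => (LinearMap.proj ((γ : SL(2, ℤ)) • UpperHalfPlane.I)).comp (prim hcusp Φ),
    fun γ δ => LinearMap.ext fun w => by
      show prim hcusp Φ w (((γ * δ : Gamma0 M) : SL(2, ℤ)) • UpperHalfPlane.I) =
        prim hcusp Φ w ((γ : SL(2, ℤ)) • UpperHalfPlane.I) +
          prim hcusp Φ (σ (redHom D _ γ)⁻¹ w) ((δ : SL(2, ℤ)) • UpperHalfPlane.I)
      rw [Subgroup.coe_mul, mul_smul, prim_smul],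
    LinearMap.ext fun w => by
      show prim hcusp Φ w ((-1 : SL(2, ℤ)) • UpperHalfPlane.I) = 0
      rw [ModularGroup.SL_neg_smul, one_smul, prim_I]⟩

theorem periodCocycle_apply (Φ : typeSpace D M σ) (γ : Gamma0 M) (w : W) :
    (periodCocycle hcusp Φ : Gamma0 M → Module.Dual ℂ W) γ w =
      prim hcusp Φ w ((γ : SL(2, ℤ)) • UpperHalfPlane.I) := rfl

/-- The period class, linearly in `Φ`. -/
def typePeriod : typeSpace D M σ →ₗ[ℂ] H1 M σ.dual :=
  (coboundaries M σ.dual).mkQ.comp (show typeSpace D M σ →ₗ[ℂ] cocycles M σ.dual from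
    { toFun := periodCocycle hcusp
      map_add' := fun Φ Ψ => Subtype.ext <| funext fun γ => LinearMap.ext fun w => by
        show prim hcusp (Φ + Ψ) w _ = prim hcusp Φ w _ + prim hcusp Ψ w _
        rw [prim_eq hcusp (G := prim hcusp Φ w + prim hcusp Ψ w)
          ((isPrimitive_prim hcusp Φ w).add (isPrimitive_prim hcusp Ψ w))]
        simp [prim_I]
      map_smul' := fun a Φ => Subtype.ext <| funext fun γ => LinearMap.ext fun w => by
        show prim hcusp (a • Φ) w _ = a • prim hcusp Φ w _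
        rw [prim_eq hcusp (G := a • prim hcusp Φ w) ((isPrimitive_prim hcusp Φ w).const_smul a)]
        simp [prim_I] })

theorem typePeriod_eq (Φ : typeSpace D M σ) :
    typePeriod hcusp Φ = Submodule.Quotient.mk (periodCocycle hcusp Φ) := rfl

/-- The periods intertwine the Hecke operators. -/
theorem typePeriod_heckeType {p : ℕ} (hp : p.Prime) (hpD : p.Coprime D) (Φ : typeSpace D M σ) :
    typePeriod hcusp (heckeType D M σ hp hpD Φ) =
      heckeH1 σ.dual hp hpD (typePeriod hcusp Φ) := by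
  rw [typePeriod_eq, typePeriod_eq, heckeH1, Family.onH1_mk]
  refine mk_eq_mk_iff.mpr ⟨∑ i : HeckeIdx M p,
    ((LinearMap.proj (heckeGL M p i • UpperHalfPlane.I)).comp (prim hcusp Φ)).comp
      (σ (red D (heckeMat M p i))), fun γ => LinearMap.ext fun w => ?_⟩
  have hG : IsPrimitive ((heckeType D M σ hp hpD Φ).1 w) (fun τ => ∑ i : HeckeIdx M p,
      prim hcusp Φ (σ (red D (heckeMat M p i)) w) (heckeGL M p i • τ)) := by
    rw [coe_heckeType, heckeMap_apply]
    intro τ
    have h := HasDerivAt.fun_sum (u := (Finset.univ : Finset (HeckeIdx M p))) fun i _ =>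
      ((isPrimitive_prim hcusp Φ (σ (red D (heckeMat M p i)) w)).comp_smul
        (det_heckeGL_pos i) : IsPrimitive _ _) τ
    simpa [Function.comp_def] using h
  rw [periodCocycle_apply, prim_eq hcusp hG]
  show _ = ((heckeFamily M hp hpD).onFun σ.dual (periodCocycle hcusp Φ).1 γ) w +
    ((∑ i : HeckeIdx M p,
      ((LinearMap.proj (heckeGL M p i • UpperHalfPlane.I)).comp (prim hcusp Φ)).comp
        (σ (red D (heckeMat M p i)))) (σ (redHom D _ γ)⁻¹ w) -
    (∑ i : HeckeIdx M p,
      ((LinearMap.proj (heckeGL M p i • UpperHalfPlane.I)).comp (prim hcusp Φ)).comp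
        (σ (red D (heckeMat M p i)))) w)
  have key : ∀ i : HeckeIdx M p,
      prim hcusp Φ (σ (red D (heckeMat M p i)) w)
        (heckeGL M p i • ((γ : SL(2, ℤ)) • UpperHalfPlane.I)) =
      (periodCocycle hcusp Φ : Gamma0 M → Module.Dual ℂ W) (transferElt hp γ i)
          (σ (red D (heckeMat M p i)) w) +
        prim hcusp Φ (σ (red D (heckeMat M p (transferIdx hp γ i))) (σ (redHom D _ γ)⁻¹ w))
          (heckeGL M p (transferIdx hp γ i) • UpperHalfPlane.I) := by
    intro i
    have h := (heckeFamily M hp hpD).red_step γ i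
    change (red D (heckeMat M p i))⁻¹ * redHom D _ (transferElt hp γ i) =
      redHom D _ γ * (red D (heckeMat M p (transferIdx hp γ i)))⁻¹ at h
    have h2 : (redHom D _ (transferElt hp γ i))⁻¹ * red D (heckeMat M p i) =
        red D (heckeMat M p (transferIdx hp γ i)) * (redHom D _ γ)⁻¹ := by
      simpa [mul_inv_rev] using congrArg (·⁻¹) h
    rw [heckeGL_smul hp γ i, prim_smul, periodCocycle_apply,
      ← Module.End.mul_apply (f := σ (redHom D _ (transferElt hp γ i))⁻¹), ← map_mul, h2, map_mul,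
      Module.End.mul_apply]
  simp only [key, Finset.sum_add_distrib, Family.onFun_apply, LinearMap.sum_apply]
  rw [(transferIdx_bijective hp γ).sum_comp fun j =>
    prim hcusp Φ (σ (red D (heckeMat M p j)) (σ (redHom D _ γ)⁻¹ w))
      (heckeGL M p j • UpperHalfPlane.I), add_sub_assoc]
  congr 1

/-- Two copies of the type space in `H¹`. -/
def typePeriodPair : typeSpace D M σ × typeSpace D M σ →ₗ[ℂ] H1 M σ.dual :=
  LinearMap.coprod ((LinearMap.id + conjH1 σ.dual) ∘ₗ typePeriod hcusp)
    ((LinearMap.id - conjH1 σ.dual) ∘ₗ typePeriod hcusp)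

theorem typePeriodPair_apply (Φ Ψ : typeSpace D M σ) :
    typePeriodPair hcusp (Φ, Ψ) = typePeriod hcusp Φ + conjH1 σ.dual (typePeriod hcusp Φ) +
      (typePeriod hcusp Ψ - conjH1 σ.dual (typePeriod hcusp Ψ)) := by
  simp [typePeriodPair]

theorem typePeriodPair_heckeType {p : ℕ} (hp : p.Prime) (hpD : p.Coprime D)
    (x : typeSpace D M σ × typeSpace D M σ) :
    typePeriodPair hcusp (heckeType D M σ hp hpD x.1, heckeType D M σ hp hpD x.2) =
      heckeH1 σ.dual hp hpD (typePeriodPair hcusp x) := by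
  rw [show x = (x.1, x.2) from rfl, typePeriodPair_apply, typePeriodPair_apply]
  simp only [map_add, map_sub, typePeriod_heckeType hcusp hp hpD, conjH1_heckeH1]

/-! ### Restriction to the torus invariant vector -/

variable {w₀ : W}

variable (D M) in
/-- `γ ↦ diag(D, 1) γ diag(D, 1)⁻¹`. -/
def diagConj : Gamma0 (M * D ^ 2) →* Gamma0 M :=
  have hex : ∀ γ : Gamma0 (M * D ^ 2), ∃ γ' : Gamma0 M,
      diagMat D * gammaMat γ = gammaMat γ' * diagMat D := fun γ => by
    have hγ : (γ : SL(2, ℤ)) ∈ Gamma0 (M * D * D) := by rw [mul_assoc, ← sq]; exact γ.2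
    obtain ⟨γ', hγ', h, -⟩ := exists_diag_conj (NeZero.ne D) hγ
    exact ⟨⟨γ', BadPrime.gamma0_le_of_dvd (dvd_mul_right M D) hγ'⟩, h⟩
  MonoidHom.mk' (fun γ => (hex γ).choose) fun γ δ => gammaMat_injective <| by
    refine intMat_mul_right_cancel (M := diagMat D) (by rw [det_diagMat]; exact_mod_cast NeZero.ne D) ?_
    refine (hex (γ * δ)).choose_spec.symm.trans ?_
    rw [gammaMat_mul, gammaMat_mul, ← Matrix.mul_assoc]
    refine (congrArg (· * gammaMat δ) (hex γ).choose_spec).trans ?_
    rw [Matrix.mul_assoc]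
    exact (congrArg (gammaMat _ * ·) (hex δ).choose_spec).trans (Matrix.mul_assoc _ _ _).symm

theorem diagMat_mul_gammaMat (γ : Gamma0 (M * D ^ 2)) :
    diagMat D * gammaMat γ = gammaMat (diagConj D M γ) * diagMat D := by
  unfold diagConj
  exact (Classical.choose_spec (_ : ∃ γ' : Gamma0 M,
    diagMat D * gammaMat γ = gammaMat γ' * diagMat D))

theorem diagConj_jConj (γ : Gamma0 (M * D ^ 2)) :
    diagConj D M (jConjGamma0 _ γ) = jConjGamma0 M (diagConj D M γ) := by
  have hd : jConjMat (diagMat D) = diagMat D := by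
    ext i j; fin_cases i <;> fin_cases j <;> simp [jConjMat, diagMat]
  apply gammaMat_injective
  refine intMat_mul_right_cancel (M := diagMat D) (by rw [det_diagMat]; exact_mod_cast NeZero.ne D) ?_
  rw [← diagMat_mul_gammaMat, gammaMat_jConjGamma0, gammaMat_jConjGamma0]
  conv_lhs => rw [← hd, ← jConjMat_mul, diagMat_mul_gammaMat, jConjMat_mul, hd]

theorem apply_redHom_diagConj (hfix : IsTorusFixed σ w₀) (γ : Gamma0 (M * D ^ 2)) :
    σ (redHom D _ (diagConj D M γ)) w₀ = w₀ := by
  have h := diagMat_mul_gammaMat γ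
  rw [Matrix.eta_fin_two (gammaMat γ), Matrix.eta_fin_two (gammaMat (diagConj D M γ)), diagMat,
    Matrix.mul_fin_two, Matrix.mul_fin_two] at h
  have h01 := congrFun (congrFun h 0) 1
  have h10 := congrFun (congrFun h 1) 0
  simp at h01 h10
  refine hfix.red_apply (isUnit_det_gammaMat _) ?_ ?_
  · rw [← h01, Int.cast_mul, Int.cast_natCast, ZMod.natCast_self, zero_mul]
  · have hc : ((M * D ^ 2 : ℕ) : ℤ) ∣ gammaMat γ 1 0 :=
      (ZMod.intCast_zmod_eq_zero_iff_dvd _ _).mp (Gamma0_mem.mp γ.2)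
    obtain ⟨m, hm⟩ := hc
    have : gammaMat (diagConj D M γ) 1 0 = (D : ℤ) * ((M : ℤ) * m) := by
      refine mul_right_cancel₀ (b := (D : ℤ)) (by exact_mod_cast NeZero.ne D) ?_
      rw [← h10, hm]
      push_cast
      ring
    rw [this, Int.cast_mul, Int.cast_natCast, ZMod.natCast_self, zero_mul]

/-- Restriction of a class to the torus invariant vector. -/
def restrictVec (hfix : IsTorusFixed σ w₀) :
    H1 M σ.dual →ₗ[ℂ] (Additive (Gamma0 (M * D ^ 2)) →+ ℂ) :=
  Submodule.liftQ _
    { toFun := fun f => AddMonoidHom.mk'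
        (fun γ => (f : Gamma0 M → Module.Dual ℂ W) (diagConj D M (Additive.toMul γ)) w₀)
        fun γ δ => by
          have hinv : σ (redHom D _ (diagConj D M (Additive.toMul γ)))⁻¹ w₀ = w₀ := by
            rw [← map_inv, ← map_inv]; exact apply_redHom_diagConj hfix _
          show (f : Gamma0 M → Module.Dual ℂ W)
            (diagConj D M (Additive.toMul γ * Additive.toMul δ)) w₀ = _
          rw [map_mul, f.2.1, LinearMap.add_apply]
          show _ + (f : Gamma0 M → Module.Dual ℂ W) _
            (σ (redHom D _ (diagConj D M (Additive.toMul γ)))⁻¹ w₀) = _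
          rw [hinv]
      map_add' := fun f g => AddMonoidHom.ext fun γ => rfl
      map_smul' := fun a f => AddMonoidHom.ext fun γ => rfl }
    fun f hf => by
      obtain ⟨a, ha⟩ := hf
      refine AddMonoidHom.ext fun γ => ?_
      show (f : Gamma0 M → Module.Dual ℂ W) (diagConj D M (Additive.toMul γ)) w₀ = 0
      have hinv : σ (redHom D _ (diagConj D M (Additive.toMul γ)))⁻¹ w₀ = w₀ := by
        rw [← map_inv, ← map_inv]; exact apply_redHom_diagConj hfix _
      rw [show (f : Gamma0 M → Module.Dual ℂ W) (diagConj D M (Additive.toMul γ)) =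
        cobound M σ.dual a (diagConj D M (Additive.toMul γ)) from (congrFun ha _).symm,
        cobound_apply, LinearMap.sub_apply]
      show a (σ (redHom D _ (diagConj D M (Additive.toMul γ)))⁻¹ w₀) - a w₀ = 0
      rw [hinv, sub_self]

theorem restrictVec_mk (hfix : IsTorusFixed σ w₀) (f : cocycles M σ.dual)
    (γ : Gamma0 (M * D ^ 2)) :
    restrictVec hfix (Submodule.Quotient.mk f) (Additive.ofMul γ) =
      (f : Gamma0 M → Module.Dual ℂ W) (diagConj D M γ) w₀ := rfl

variable [NeZero M]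

theorem restrictVec_typePeriod (hfix : IsTorusFixed σ w₀) (Φ : typeSpace D M σ) :
    restrictVec hfix (typePeriod hcusp Φ) = periodMap (M * D ^ 2) (evalForm hfix hcusp Φ) := by
  have : NeZero (M * D ^ 2) := ⟨mul_ne_zero (NeZero.ne M) (pow_ne_zero 2 (NeZero.ne D))⟩
  refine AddMonoidHom.ext fun x => ?_
  obtain ⟨γ, rfl⟩ := Additive.ofMul.surjective x
  have hd : (0 : ℝ) < (ModularForm.heckeDiagMatrix D).val.det := by
    rw [← Matrix.GeneralLinearGroup.val_det_apply]
    exact ModularForm.det_heckeDiagMatrix_pos D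
  have hG : IsPrimitive (evalForm hfix hcusp Φ)
      (fun τ => prim hcusp Φ w₀ (ModularForm.heckeDiagMatrix D • τ)) :=
    (isPrimitive_prim hcusp Φ w₀).comp_smul hd
  rw [periodMap_apply (evalForm hfix hcusp Φ) hG γ UpperHalfPlane.I, typePeriod_eq,
    restrictVec_mk, periodCocycle_apply]
  have hconj : ModularForm.heckeDiagMatrix D • ((γ : SL(2, ℤ)) • UpperHalfPlane.I) =
      ((diagConj D M γ : Gamma0 M) : SL(2, ℤ)) •
        (ModularForm.heckeDiagMatrix D • UpperHalfPlane.I) := by
    rw [ModularGroup.sl_moeb, ModularGroup.sl_moeb, smul_smul, smul_smul]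
    congr 1
    apply Matrix.GeneralLinearGroup.ext
    intro i j
    have h := congrArg (fun X : IntMat => X.map (Int.castRingHom ℝ)) (diagMat_mul_gammaMat γ)
    simp only [Matrix.map_mul] at h
    rw [Units.val_mul, Units.val_mul, val_heckeDiagMatrix_eq (NeZero.ne D)]
    exact congrFun (congrFun h i) j
  rw [hconj, prim_smul hcusp Φ _ _ (ModularForm.heckeDiagMatrix D • UpperHalfPlane.I)]
  have hinv : σ (redHom D _ (diagConj D M γ))⁻¹ w₀ = w₀ := by
    rw [← map_inv, ← map_inv]; exact apply_redHom_diagConj hfix γ⁻¹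
  rw [hinv]
  ring

omit [NeZero M] in
theorem restrictVec_conjH1 (hfix : IsTorusFixed σ w₀) (x : H1 M σ.dual) :
    restrictVec hfix (conjH1 σ.dual x) =
      charInvolution (M * D ^ 2) ℂ ℂ (restrictVec hfix x) := by
  obtain ⟨f, rfl⟩ := Submodule.Quotient.mk_surjective _ x
  refine AddMonoidHom.ext fun y => ?_
  obtain ⟨γ, rfl⟩ := Additive.ofMul.surjective y
  rw [conjH1_mk, restrictVec_mk, charInvolution_apply, restrictVec_mk, toMul_ofMul,
    diagConj_jConj, conjCocycles_apply]
  show (f : Gamma0 M → Module.Dual ℂ W) _ (σ (red D jMat)⁻¹ w₀) = _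
  rw [inv_eq_of_mul_eq_one_right red_jMat_mul_self,
    hfix.red_apply isUnit_det_jMat (by simp [jMat]) (by simp [jMat])]

theorem restrictVec_typePeriodPair (hfix : IsTorusFixed σ w₀) (Φ Ψ : typeSpace D M σ) :
    restrictVec hfix (typePeriodPair hcusp (Φ, Ψ)) =
      periodHomPair (M * D ^ 2) (evalForm hfix hcusp Φ, evalForm hfix hcusp Ψ) := by
  have : NeZero (M * D ^ 2) := ⟨mul_ne_zero (NeZero.ne M) (pow_ne_zero 2 (NeZero.ne D))⟩
  rw [typePeriodPair_apply, periodHomPair_apply]
  simp only [map_add, map_sub, restrictVec_conjH1 hfix, restrictVec_typePeriod hcusp hfix]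

/-- The periods of two copies of the type space are independent. -/
theorem typePeriodPair_injective (hfix : IsTorusFixed σ w₀)
    (hspan : Submodule.span ℂ {w | ∃ g : GL (Fin 2) (ZMod D), ∃ b : ZMod D,
      (g : Matrix (Fin 2) (Fin 2) (ZMod D)) = !![1, b; 0, 1] ∧ σ g w₀ = w} = ⊤) :
    Function.Injective (typePeriodPair hcusp (M := M) (σ := σ)) := by
  have : NeZero (M * D ^ 2) := ⟨mul_ne_zero (NeZero.ne M) (pow_ne_zero 2 (NeZero.ne D))⟩
  rintro ⟨Φ, Ψ⟩ ⟨Φ', Ψ'⟩ h
  have h' := congrArg (restrictVec hfix) h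
  rw [restrictVec_typePeriodPair hcusp hfix, restrictVec_typePeriodPair hcusp hfix] at h'
  have h'' := periodHomPair_injective (M * D ^ 2) h'
  exact Prod.ext (evalForm_injective hfix hcusp hspan (congrArg Prod.fst h''))
    (evalForm_injective hfix hcusp hspan (congrArg Prod.snd h''))

/-! ### Periods with values in a self-dual representation -/

variable (e : W ≃ₗ[ℂ] Module.Dual ℂ W) (he : ∀ g w, e (σ g w) = σ.dual g (e w))

include he in
theorem symm_intertwines (g : GL (Fin 2) (ZMod D)) (l : Module.Dual ℂ W) :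
    e.symm (σ.dual g l) = σ g (e.symm l) := by
  obtain ⟨w, rfl⟩ := e.surjective l
  rw [← he, e.symm_apply_apply, e.symm_apply_apply]

/-- Periods of two copies of the type space, valued in `σ`. -/
def selfPeriodPair : typeSpace D M σ × typeSpace D M σ →ₗ[ℂ] H1 M σ :=
  (mapH1 e.symm.toLinearMap (symm_intertwines e he)).comp (typePeriodPair hcusp)

theorem selfPeriodPair_heckeType {p : ℕ} (hp : p.Prime) (hpD : p.Coprime D)
    (x : typeSpace D M σ × typeSpace D M σ) :
    selfPeriodPair hcusp e he (heckeType D M σ hp hpD x.1, heckeType D M σ hp hpD x.2) =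
      heckeH1 σ hp hpD (selfPeriodPair hcusp e he x) := by
  rw [selfPeriodPair, LinearMap.comp_apply, LinearMap.comp_apply,
    typePeriodPair_heckeType hcusp hp hpD, heckeH1_mapH1]

theorem selfPeriodPair_injective (hfix : IsTorusFixed σ w₀)
    (hspan : Submodule.span ℂ {w | ∃ g : GL (Fin 2) (ZMod D), ∃ b : ZMod D,
      (g : Matrix (Fin 2) (Fin 2) (ZMod D)) = !![1, b; 0, 1] ∧ σ g w₀ = w} = ⊤) :
    Function.Injective (selfPeriodPair hcusp e he (M := M)) := by
  have hinj : Function.Injective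
      (mapH1 (M := M) e.symm.toLinearMap (symm_intertwines e he)) := by
    refine Function.LeftInverse.injective (g := mapH1 e.toLinearMap fun g w => he g w) fun x => ?_
    obtain ⟨f, rfl⟩ := Submodule.Quotient.mk_surjective _ x
    rw [mapH1_mk, mapH1_mk]
    congr 1
    exact Subtype.ext (funext fun γ => e.apply_symm_apply _)
  exact hinj.comp (typePeriodPair_injective hcusp hfix hspan)

end Fermat.Agent.TwoAdic.Weil
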