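import Fermat.Agent.TwoAdic.Cohom.Part
import Mathlib.LinearAlgebra.Eigenspace.Pi
import Mathlib.LinearAlgebra.Eigenspace.Triangularizable
import Mathlib.LinearAlgebra.Matrix.NonsingularInverse
import Mathlib.RingTheory.Noetherian.Basic

/-!
# The unit argument

`A` is a finite dimensional space over an algebraically closed field `L` with commuting operators
`T i` and an injective coefficient map `a : A → (ℕ → L)`. If a family of integral vectors has
linearly independent reductions in a stable space on which the reduced operators are the residual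
system `χ` up to locally nilpotent operators, then the parts of `A` at the systems reducing to `χ`
have total dimension at least the size of the family: the operators killing the other parts act
invertibly on the reductions.

Owner: helper9 (LT2, P2b/P3).
-/

set_option autoImplicit false

noncomputable section

open Module

namespace Fermat.Agent.TwoAdic.TypeSpace

open Cohom

/-- Integral vectors with linearly independent reductions are linearly independent. -/
theorem linearIndependent_of_red {R L k : Type*} [CommRing R] [Field L] [Field k] (φ : R →+* L)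
    (hφ : Function.Injective φ) (red : R →+* k) {G : Type*} [Finite G] {κ : Type*}
    (w : G → κ → R) (h : LinearIndependent k fun g n => red (w g n)) :
    LinearIndependent L fun g n => φ (w g n) := by
  classical
  have := Fintype.ofFinite G
  set col : κ → G → k := fun n g => red (w g n)
  -- the columns span
  have hspan : Submodule.span k (Set.range col) = ⊤ := by
    by_contra hne
    obtain ⟨f, hf, hle⟩ := Submodule.exists_le_ker_of_lt_top _ (lt_top_iff_ne_top.mpr hne)
    refine hf (LinearMap.ext fun x => ?_)
    have hrel : ∑ g, f (Pi.single g 1) • (fun n => red (w g n)) = (0 : κ → k) := by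
      funext n
      have hn : f (col n) = 0 := hle (Submodule.subset_span ⟨n, rfl⟩)
      rw [pi_eq_sum_univ' (col n), map_sum] at hn
      simpa [col, mul_comm] using hn
    have h0 := Fintype.linearIndependent_iff.mp h _ hrel
    rw [pi_eq_sum_univ' x, map_sum]
    simp [h0]
  obtain ⟨b, hb, hbs, hbi⟩ := exists_linearIndependent k (Set.range col)
  let B : Basis b k (G → k) := Basis.mk hbi (by rw [Subtype.range_coe, hbs, hspan])
  let e : G ≃ b := (Pi.basisFun k G).indexEquiv B
  choose N hN using fun g => hb (e g).2
  let M : Matrix G G R := fun g j => w g (N j)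
  have hMk : (M.map red).det ≠ 0 := by
    have hrows : LinearIndependent k (M.map red).transpose := by
      have : (M.map red).transpose = fun j => ((e j : b) : G → k) := by
        funext j g
        exact congrFun (hN j) g
      rw [this]
      exact hbi.comp e e.injective
    have hu : IsUnit (M.map red).transpose := Matrix.linearIndependent_rows_iff_isUnit.mp hrows
    rw [Matrix.isUnit_iff_isUnit_det, Matrix.det_transpose] at hu
    exact hu.ne_zero
  have hML : (M.map φ).det ≠ 0 := by
    rw [show (M.map φ).det = φ M.det from (RingHom.map_det φ M).symm]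
    intro h0
    refine hMk ?_
    rw [show (M.map red).det = red M.det from (RingHom.map_det red M).symm,
      hφ (h0.trans (map_zero φ).symm), map_zero]
  exact LinearIndependent.of_comp (LinearMap.funLeft L L N)
    (Matrix.linearIndependent_rows_of_det_ne_zero hML)

section General

variable {ι R L k A : Type*} [CommRing R] [Field L] [Field k] [AddCommGroup A] [Module L A]
  (φ : R →+* L) (red : R →+* k) (a : A →ₗ[L] (ℕ → L))

/-- The coefficients of `x` are integral with reduction `v`. -/
def Reduces (x : A) (v : ℕ → k) : Prop :=
  ∃ w : ℕ → R, (∀ n, φ (w n) = a x n) ∧ ∀ n, red (w n) = v n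

/-- The system is integral and reduces to `χ`. -/
def IsGoodSystem (χ : ι → k) (c : ι → L) : Prop :=
  ∃ b : ι → R, (∀ i, φ (b i) = c i) ∧ ∀ i, red (b i) = χ i

variable (T : ι → Module.End L A) (χ : ι → k)

/-- The sum of the parts at the systems reducing to `χ`. -/
def goodPart : Submodule L A := ⨆ c ∈ {c | IsGoodSystem φ red χ c}, part T c

variable {φ red a T χ}

theorem Reduces.sub_smul {x y : A} {v v' : ℕ → k} (hx : Reduces φ red a x v)
    (hy : Reduces φ red a y v') (b : R) : Reduces φ red a (x - φ b • y) (v - red b • v') := by
  obtain ⟨w, hw, hw'⟩ := hx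
  obtain ⟨z, hz, hz'⟩ := hy
  exact ⟨fun n => w n - b * z n, fun n => by simp [hw, hz], fun n => by simp [hw', hz']⟩

theorem mapsTo_part (hT : ∀ i j, Commute (T i) (T j)) (c : ι → L) (i : ι) :
    ∀ x ∈ part T c, T i x ∈ part T c := by
  intro x hx
  rw [part, Submodule.mem_iInf] at hx ⊢
  exact fun j => Module.End.mapsTo_maxGenEigenspace_of_comm (hT j i) (c j) (hx j)

/-- The good part is stable. -/
theorem apply_mem_goodPart (hT : ∀ i j, Commute (T i) (T j)) (i : ι) :
    ∀ x ∈ goodPart φ red T χ, T i x ∈ goodPart φ red T χ := by
  intro x hx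
  suffices h : (goodPart φ red T χ).map (T i) ≤ goodPart φ red T χ from
    h (Submodule.mem_map_of_mem hx)
  rw [goodPart, Submodule.map_iSup]
  refine iSup_le fun c => ?_
  rw [Submodule.map_iSup]
  refine iSup_le fun hc => ?_
  rintro _ ⟨y, hy, rfl⟩
  exact le_iSup₂ (f := fun c (_ : c ∈ {c | IsGoodSystem φ red χ c}) => part T c) c hc
    (mapsTo_part hT c i y hy)

variable [FiniteDimensional L A] [IsAlgClosed L]

theorem iSup_part_eq_top (hT : ∀ i j, Commute (T i) (T j)) : ⨆ c : ι → L, part T c = ⊤ :=
  Module.End.iSup_iInf_maxGenEigenspace_eq_top_of_iSup_maxGenEigenspace_eq_top_of_commute T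
    (fun i j _ => hT i j) fun i => Module.End.iSup_maxGenEigenspace_eq_top (T i)

omit [IsAlgClosed L] in
theorem finite_part_ne_bot (hT : ∀ i j, Commute (T i) (T j)) :
    {c : ι → L | part T c ≠ ⊥}.Finite :=
  Submodule.finite_ne_bot_of_iSupIndep
    (Module.End.independent_iInf_maxGenEigenspace_of_forall_mapsTo T fun i j μ =>
      Module.End.mapsTo_maxGenEigenspace_of_comm (hT j i) μ)

variable {U : Submodule k (ℕ → k)} (τ : ι → Module.End k (ℕ → k))

/-- **The unit argument.** -/
theorem card_le_finrank_goodPart (hφ : Function.Injective φ) (hT : ∀ i j, Commute (T i) (T j))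
    (hsys : ∀ c, part T c ≠ ⊥ → ∀ i, c i ∈ Set.range φ)
    (hstep : ∀ i x v, v ∈ U → Reduces φ red a x v → Reduces φ red a (T i x) (τ i v))
    (hU : ∀ i, ∀ v ∈ U, τ i v ∈ U)
    (hnil : ∀ i, ∀ v ∈ U, ∃ N, ((τ i - χ i • (1 : Module.End k (ℕ → k))) ^ N) v = 0)
    {G : Type*} [Fintype G] (v : G → A) (s : G → ℕ → k) (hs : ∀ g, s g ∈ U)
    (hvs : ∀ g, Reduces φ red a (v g) (s g)) (hind : LinearIndependent k s) :
    Fintype.card G ≤ finrank L (goodPart φ red T χ) := by
  classical
  have key : ∀ B : Finset (ι → L), (∀ c ∈ B, part T c ≠ ⊥ ∧ ¬ IsGoodSystem φ red χ c) →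
      ∃ (P : Module.End L A) (Pb : Module.End k (ℕ → k)),
        (∀ i, Commute P (T i)) ∧ (∀ c ∈ B, ∀ x ∈ part T c, P x = 0) ∧
        (∀ u ∈ U, Pb u ∈ U) ∧ (∀ u ∈ U, Pb u = 0 → u = 0) ∧
        ∀ x u, u ∈ U → Reduces φ red a x u → Reduces φ red a (P x) (Pb u) := by
    intro B hB
    induction B using Finset.induction_on with
    | empty => exact ⟨1, 1, fun i => Commute.one_left _, by simp, fun u hu => hu,
        fun u _ h => h, fun x u _ h => h⟩
    | @insert c B _ ih =>
      obtain ⟨P, Pb, hPT, hPB, hPU, hPi, hPr⟩ := ih fun d hd => hB d (Finset.mem_insert_of_mem hd)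
      obtain ⟨hc0, hcg⟩ := hB c (Finset.mem_insert_self c B)
      choose b hb using hsys c hc0
      obtain ⟨i, hi⟩ : ∃ i, red (b i) ≠ χ i := by
        by_contra! hall
        exact hcg ⟨b, hb, hall⟩
      set F : Module.End L A := T i - φ (b i) • 1 with hF
      set Fb : Module.End k (ℕ → k) := τ i - red (b i) • 1 with hFb
      have hFU : ∀ u ∈ U, Fb u ∈ U := fun u hu =>
        U.sub_mem (hU i u hu) (U.smul_mem _ hu)
      have hFi : ∀ u ∈ U, Fb u = 0 → u = 0 := by
        intro u hu h0
        obtain ⟨N, hN⟩ := hnil i u hu
        have h1 : ∀ m, ((τ i - χ i • (1 : Module.End k (ℕ → k))) ^ m) u =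
            (red (b i) - χ i) ^ m • u := by
          intro m
          induction m with
          | zero => simp
          | succ m ihm =>
            have hτ : τ i u = red (b i) • u := sub_eq_zero.mp h0
            rw [pow_succ, Module.End.mul_apply, show (τ i - χ i • (1 : Module.End k (ℕ → k))) u =
              (red (b i) - χ i) • u by simp [hτ, sub_smul], map_smul, ihm, smul_smul, pow_succ']
        rw [h1] at hN
        exact (smul_eq_zero.mp hN).resolve_left (pow_ne_zero _ (sub_ne_zero.mpr hi))
      have hFr : ∀ m x u, u ∈ U → Reduces φ red a x u →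
          (Fb ^ m) u ∈ U ∧ Reduces φ red a ((F ^ m) x) ((Fb ^ m) u) := by
        intro m x u hu hx
        induction m with
        | zero => exact ⟨hu, hx⟩
        | succ m ihm =>
          rw [pow_succ', pow_succ', Module.End.mul_apply, Module.End.mul_apply]
          exact ⟨hFU _ ihm.1, (hstep i _ _ ihm.1 ihm.2).sub_smul ihm.2 (b i)⟩
      have hFpU : ∀ m, ∀ u ∈ U, (Fb ^ m) u ∈ U := by
        intro m u hu
        induction m with
        | zero => exact hu
        | succ m ihm => rw [pow_succ', Module.End.mul_apply]; exact hFU _ ihm
      set N := finrank L A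
      refine ⟨F ^ N * P, Fb ^ N * Pb, fun j => ?_, fun d hd x hx => ?_,
        fun u hu => hFpU N _ (hPU u hu), fun u hu h0 => hPi u hu ?_, fun x u hu hx => ?_⟩
      · exact (((hT i j).sub_left ((Commute.one_left _).smul_left _)).pow_left N).mul_left (hPT j)
      · rcases Finset.mem_insert.mp hd with rfl | hd
        · rw [Module.End.mul_apply]
          have hPx : P x ∈ part T d := by
            rw [mem_part] at hx ⊢
            intro j
            obtain ⟨n, hn⟩ := hx j
            refine ⟨n, ?_⟩
            rw [← Module.End.mul_apply, ← (((hPT j).sub_right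
              ((Commute.one_right _).smul_right _)).pow_right n).eq, Module.End.mul_apply, hn,
              map_zero]
          rw [part, Submodule.mem_iInf] at hPx
          have := hPx i
          rw [Module.End.maxGenEigenspace_eq_genEigenspace_finrank,
            Module.End.mem_genEigenspace_nat, ← hb i, ← hF] at this
          exact this
        · rw [Module.End.mul_apply, hPB d hd x hx, map_zero]
      · have hz : ∀ m, ∀ z ∈ U, (Fb ^ m) z = 0 → z = 0 := by
          intro m
          induction m with
          | zero => exact fun z _ h => h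
          | succ m ihm =>
            intro z hz h
            rw [pow_succ, Module.End.mul_apply] at h
            exact hFi z hz (ihm _ (hFU z hz) h)
        exact hz N _ (hPU u hu) h0
      · exact (hFr N _ _ (hPU u hu) (hPr x u hu hx)).2
  set B := ((finite_part_ne_bot hT).toFinset.filter fun c => ¬ IsGoodSystem φ red χ c)
  obtain ⟨P, Pb, hPT, hPB, hPU, hPi, hPr⟩ := key B fun c hc => by
    simpa [B] using hc
  have hgood : ∀ x, P x ∈ goodPart φ red T χ := by
    intro x
    have hx : x ∈ ⨆ c : ι → L, part T c := by rw [iSup_part_eq_top hT]; trivial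
    induction hx using Submodule.iSup_induction' with
    | mem c y hy =>
      by_cases hg : IsGoodSystem φ red χ c
      · refine le_iSup₂ (f := fun c (_ : c ∈ {c | IsGoodSystem φ red χ c}) => part T c) c hg ?_
        rw [mem_part] at hy ⊢
        intro j
        obtain ⟨n, hn⟩ := hy j
        refine ⟨n, ?_⟩
        rw [← Module.End.mul_apply, ← (((hPT j).sub_right
          ((Commute.one_right _).smul_right _)).pow_right n).eq, Module.End.mul_apply, hn, map_zero]
      · rcases eq_or_ne y 0 with rfl | hy0
        · simp
        · rw [hPB c (by simpa [B] using ⟨fun h => hy0 (by simpa [h] using hy), hg⟩) y hy]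
          exact zero_mem _
    | zero => simp
    | add y z _ _ hy hz => rw [map_add]; exact add_mem hy hz
  have hPs : LinearIndependent k fun g => Pb (s g) := by
    refine hind.map (f := Pb) (Submodule.disjoint_def.mpr fun u hu hu' => hPi u ?_ hu')
    exact Submodule.span_le.mpr (Set.range_subset_iff.mpr hs) hu
  choose w hw hw' using fun g => hPr (v g) (s g) (hs g) (hvs g)
  have hli : LinearIndependent L fun g n => φ (w g n) :=
    linearIndependent_of_red φ hφ red w (by simpa only [hw'] using hPs)
  have hli' : LinearIndependent L fun g => (⟨P (v g), hgood _⟩ : goodPart φ red T χ) := by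
    refine LinearIndependent.of_comp (a.comp (goodPart φ red T χ).subtype) ?_
    convert hli using 1
    funext g n
    exact (hw g n).symm
  exact hli'.fintype_card_le_finrank

end General

end Fermat.Agent.TwoAdic.TypeSpace
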