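import Fermat.Agent.TwoAdic.RingClass.Quadratic
import Fermat.Agent.TwoAdic.Theta.Form
import Mathlib.NumberTheory.NumberField.Discriminant.Defs
import Mathlib.RingTheory.Trace.Basic
import Mathlib.RingTheory.Norm.Transitivity

/-!
# The binary form of an ideal of an imaginary quadratic field

`IdealForm I` is a `ℤ`-basis `ω` of `I` with the positive form `f` such that
`N (x ω₀ + y ω₁) = N I · f (x, y)`; its discriminant is that of the field.

Owner: helper77 (LT2, P3b).
-/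

set_option autoImplicit false

noncomputable section

open NumberField Module
open Fermat.Agent.TwoAdic.Theta

namespace Fermat.Agent.TwoAdic.TypeSpace

variable {K : Type*} [Field K] [NumberField K]

/-- An integral vector as a combination of two elements. -/
def combo (ω : Fin 2 → 𝓞 K) (v : ℤ × ℤ) : 𝓞 K := (v.1 : 𝓞 K) * ω 0 + (v.2 : 𝓞 K) * ω 1

theorem combo_neg (ω : Fin 2 → 𝓞 K) (v : ℤ × ℤ) : combo ω (-v) = -combo ω v := by
  simp [combo]; ring

theorem combo_add (ω : Fin 2 → 𝓞 K) (v w : ℤ × ℤ) : combo ω (v + w) = combo ω v + combo ω w := by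
  simp [combo]; ring

/-- A basis of an ideal with its binary form. -/
structure IdealForm (I : Ideal (𝓞 K)) where
  /-- the basis -/
  ω : Fin 2 → 𝓞 K
  /-- the form -/
  form : PosForm
  mem_iff : ∀ x, x ∈ I ↔ ∃ v, combo ω v = x
  combo_injective : Function.Injective (combo ω)
  norm_combo : ∀ v, Algebra.norm ℤ (combo ω v) = (Ideal.absNorm I : ℤ) * form.eval v
  coe_disc : (form.disc : ℤ) = -discr K

theorem exists_conj (h2 : finrank ℚ K = 2) :
    ∃ σ : K ≃ₐ[ℚ] K, σ ≠ 1 ∧ (∀ x : 𝓞 K, ((Algebra.norm ℤ x : ℤ) : K) = (x : K) * σ x) ∧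
      ∀ x : 𝓞 K, ((Algebra.trace ℤ (𝓞 K) x : ℤ) : K) = (x : K) + σ x := by
  haveI := RingClass.isGalois_of_finrank_eq_two h2
  classical
  obtain ⟨σ, hσ⟩ : ∃ σ : K ≃ₐ[ℚ] K, σ ≠ 1 := by
    have : Nontrivial (K ≃ₐ[ℚ] K) := by
      rw [← Finite.one_lt_card_iff_nontrivial, IsGalois.card_aut_eq_finrank, h2]
      norm_num
    exact exists_ne 1
  have huniv : (Finset.univ : Finset (K ≃ₐ[ℚ] K)) = {1, σ} := by
    refine (Finset.eq_univ_of_card _ ?_).symm
    rw [Finset.card_pair hσ.symm, ← Nat.card_eq_fintype_card, IsGalois.card_aut_eq_finrank, h2]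
  refine ⟨σ, hσ, fun x => ?_, fun x => ?_⟩
  · have h1 := Algebra.norm_eq_prod_automorphisms ℚ (x : K)
    rw [huniv, Finset.prod_pair hσ.symm, ← Algebra.coe_norm_int] at h1
    simpa using h1
  · have h1 := trace_eq_sum_automorphisms (K := ℚ) (L := K) (x : K)
    rw [huniv, Finset.sum_pair hσ.symm, ← Algebra.coe_trace_int] at h1
    simpa using h1

/-- Every nonzero ideal of an imaginary quadratic field has a form. -/
theorem exists_idealForm (h2 : finrank ℚ K = 2) (hneg : discr K < 0) (I : Ideal (𝓞 K))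
    (hI : I ≠ ⊥) : Nonempty (IdealForm I) := by
  classical
  obtain ⟨σ, -, hN, hT⟩ := exists_conj (K := K) h2
  have hcard : Fintype.card (Free.ChooseBasisIndex ℤ (𝓞 K)) = 2 := by
    rw [← finrank_eq_card_chooseBasisIndex, RingOfIntegers.rank, h2]
  let b : Basis (Fin 2) ℤ (𝓞 K) :=
    (Free.chooseBasis ℤ (𝓞 K)).reindex (Fintype.equivFinOfCardEq hcard)
  let bI : Basis (Fin 2) ℤ I := I.selfBasis b hI
  set ω : Fin 2 → 𝓞 K := fun i => (bI i : 𝓞 K) with hω
  set n : ℕ := Ideal.absNorm I with hn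
  have hn0 : n ≠ 0 := mt Ideal.absNorm_eq_zero_iff.mp hI
  have hmem : ∀ v, combo ω v ∈ I := fun v =>
    I.add_mem (I.mul_mem_left _ (bI 0).2) (I.mul_mem_left _ (bI 1).2)
  have hrepr : ∀ x (hx : x ∈ I), combo ω (bI.repr ⟨x, hx⟩ 0, bI.repr ⟨x, hx⟩ 1) = x := by
    intro x hx
    have h := congrArg (Subtype.val : I → 𝓞 K) (bI.sum_repr ⟨x, hx⟩)
    simp only [Fin.sum_univ_two, Submodule.coe_add, SetLike.val_smul, zsmul_eq_mul] at h
    simpa [combo, hω, Submodule.coe_smul_of_tower, zsmul_eq_mul] using h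
  have hinj : Function.Injective (combo ω) := by
    intro v w h
    have e : v.1 • bI 0 + v.2 • bI 1 = w.1 • bI 0 + w.2 • bI 1 :=
      Subtype.ext (by simpa [combo, zsmul_eq_mul, hω] using h)
    have e0 := congrArg (fun z => bI.repr z 0) e
    have e1 := congrArg (fun z => bI.repr z 1) e
    simp at e0 e1
    exact Prod.ext e0 e1
  obtain ⟨A, hA⟩ := Ideal.absNorm_dvd_norm_of_mem (bI 0).2
  obtain ⟨C, hC⟩ := Ideal.absNorm_dvd_norm_of_mem (bI 1).2
  obtain ⟨S, hS⟩ := Ideal.absNorm_dvd_norm_of_mem (I.add_mem (bI 0).2 (bI 1).2)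
  rw [← hn] at hA hC hS
  set B : ℤ := S - A - C with hB
  have hAK : (ω 0 : K) * σ (ω 0) = n * (A : K) := by rw [← hN, hω, hA]; push_cast; rfl
  have hCK : (ω 1 : K) * σ (ω 1) = n * (C : K) := by rw [← hN, hω, hC]; push_cast; rfl
  have hBK : (ω 0 : K) * σ (ω 1) + ω 1 * σ (ω 0) = n * (B : K) := by
    have h := hN (ω 0 + ω 1)
    rw [show Algebra.norm ℤ (ω 0 + ω 1) = n * S from hS] at h
    push_cast [hB] at h ⊢
    rw [map_add] at h
    linear_combination -h - hAK - hCK
  have heval : ∀ v : ℤ × ℤ, Algebra.norm ℤ (combo ω v) =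
      (n : ℤ) * (A * v.1 ^ 2 + B * (v.1 * v.2) + C * v.2 ^ 2) := by
    intro v
    apply Int.cast_injective (α := K)
    rw [hN]
    simp only [combo]
    push_cast
    simp only [map_add, map_mul, map_intCast]
    linear_combination ((v.1 : K) ^ 2) * hAK + ((v.1 : K) * v.2) * hBK + ((v.2 : K) ^ 2) * hCK
  have hdisc : B ^ 2 - 4 * A * C = discr K := by
    have h1 : Algebra.discr ℤ ω = (b.det ω) ^ 2 * discr K := by
      rw [← NumberField.discr_eq_discr K b]
      conv_lhs => rw [show ω = Matrix.vecMul b ((b.toMatrix ω).map (algebraMap ℤ (𝓞 K))) from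
        (Basis.toMatrix_map_vecMul b ω).symm]
      rw [Algebra.discr_of_matrix_vecMul, Basis.det_apply]
    have h2' : (b.det ω) ^ 2 = (n : ℤ) ^ 2 := by
      rw [← Int.natAbs_sq (b.det ω), hn, ← Ideal.natAbs_det_basis_change b I bI]
      rfl
    have h3 : Algebra.discr ℤ ω = (n : ℤ) ^ 2 * (B ^ 2 - 4 * A * C) := by
      apply Int.cast_injective (α := K)
      rw [Algebra.discr_def, Matrix.det_fin_two]
      simp only [Algebra.traceMatrix_apply, Algebra.traceForm_apply]
      push_cast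
      simp only [hT, map_mul, RingOfIntegers.coe_eq_algebraMap]
      simp only [← RingOfIntegers.coe_eq_algebraMap]
      linear_combination ((ω 0 : K) * σ (ω 1) + ω 1 * σ (ω 0) + n * (B : K)) * hBK -
        4 * ((n : K) * C) * hAK - 4 * ((ω 0 : K) * σ (ω 0)) * hCK
    rw [h1, h2'] at h3
    exact (mul_left_cancel₀ (pow_ne_zero 2 (Int.natCast_ne_zero.mpr hn0)) h3).symm
  have hApos : 0 < A := by
    obtain ⟨v, hv⟩ : ∃ v, combo ω v = (n : 𝓞 K) := ⟨_, hrepr _ (Ideal.absNorm_mem I)⟩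
    have h := heval v
    rw [hv, show ((n : ℕ) : 𝓞 K) = algebraMap ℤ (𝓞 K) n by simp, Algebra.norm_algebraMap,
      RingOfIntegers.rank, h2, sq, mul_right_inj' (Int.natCast_ne_zero.mpr hn0)] at h
    have hnpos : (0 : ℤ) < n := Int.natCast_pos.mpr (Nat.pos_of_ne_zero hn0)
    by_contra hA0
    have key : 4 * A * (n : ℤ) = (2 * A * v.1 + B * v.2) ^ 2 + (-discr K) * v.2 ^ 2 := by
      rw [← hdisc]; linear_combination (4 * A) * h
    have hrhs : 0 ≤ (2 * A * v.1 + B * v.2) ^ 2 + (-discr K) * v.2 ^ 2 :=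
      add_nonneg (sq_nonneg _) (mul_nonneg (by linarith) (sq_nonneg _))
    have hA00 : A = 0 := by nlinarith
    rw [hA00] at hdisc
    nlinarith [sq_nonneg B]
  refine ⟨⟨ω, ⟨A, B, C, hApos, by linarith⟩, fun x => ⟨fun hx => ⟨_, hrepr x hx⟩, ?_⟩, hinj,
    fun v => ?_, ?_⟩⟩
  · rintro ⟨v, rfl⟩
    exact hmem v
  · rw [heval v]
    simp [PosForm.eval, hn]
  · rw [PosForm.coe_disc]
    linear_combination -hdisc

end Fermat.Agent.TwoAdic.TypeSpace
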