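import Fermat.Agent.TwoAdic.Weil.TypeSpace

/-!
# Changing the level of a type space

`Φ ↦ (w ↦ Φ (diag(r, 1) w) ∣ diag(r, 1))` maps level `M` to level `M * r`; for `p ∣ M` the
operator `U_p` maps level `p * M` to level `M`.
-/

set_option autoImplicit false

noncomputable section

namespace Fermat.Agent.TwoAdic.Weil

open UpperHalfPlane hiding I
open CongruenceSubgroup Function Matrix.SpecialLinearGroup Fermat.Agent.Periods
open Fermat.Agent.TwoAdic.Cohom
open scoped MatrixGroups ModularForm Manifold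

variable {D M : ℕ} {W : Type*} [AddCommGroup W] [Module ℂ W]
  {σ : Representation ℂ (GL (Fin 2) (ZMod D)) W}

/-- `diag(r, 1)`. -/
def diagMat (r : ℕ) : IntMat := !![(r : ℤ), 0; 0, 1]

theorem det_diagMat (r : ℕ) : (diagMat r).det = r := by simp [diagMat, Matrix.det_fin_two_of]

theorem isUnit_det_diagMat {r : ℕ} (hr : r.Coprime D) :
    IsUnit (((diagMat r).det : ℤ) : ZMod D) := by
  rw [det_diagMat, Int.cast_natCast]
  exact (ZMod.isUnit_iff_coprime r D).mpr hr

theorem val_heckeDiagMatrix_eq {r : ℕ} (hr : r ≠ 0) :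
    (ModularForm.heckeDiagMatrix r : GL (Fin 2) ℝ).val = (diagMat r).map (Int.cast : ℤ → ℝ) := by
  rw [ModularForm.val_heckeDiagMatrix hr, diagMat]
  ext a b; fin_cases a <;> fin_cases b <;> simp

theorem heckeDiagMatrix_eq_map (r : ℕ) :
    ∃ g : GL (Fin 2) ℚ,
      ModularForm.heckeDiagMatrix r = Matrix.GeneralLinearGroup.map (Rat.castHom ℝ) g := by
  rcases eq_or_ne r 0 with rfl | hr
  · exact ⟨1, by simp⟩
  refine ⟨Matrix.GeneralLinearGroup.mkOfDetNeZero ((diagMat r).map (Int.cast : ℤ → ℚ)) ?_, ?_⟩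
  · rw [show (diagMat r).map (Int.cast : ℤ → ℚ) = (Int.castRingHom ℚ).mapMatrix (diagMat r) from rfl,
      ← RingHom.map_det, det_diagMat]
    simp [hr]
  · refine Units.ext ?_
    rw [val_heckeDiagMatrix_eq hr]
    ext a b
    simp [Matrix.GeneralLinearGroup.mkOfDetNeZero]

/-- `diag(r, 1) γ = γ' diag(r, 1)` for `γ ∈ Γ₀(N r)`, with `γ' ∈ Γ₀(N)`. -/
theorem exists_diag_conj {r N : ℕ} (hr : r ≠ 0) {γ : SL(2, ℤ)} (hγ : γ ∈ Gamma0 (N * r)) :
    ∃ γ' : SL(2, ℤ), γ' ∈ Gamma0 N ∧ diagMat r * (γ : IntMat) = (γ' : IntMat) * diagMat r ∧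
      (γ : IntMat) 1 0 = r * (γ' : IntMat) 1 0 ∧ (γ' : IntMat) 0 1 = r * (γ : IntMat) 0 1 ∧
      ModularForm.heckeDiagMatrix r * mapGL ℝ γ = mapGL ℝ γ' * ModularForm.heckeDiagMatrix r := by
  obtain ⟨a, b, c, d, hγe, hdet, hc⟩ := gammaMat_entries (⟨γ, hγ⟩ : Gamma0 (N * r))
  obtain ⟨m, hm⟩ := hc
  push_cast at hm
  obtain ⟨g, hg⟩ := exists_gamma0_of_entries (N := N) (a := a) (b := r * b) (c := N * m) (d := d)
    (by linear_combination hdet + b * hm) (dvd_mul_right _ _)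
  have he : (γ : IntMat) = !![a, b; c, d] := hγe
  have hg' : ((g : SL(2, ℤ)) : IntMat) = !![a, r * b; (N : ℤ) * m, d] := hg
  have hmat : diagMat r * (γ : IntMat) = ((g : SL(2, ℤ)) : IntMat) * diagMat r := by
    rw [he, hg', diagMat, Matrix.mul_fin_two, Matrix.mul_fin_two]
    congrm !![?_, ?_; ?_, ?_]
    · ring
    · ring
    · linear_combination hm
    · ring
  refine ⟨g, g.2, hmat, ?_, ?_, ?_⟩
  · rw [he, hg']
    simpa using show c = (r : ℤ) * ((N : ℤ) * m) by linear_combination hm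
  · rw [he, hg']
    simp
  · apply Matrix.GeneralLinearGroup.ext
    intro i j
    have h := congrArg (fun X : IntMat => X.map (Int.castRingHom ℝ)) hmat
    simp only [Matrix.map_mul] at h
    rw [Units.val_mul, Units.val_mul, val_heckeDiagMatrix_eq hr]
    exact congrFun (congrFun h i) j

variable (D σ) in
/-- The raised map. -/
def raiseMap (r : ℕ) : Module.End ℂ (W →ₗ[ℂ] (ℍ → ℂ)) where
  toFun Φ :=
    { toFun := fun w => Φ (σ (red D (diagMat r)) w) ∣[(2 : ℤ)] ModularForm.heckeDiagMatrix r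
      map_add' := fun w w' => by simp only [map_add, SlashAction.add_slash]
      map_smul' := fun a w => by
        simp only [map_smul, ModularForm.smul_slash, ModularForm.σ_heckeDiagMatrix,
          ContinuousAlgEquiv.refl_apply, RingHom.id_apply] }
  map_add' Φ Ψ := LinearMap.ext fun w => by
    simp only [LinearMap.add_apply, SlashAction.add_slash]
    rfl
  map_smul' a Φ := LinearMap.ext fun w => by
    change (a • Φ) (σ (red D (diagMat r)) w) ∣[(2 : ℤ)] ModularForm.heckeDiagMatrix r =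
      a • (Φ (σ (red D (diagMat r)) w) ∣[(2 : ℤ)] ModularForm.heckeDiagMatrix r)
    rw [LinearMap.smul_apply, ModularForm.smul_slash, ModularForm.σ_heckeDiagMatrix]
    rfl

theorem raiseMap_apply (r : ℕ) (Φ : W →ₗ[ℂ] (ℍ → ℂ)) (w : W) :
    raiseMap D σ r Φ w =
      Φ (σ (red D (diagMat r)) w) ∣[(2 : ℤ)] ModularForm.heckeDiagMatrix r := rfl

theorem raiseMap_mem {r : ℕ} (hr : r ≠ 0) (hrD : r.Coprime D) {Φ : W →ₗ[ℂ] (ℍ → ℂ)}
    (hΦ : Φ ∈ typeSpace D M σ) : raiseMap D σ r Φ ∈ typeSpace D (M * r) σ := by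
  refine ⟨fun w => ?_, fun w c hc => ?_, fun γ hγ w => ?_⟩
  · exact MDifferentiable.slash (hΦ.1 _) _ _
  · obtain ⟨g, hg⟩ := heckeDiagMatrix_eq_map r
    rw [raiseMap_apply, hg]
    exact OnePoint.IsBoundedAt.smul_iff.mp (hΦ.2.1 _ _ (isCusp_map_smul hc g))
  · obtain ⟨γ', hγ', hmat, -, -, hGL⟩ := exists_diag_conj hr hγ
    have hred : red D (diagMat r) * redSL D γ = redSL D γ' * red D (diagMat r) := by
      have h := congrArg (red D) hmat
      rwa [red_mul (isUnit_det_diagMat hrD) (isUnit_det_sl D _),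
        red_mul (isUnit_det_sl D _) (isUnit_det_diagMat hrD)] at h
    rw [raiseMap_apply, raiseMap_apply, ← Module.End.mul_apply, ← map_mul, hred, map_mul,
      Module.End.mul_apply, ModularForm.SL_slash, ← SlashAction.slash_mul]
    erw [hGL]
    rw [SlashAction.slash_mul]
    exact congrArg (fun f : ℍ → ℂ => f ∣[(2 : ℤ)] ModularForm.heckeDiagMatrix r) (hΦ.2.2 _ hγ' _)

variable (D M σ) in
/-- Raising a form of type `σ` from level `M` to level `M * r`, for `r` prime to `D`. -/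
def raiseType {r : ℕ} (hr : r ≠ 0) (hrD : r.Coprime D) :
    typeSpace D M σ →ₗ[ℂ] typeSpace D (M * r) σ :=
  ((raiseMap D σ r).comp (typeSpace D M σ).subtype).codRestrict _ fun Φ =>
    raiseMap_mem hr hrD Φ.2

theorem coe_raiseType {r : ℕ} (hr : r ≠ 0) (hrD : r.Coprime D) (Φ : typeSpace D M σ) :
    (raiseType D M σ hr hrD Φ).1 = raiseMap D σ r Φ.1 := rfl

/-! ### The contraction -/

theorem transferElt_mem_Gamma0_mul {p : ℕ} (hp : p.Prime) (hpM : p ∣ M) (γ : Gamma0 M)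
    (i : HeckeIdx M p) : ((transferElt hp γ i : Gamma0 M) : SL(2, ℤ)) ∈ Gamma0 (p * M) := by
  obtain ⟨a, b, c, d, hγ, -, hc⟩ := gammaMat_entries γ
  obtain ⟨a', b', c', d', hg, -, -⟩ := gammaMat_entries (transferElt hp γ i)
  have h : heckeMat M p i * gammaMat γ =
      gammaMat (transferElt hp γ i) * heckeMat M p (transferIdx hp γ i) := transfer_spec hp γ i
  obtain ⟨_ | j, hi⟩ := i
  · exact absurd hpM (hi rfl)
  generalize hk : transferIdx hp γ (⟨some j, hi⟩ : HeckeIdx M p) = k at h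
  obtain ⟨_ | k, hk'⟩ := k
  · exact absurd hpM (hk' rfl)
  rw [hγ, hg] at h
  have h10 := congrFun (congrFun h 1) 0
  simp [heckeMat, Matrix.mul_apply, Fin.sum_univ_two] at h10
  rw [Gamma0_mem, ZMod.intCast_zmod_eq_zero_iff_dvd, Nat.cast_mul]
  have e : ((transferElt hp γ ⟨some j, hi⟩ : Gamma0 M) : SL(2, ℤ)) 1 0 = c' := by
    show gammaMat (transferElt hp γ ⟨some j, hi⟩) 1 0 = c'
    rw [hg]; rfl
  rw [e, ← h10]
  exact mul_dvd_mul_left _ hc

theorem heckeMap_mem_contract {p : ℕ} (hp : p.Prime) (hpD : p.Coprime D) (hpM : p ∣ M)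
    {Φ : W →ₗ[ℂ] (ℍ → ℂ)} (hΦ : Φ ∈ typeSpace D (p * M) σ) :
    heckeMap D M σ p Φ ∈ typeSpace D M σ := by
  refine ⟨fun w => ?_, fun w c hc => ?_, fun γ hγ w => ?_⟩
  · rw [heckeMap_apply]
    exact MDifferentiable.sum fun i _ => MDifferentiable.slash (hΦ.1 _) _ _
  · rw [heckeMap_apply]
    refine Finset.sum_induction _ (fun f => OnePoint.IsBoundedAt c f 2)
      (fun _ _ ha hb => ha.add hb) (fun g _ => ?_) fun i _ => ?_
    · rw [SlashAction.zero_slash]
      exact Filter.const_boundedAtFilter _ (0 : ℂ)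
    · obtain ⟨g, hg⟩ := heckeGL_eq_map hp.ne_zero i
      rw [hg]
      exact OnePoint.IsBoundedAt.smul_iff.mp (hΦ.2.1 _ _ (isCusp_map_smul hc g))
  · rw [heckeMap_apply, heckeMap_apply, SlashAction.sum_slash]
    refine Fintype.sum_bijective (transferIdx hp ⟨γ, hγ⟩) (transferIdx_bijective hp ⟨γ, hγ⟩) _ _
      fun i => ?_
    set g := transferElt hp (⟨γ, hγ⟩ : Gamma0 M) i
    set j := transferIdx hp (⟨γ, hγ⟩ : Gamma0 M) i
    have hred : red D (heckeMat M p i) * redSL D γ = redSL D g * red D (heckeMat M p j) := by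
      have h := congrArg (red D) (transfer_spec hp (⟨γ, hγ⟩ : Gamma0 M) i)
      rwa [red_mul (isUnit_det_heckeMat hpD i) (isUnit_det_gammaMat _),
        red_mul (isUnit_det_gammaMat _) (isUnit_det_heckeMat hpD j)] at h
    rw [← Module.End.mul_apply, ← map_mul, hred, map_mul, Module.End.mul_apply,
      ModularForm.SL_slash, ← SlashAction.slash_mul]
    erw [heckeGL_mul_gamma hp ⟨γ, hγ⟩ i]
    rw [SlashAction.slash_mul]
    exact congrArg (fun f : ℍ → ℂ => f ∣[(2 : ℤ)] heckeGL M p j)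
      (hΦ.2.2 _ (transferElt_mem_Gamma0_mul hp hpM ⟨γ, hγ⟩ i) _)

variable (D M σ) in
/-- `U_p` from level `p * M` to level `M`, for `p ∣ M`. -/
def contractType {p : ℕ} (hp : p.Prime) (hpD : p.Coprime D) (hpM : p ∣ M) :
    typeSpace D (p * M) σ →ₗ[ℂ] typeSpace D M σ :=
  ((heckeMap D M σ p).comp (typeSpace D (p * M) σ).subtype).codRestrict _ fun Φ =>
    heckeMap_mem_contract hp hpD hpM Φ.2

theorem coe_contractType {p : ℕ} (hp : p.Prime) (hpD : p.Coprime D) (hpM : p ∣ M)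
    (Φ : typeSpace D (p * M) σ) :
    (contractType D M σ hp hpD hpM Φ).1 = heckeMap D M σ p Φ.1 := rfl

end Fermat.Agent.TwoAdic.Weil
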