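import Fermat.Agent.TwoAdic.PrimeClasses.RingClass
import Fermat.Agent.TwoAdic.TypeSpace.IdealSeries.Recursion
import Mathlib.Algebra.MonoidAlgebra.Module
import Mathlib.LinearAlgebra.Finsupp.LinearCombination

/-!
# The ideal series modulo 2

`k` is a field of characteristic 2, `π` a quotient 2-group `G` of the ring class group of conductor
`f` and `u` a character of order 3 with values in `k`. For `g : G` the series `series π u g` sums
`u` over the ideals prime to `f` of given norm and class `g`. They are the coefficients of one series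
`theta π u` over `k[G]`; the Hecke operators act on their span through `k[G]`, so nilpotently off the
residual system, and the family stays independent on the integers prime to a finite set of primes.
-/

set_option autoImplicit false

noncomputable section

open NumberField

namespace Fermat.Agent.TwoAdic.TypeSpace

open RingClass PrimeClasses

variable {K : Type*} [Field K] [NumberField K] {f : ℕ} [NeZero f] {G : Type*} [CommGroup G]
  {k : Type*} [Field k]

variable (π : RingClassGroup K f →* G) (u : RingClassGroup K f →* kˣ)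

/-- `c ↦ u(c) [π c]`. -/
def classVal : RingClassGroup K f →* MonoidAlgebra k G where
  toFun c := MonoidAlgebra.single (π c) (u c : k)
  map_one' := by simp [MonoidAlgebra.one_def]
  map_mul' c d := by simp [MonoidAlgebra.single_mul_single]

/-- The series over `k[G]`. -/
def theta (n : ℕ) : MonoidAlgebra k G := idealSeries (clsFun (classVal π u)) n

open Classical in
/-- The series of the class `g`. -/
def series (g : G) (n : ℕ) : k :=
  ∑ b ∈ idealsOfNorm K n, if h : b ∈ primeTo K f then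
    (if π (cls ⟨b, h⟩) = g then (u (cls ⟨b, h⟩) : k) else 0) else 0

theorem series_eq_coeff (g : G) (n : ℕ) : series π u g n = (theta π u n).coeff g := by
  classical
  rw [series, theta, idealSeries, MonoidAlgebra.coeff_sum, Finsupp.finsetSum_apply]
  refine Finset.sum_congr rfl fun b _ => ?_
  split_ifs with hb hg
  · rw [clsFun_of_mem _ hb]; simp [classVal, hg]
  · rw [clsFun_of_mem _ hb]; simp [classVal, hg]
  · rw [clsFun_of_not_mem _ hb]; simp

theorem theta_one : theta π u 1 = 1 := idealSeries_one _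

/-- `x ↦ (n ↦ coefficient of 1 in x θ(n))`. -/
def seriesMap : MonoidAlgebra k G →ₗ[k] ℕ → k where
  toFun x n := (x * theta π u n).coeff 1
  map_add' x y := by funext n; simp [add_mul]
  map_smul' c x := by funext n; simp

theorem seriesMap_single (g : G) (c : k) :
    seriesMap π u (MonoidAlgebra.single g c) = c • series π u g⁻¹ := by
  funext n
  simp [seriesMap, series_eq_coeff, MonoidAlgebra.single_mul_apply]

theorem range_seriesMap :
    LinearMap.range (seriesMap π u) = Submodule.span k (Set.range (series π u)) := by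
  refine le_antisymm ?_ ?_
  · rintro _ ⟨x, rfl⟩
    induction x using MonoidAlgebra.induction_on with
    | of h =>
      rw [MonoidAlgebra.of_apply, seriesMap_single, one_smul]
      exact Submodule.subset_span ⟨h⁻¹, rfl⟩
    | add a b ha hb => rw [map_add]; exact add_mem ha hb
    | smul r a ha => rw [map_smul]; exact Submodule.smul_mem _ r ha
  · rw [Submodule.span_le]
    rintro _ ⟨g, rfl⟩
    exact ⟨MonoidAlgebra.single g⁻¹ 1, by rw [seriesMap_single, inv_inv, one_smul]⟩

/-- `a(n) ↦ a(ℓ n) + a(n / ℓ)`. -/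
def heckeSeq (ℓ : ℕ) : Module.End k (ℕ → k) where
  toFun a n := a (ℓ * n) + if ℓ ∣ n then a (n / ℓ) else 0
  map_add' a b := by funext n; simp only [Pi.add_apply]; split_ifs <;> ring
  map_smul' c a := by funext n; simp only [Pi.smul_apply, smul_eq_mul, RingHom.id_apply]; split_ifs <;> ring

/-- `a(n) ↦ a(ℓ n)`. -/
def upSeq (ℓ : ℕ) : Module.End k (ℕ → k) where
  toFun a n := a (ℓ * n)
  map_add' a b := rfl
  map_smul' c a := rfl

theorem clsFun_span_natCast {ℓ : ℕ} (hℓ : ℓ.Prime) (hℓf : ¬ ℓ ∣ f) :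
    clsFun (classVal π u) (Ideal.span {(ℓ : 𝓞 K)}) = 1 := by
  have h : RatMod f (ℓ : 𝓞 K) := by
    simpa using RatMod.of_intCast (K := K) (a := (ℓ : ℤ))
      (Int.isCoprime_iff_gcd_eq_one.mpr (by
        rw [Int.gcd_natCast_natCast]; exact hℓ.coprime_iff_not_dvd.mpr hℓf))
      (by exact_mod_cast hℓ.ne_zero)
  rw [clsFun_of_mem _ h.span_mem, cls_span_of_ratMod h, map_one]

theorem mem_primeTo_of_absNorm {ℓ : ℕ} (hℓ : ℓ.Prime) (hℓf : ¬ ℓ ∣ f) {P P' : Ideal (𝓞 K)}
    (hmul : P * P' = Ideal.span {(ℓ : 𝓞 K)}) : P ∈ primeTo K f ∧ P' ∈ primeTo K f := by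
  have h : RatMod f (ℓ : 𝓞 K) := by
    simpa using RatMod.of_intCast (K := K) (a := (ℓ : ℤ))
      (Int.isCoprime_iff_gcd_eq_one.mpr (by
        rw [Int.gcd_natCast_natCast]; exact hℓ.coprime_iff_not_dvd.mpr hℓf))
      (by exact_mod_cast hℓ.ne_zero)
  exact mul_mem_primeTo_iff.mp (hmul ▸ h.span_mem)

theorem cls_cofactor {ℓ : ℕ} (hℓ : ℓ.Prime) (hℓf : ¬ ℓ ∣ f) {P P' : Ideal (𝓞 K)}
    (hP : P ∈ primeTo K f) (hP' : P' ∈ primeTo K f)
    (hmul : P * P' = Ideal.span {(ℓ : 𝓞 K)}) : cls (⟨P', hP'⟩ : primeTo K f) = (cls ⟨P, hP⟩)⁻¹ := by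
  have h : RatMod f (ℓ : 𝓞 K) := by
    simpa using RatMod.of_intCast (K := K) (a := (ℓ : ℤ))
      (Int.isCoprime_iff_gcd_eq_one.mpr (by
        rw [Int.gcd_natCast_natCast]; exact hℓ.coprime_iff_not_dvd.mpr hℓf))
      (by exact_mod_cast hℓ.ne_zero)
  exact (cls_inv_eq_of_mul (I := ⟨P, hP⟩) (J := ⟨P', hP'⟩) h hmul).symm

/-- The eigenvalue of `T_ℓ` in `k[G]` at a split prime `P`. -/
def splitVal (c : RingClassGroup K f) : MonoidAlgebra k G := classVal π u c + classVal π u c⁻¹

variable {π u}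

theorem heckeSeq_seriesMap_apply {ℓ : ℕ} (a : MonoidAlgebra k G)
    (ha : ∀ n : ℕ, n ≠ 0 → theta π u (ℓ * n) + (if ℓ ∣ n then theta π u (n / ℓ) else 0) =
      a * theta π u n) (x : MonoidAlgebra k G) {n : ℕ} (hn : n ≠ 0) :
    heckeSeq ℓ (seriesMap π u x) n = seriesMap π u (x * a) n := by
  show (x * theta π u (ℓ * n)).coeff 1 + (if ℓ ∣ n then (x * theta π u (n / ℓ)).coeff 1 else 0) =
    (x * a * theta π u n).coeff 1
  rw [mul_assoc, ← ha n hn, mul_add]
  split_ifs <;> simp

theorem theta_zero : theta π u 0 = 0 := by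
  classical
  refine Finset.sum_eq_zero fun b hb => clsFun_of_not_mem _ fun h => h.1 ?_
  exact Ideal.absNorm_eq_zero_iff.mp (mem_idealsOfNorm.mp hb)

theorem heckeSeq_seriesMap {ℓ : ℕ} (a : MonoidAlgebra k G)
    (ha : ∀ n : ℕ, n ≠ 0 → theta π u (ℓ * n) + (if ℓ ∣ n then theta π u (n / ℓ) else 0) =
      a * theta π u n) (x : MonoidAlgebra k G) :
    heckeSeq ℓ (seriesMap π u x) = seriesMap π u (x * a) := by
  funext n
  rcases eq_or_ne n 0 with rfl | hn
  · simp [heckeSeq, seriesMap, theta_zero]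
  · exact heckeSeq_seriesMap_apply a ha x hn

section Recursions

variable (h2 : Module.finrank ℚ K = 2) {ℓ : ℕ} (hℓ : ℓ.Prime) (hℓf : ¬ ℓ ∣ f)
include h2 hℓ hℓf

theorem theta_split {P P' : Ideal (𝓞 K)} (hPN : Ideal.absNorm P = ℓ)
    (hP'N : Ideal.absNorm P' = ℓ) (hne : P ≠ P') (hmul : P * P' = Ideal.span {(ℓ : 𝓞 K)})
    {n : ℕ} (hn : n ≠ 0) :
    theta π u (ℓ * n) + (if ℓ ∣ n then theta π u (n / ℓ) else 0) =
      splitVal π u (cls ⟨P, (mem_primeTo_of_absNorm hℓ hℓf hmul).1⟩) * theta π u n := by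
  obtain ⟨hP, hP'⟩ := mem_primeTo_of_absNorm hℓ hℓf hmul
  have h := idealSeries_split (clsFun (classVal π u)) h2 hℓ hPN hP'N hne hmul hn
  rw [clsFun_span_natCast π u hℓ hℓf, one_mul, clsFun_of_mem _ hP, clsFun_of_mem _ hP',
    cls_cofactor hℓ hℓf hP hP' hmul] at h
  exact h

/-- `T_ℓ` at a split prime. -/
theorem heckeSeq_series_split {P P' : Ideal (𝓞 K)} (hPN : Ideal.absNorm P = ℓ)
    (hP'N : Ideal.absNorm P' = ℓ) (hne : P ≠ P') (hmul : P * P' = Ideal.span {(ℓ : 𝓞 K)})
    (hP : P ∈ primeTo K f) (g : G) :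
    heckeSeq ℓ (series π u g) = (u (cls ⟨P, hP⟩) : k) • series π u (g * (π (cls ⟨P, hP⟩))⁻¹) +
      ((u (cls ⟨P, hP⟩))⁻¹ : kˣ).1 • series π u (g * π (cls ⟨P, hP⟩)) := by
  have h := heckeSeq_seriesMap (π := π) (u := u) _
    (fun n hn => theta_split h2 hℓ hℓf hPN hP'N hne hmul hn) (MonoidAlgebra.single g⁻¹ 1)
  rw [seriesMap_single, one_smul, inv_inv] at h
  rw [h]
  simp [splitVal, classVal, mul_add, MonoidAlgebra.single_mul_single, seriesMap_single, mul_comm]

variable [CharP k 2]

theorem theta_inert (hp : (Ideal.span {(ℓ : 𝓞 K)}).IsPrime) {n : ℕ} (hn : n ≠ 0) :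
    theta π u (ℓ * n) + (if ℓ ∣ n then theta π u (n / ℓ) else 0) = 0 * theta π u n := by
  haveI : CharP (MonoidAlgebra k G) 2 :=
    charP_of_injective_algebraMap (algebraMap k (MonoidAlgebra k G)).injective 2
  have h := idealSeries_inert (clsFun (classVal π u)) h2 hℓ hp hn
  rw [clsFun_span_natCast π u hℓ hℓf, one_mul] at h
  rw [zero_mul]
  simp only [theta]
  rw [h, CharTwo.add_self_eq_zero]

/-- `T_ℓ` at an inert prime. -/
theorem heckeSeq_series_inert (hp : (Ideal.span {(ℓ : 𝓞 K)}).IsPrime) (g : G) :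
    heckeSeq ℓ (series π u g) = 0 := by
  have h := heckeSeq_seriesMap (π := π) (u := u) _ (fun n hn => theta_inert h2 hℓ hℓf hp hn)
    (MonoidAlgebra.single g⁻¹ 1)
  rwa [seriesMap_single, one_smul, inv_inv, mul_zero, map_zero] at h

end Recursions

section Ramified

variable {ℓ : ℕ} (hℓ : ℓ.Prime) (hℓf : ¬ ℓ ∣ f) {P : Ideal (𝓞 K)}
  (hPN : Ideal.absNorm P = ℓ) (hmul : P * P = Ideal.span {(ℓ : 𝓞 K)})
include hℓ hℓf hPN hmul

theorem upSeq_seriesMap (x : MonoidAlgebra k G) :
    upSeq ℓ (seriesMap π u x) = seriesMap π u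
      (x * classVal π u (cls ⟨P, (mem_primeTo_of_absNorm hℓ hℓf hmul).1⟩)) := by
  funext n
  show (x * theta π u (ℓ * n)).coeff 1 = (x * _ * theta π u n).coeff 1
  rcases eq_or_ne n 0 with rfl | hn
  · simp [theta_zero]
  · have h := idealSeries_ramified (clsFun (classVal π u)) hℓ hPN hmul hn
    rw [clsFun_of_mem _ (mem_primeTo_of_absNorm hℓ hℓf hmul).1] at h
    rw [mul_assoc]
    exact congrArg (fun y => (x * y).coeff 1) h

/-- `U_ℓ` at a ramified prime. -/
theorem upSeq_series (hP : P ∈ primeTo K f) (g : G) :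
    upSeq ℓ (series π u g) = (u (cls ⟨P, hP⟩) : k) • series π u (g * (π (cls ⟨P, hP⟩))⁻¹) := by
  have h := upSeq_seriesMap (π := π) (u := u) hℓ hℓf hPN hmul (MonoidAlgebra.single g⁻¹ 1)
  rw [seriesMap_single, one_smul, inv_inv] at h
  rw [h]
  simp [classVal, MonoidAlgebra.single_mul_single, seriesMap_single, mul_comm]

theorem cls_sq_eq_one (hP : P ∈ primeTo K f) : cls (⟨P, hP⟩ : primeTo K f) ^ 2 = 1 := by
  have h := cls_cofactor (K := K) hℓ hℓf hP hP hmul
  rw [sq]
  conv_lhs => arg 1; rw [h]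
  exact inv_mul_cancel _

theorem upSeq_upSeq (x : MonoidAlgebra k G) :
    upSeq ℓ (upSeq ℓ (seriesMap π u x)) = seriesMap π u x := by
  rw [upSeq_seriesMap hℓ hℓf hPN hmul, upSeq_seriesMap hℓ hℓf hPN hmul, mul_assoc, ← map_mul,
    ← sq, cls_sq_eq_one hℓ hℓf hPN hmul, map_one, mul_one]

theorem u_eq_one (hu3 : ∀ c, u c ^ 3 = 1) (hP : P ∈ primeTo K f) : u (cls ⟨P, hP⟩) = 1 := by
  have h := congrArg u (cls_sq_eq_one hℓ hℓf hPN hmul hP)
  rw [map_pow, map_one] at h
  have h3 := hu3 (cls ⟨P, hP⟩)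
  rwa [pow_succ, h, one_mul] at h3

end Ramified

section Nilpotent

variable [Finite G] (hG : IsPGroup 2 G) [CharP k 2]
include hG

/-- The augmentation ideal is nilpotent. -/
theorem isNilpotent_sub_algebraMap (a : MonoidAlgebra k G) :
    IsNilpotent (a - algebraMap k _ (MonoidAlgebra.lift k k G (1 : G →* k) a)) := by
  haveI : CharP (MonoidAlgebra k G) 2 :=
    charP_of_injective_algebraMap (algebraMap k (MonoidAlgebra k G)).injective 2
  induction a using MonoidAlgebra.induction_on with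
  | of h =>
    obtain ⟨n, hn⟩ := hG h
    refine ⟨2 ^ n, ?_⟩
    rw [MonoidAlgebra.lift_of, MonoidHom.one_apply, map_one, sub_pow_char_pow, ← map_pow, hn,
      map_one, one_pow, sub_self]
  | add a b ha hb =>
    rw [map_add, map_add, add_sub_add_comm]
    exact (Commute.all _ _).isNilpotent_add ha hb
  | smul r a ha =>
    rw [map_smul, Algebra.algebraMap_eq_smul_one, smul_eq_mul, mul_smul,
      ← Algebra.algebraMap_eq_smul_one, ← smul_sub]
    exact ha.smul r

/-- An operator acting through `a ∈ k[G]` is `ε(a)` up to a nilpotent on the span of the series. -/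
theorem exists_pow_sub_eq_zero (T : Module.End k (ℕ → k)) (a : MonoidAlgebra k G)
    (hT : ∀ x, T (seriesMap π u x) = seriesMap π u (x * a)) :
    ∃ N : ℕ, ∀ v ∈ Submodule.span k (Set.range (series π u)),
      ((T - MonoidAlgebra.lift k k G (1 : G →* k) a • (1 : Module.End k (ℕ → k))) ^ N) v = 0 := by
  obtain ⟨N, hN⟩ := isNilpotent_sub_algebraMap hG a
  refine ⟨N, fun v hv => ?_⟩
  rw [← range_seriesMap] at hv
  obtain ⟨x, rfl⟩ := hv
  set c := MonoidAlgebra.lift k k G (1 : G →* k) a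
  have h : ∀ j, ((T - c • (1 : Module.End k (ℕ → k))) ^ j) (seriesMap π u x) =
      seriesMap π u (x * (a - algebraMap k _ c) ^ j) := by
    intro j
    induction j with
    | zero => simp
    | succ j ih =>
      rw [pow_succ', Module.End.mul_apply, ih, LinearMap.sub_apply, hT, LinearMap.smul_apply,
        Module.End.one_apply, ← map_smul, ← map_sub, pow_succ, ← mul_assoc, mul_sub,
        Algebra.smul_def]
      congr 1
      ring
  rw [h, hN, mul_zero, map_zero]

theorem span_stable (T : Module.End k (ℕ → k)) (a : MonoidAlgebra k G)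
    (hT : ∀ x, T (seriesMap π u x) = seriesMap π u (x * a)) :
    ∀ v ∈ Submodule.span k (Set.range (series π u)),
      T v ∈ Submodule.span k (Set.range (series π u)) := by
  rw [← range_seriesMap]
  rintro _ ⟨x, rfl⟩
  exact ⟨x * a, (hT x).symm⟩

variable (h2 : Module.finrank ℚ K = 2) {ℓ : ℕ} (hℓ : ℓ.Prime) (hℓf : ¬ ℓ ∣ f)
include h2 hℓ hℓf

/-- `T_ℓ - (u P + (u P)⁻¹)` is nilpotent on the span at a split prime. -/
theorem exists_pow_eq_zero_split {P P' : Ideal (𝓞 K)} (hPN : Ideal.absNorm P = ℓ)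
    (hP'N : Ideal.absNorm P' = ℓ) (hne : P ≠ P') (hmul : P * P' = Ideal.span {(ℓ : 𝓞 K)})
    (hP : P ∈ primeTo K f) :
    ∃ N : ℕ, ∀ v ∈ Submodule.span k (Set.range (series π u)), ((heckeSeq ℓ -
      ((u (cls ⟨P, hP⟩) : k) + ((u (cls ⟨P, hP⟩))⁻¹ : kˣ).1) • (1 : Module.End k (ℕ → k)) :
        Module.End k (ℕ → k)) ^ N) v = 0 := by
  obtain ⟨N, hN⟩ := exists_pow_sub_eq_zero hG (heckeSeq ℓ) (splitVal π u (cls ⟨P, hP⟩))
    (heckeSeq_seriesMap (π := π) (u := u) _
      fun n hn => theta_split h2 hℓ hℓf hPN hP'N hne hmul hn)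
  refine ⟨N, fun v hv => ?_⟩
  have := hN v hv
  simpa [splitVal, classVal] using this

/-- `U_ℓ - 1` is nilpotent on the span at a ramified prime. -/
theorem exists_pow_eq_zero_ramified (hu3 : ∀ c, u c ^ 3 = 1) {P : Ideal (𝓞 K)}
    (hPN : Ideal.absNorm P = ℓ) (hmul : P * P = Ideal.span {(ℓ : 𝓞 K)}) :
    ∃ N : ℕ, ∀ v ∈ Submodule.span k (Set.range (series π u)),
      ((upSeq ℓ - 1 : Module.End k (ℕ → k)) ^ N) v = 0 := by
  obtain ⟨N, hN⟩ := exists_pow_sub_eq_zero hG (upSeq ℓ) _
    (upSeq_seriesMap (π := π) (u := u) hℓ hℓf hPN hmul)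
  refine ⟨N, fun v hv => ?_⟩
  have := hN v hv
  simpa [classVal, u_eq_one hℓ hℓf hPN hmul hu3] using this

end Nilpotent

section Independence

variable [Finite G] [CharP k 2] (h2 : Module.finrank ℚ K = 2)
  (hπ : Function.Surjective π) (hG : IsPGroup 2 G) (hu3 : ∀ c, u c ^ 3 = 1) (hu1 : u ≠ 1)
include h2 hπ hG hu3 hu1

/-- The series restricted to positive integers prime to `S` determine the element of `k[G]`. -/
theorem eq_zero_of_seriesMap_eq_zero (S : Finset ℕ) (x : MonoidAlgebra k G)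
    (hx : ∀ n : ℕ, n ≠ 0 → (∀ p ∈ S, p.Prime → ¬ p ∣ n) → seriesMap π u x n = 0) : x = 0 := by
  set V : Submodule k (MonoidAlgebra k G) :=
    Submodule.span k {y | ∃ n : ℕ, n ≠ 0 ∧ (∀ p ∈ S, p.Prime → ¬ p ∣ n) ∧ theta π u n = y}
  have h1 : (1 : MonoidAlgebra k G) ∈ V := Submodule.subset_span
    ⟨1, one_ne_zero, fun p _ hp => hp.not_dvd_one, theta_one π u⟩
  let χ : RingClassGroup K f →* rootsOfUnity 3 k :=
    u.codRestrict _ fun c => (mem_rootsOfUnity 3 _).mpr (hu3 c)
  have hχ3 : ∀ c, χ c ^ 3 = 1 := fun c => Subtype.ext (hu3 c)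
  have hχ1 : χ ≠ 1 := fun h => hu1 (MonoidHom.ext fun c =>
    congrArg Subtype.val (DFunLike.congr_fun h c))
  have htop := adjoin_ringClassPrimes_eq_top π χ hπ hG hχ3 hχ1 (S ∪ f.primeFactors)
    (O := k) (by rw [CharTwo.two_eq_zero]; exact zero_mem _) u fun c hc h =>
      hc (Subtype.ext (Units.ext (by
      have h1 : (u c : k) ^ 2 = 1 := (IsLocalRing.residue k).injective (by rw [map_pow, map_one]; exact h)
      have h3 : (u c : k) ^ 3 = 1 := by rw [← Units.val_pow_eq_pow_val, hu3, Units.val_one]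
      rwa [pow_succ, h1, one_mul] at h3)))
  have hV : ∀ a : MonoidAlgebra k G, ∀ v ∈ V, a * v ∈ V := by
    intro a
    have ha : a ∈ (⊤ : Subalgebra k (MonoidAlgebra k G)) := Algebra.mem_top
    rw [← htop] at ha
    induction ha using Algebra.adjoin_induction with
    | mem a ha =>
      obtain ⟨P, hP, hPp, hPN, hPS, hPχ, rfl⟩ := ha
      simp only [Finset.mem_union, Nat.mem_primeFactors, not_or, not_and] at hPS
      have hℓf : ¬ Ideal.absNorm P ∣ f := fun h => hPS.2 hPN h (NeZero.ne f)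
      obtain ⟨P', hP'N, hmul⟩ := exists_cofactor h2 hPN rfl
      have hne : P ≠ P' := fun he => hPχ (Subtype.ext <| by
        exact u_eq_one hPN hℓf rfl (by rw [← hmul]; exact congrArg (P * ·) he) hu3 hP)
      intro v hv
      induction hv using Submodule.span_induction with
      | mem y hy =>
        obtain ⟨n, hn, hnS, rfl⟩ := hy
        have hrec := theta_split (π := π) (u := u) h2 hPN hℓf rfl hP'N hne hmul hn
        simp only [splitVal, classVal, MonoidHom.coe_mk, OneHom.coe_mk, map_inv] at hrec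
        rw [← hrec]
        refine add_mem (Submodule.subset_span ⟨_, mul_ne_zero hPN.ne_zero hn, fun p hp hpp hd => ?_,
          rfl⟩) ?_
        · rcases hpp.dvd_mul.mp hd with h | h
          · exact hPS.1 ((Nat.prime_dvd_prime_iff_eq hpp hPN).mp h ▸ hp)
          · exact hnS p hp hpp h
        · split_ifs with hd
          · exact Submodule.subset_span ⟨_, (Nat.div_pos (Nat.le_of_dvd (Nat.pos_of_ne_zero hn) hd)
              hPN.pos).ne', fun p hp hpp h => hnS p hp hpp (h.trans (Nat.div_dvd_of_dvd hd)), rfl⟩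
          · exact zero_mem _
      | zero => rw [mul_zero]; exact zero_mem _
      | add y z _ _ hy hz => rw [mul_add]; exact add_mem hy hz
      | smul r y _ hy => rw [mul_smul_comm]; exact Submodule.smul_mem _ r hy
    | algebraMap r =>
      intro v hv
      rw [← Algebra.smul_def]
      exact Submodule.smul_mem _ r hv
    | add a b _ _ ha hb => intro v hv; rw [add_mul]; exact add_mem (ha v hv) (hb v hv)
    | mul a b _ _ ha hb => intro v hv; rw [mul_assoc]; exact ha _ (hb v hv)
  have hzero : ∀ y ∈ V, (x * y).coeff 1 = 0 := by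
    intro y hy
    induction hy using Submodule.span_induction with
    | mem y hy => obtain ⟨n, hn, hnS, rfl⟩ := hy; exact hx n hn hnS
    | zero => simp
    | add y z _ _ hy hz => simp [mul_add, hy, hz]
    | smul r y _ hy => simp [hy]
  ext g
  have := hzero _ (by simpa using hV (MonoidAlgebra.single g⁻¹ 1) 1 h1)
  simpa [MonoidAlgebra.mul_single_apply] using this

/-- For every finite `S` the series restricted to positive integers prime to `S` are
independent. -/
theorem linearIndependent_series (S : Finset ℕ) :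
    LinearIndependent k fun (g : G) (n : {n : ℕ // n ≠ 0 ∧ ∀ p ∈ S, p.Prime → ¬ p ∣ n}) =>
      series π u g n.1 := by
  classical
  have := Fintype.ofFinite G
  rw [Fintype.linearIndependent_iff]
  intro c hc g
  have hx := eq_zero_of_seriesMap_eq_zero h2 hπ hG hu3 hu1 S
    (∑ h : G, MonoidAlgebra.single h⁻¹ (c h)) fun n hn hnS => by
      have := congr_fun hc ⟨n, hn, hnS⟩
      simpa [map_sum, seriesMap_single, Finset.sum_apply] using this
  have := congrArg (fun y => y.coeff g⁻¹) hx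
  simpa [MonoidAlgebra.coeff_sum, Finsupp.single_apply] using this

/-- Pairs `(h, h(n / r))` are independent. -/
theorem eq_zero_of_seriesMap_add_eq_zero {r : ℕ} (hr : r.Prime) (S : Finset ℕ) (hrS : r ∉ S)
    (x y : MonoidAlgebra k G)
    (h : ∀ n : ℕ, n ≠ 0 → (∀ p ∈ S, p.Prime → ¬ p ∣ n) →
      seriesMap π u x n + (if r ∣ n then seriesMap π u y (n / r) else 0) = 0) :
    x = 0 ∧ y = 0 := by
  have hx : x = 0 := eq_zero_of_seriesMap_eq_zero h2 hπ hG hu3 hu1 (insert r S) x fun n hn hnS => by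
    have := h n hn fun p hp => hnS p (Finset.mem_insert_of_mem hp)
    rwa [if_neg (hnS r (Finset.mem_insert_self r S) hr), add_zero] at this
  refine ⟨hx, eq_zero_of_seriesMap_eq_zero h2 hπ hG hu3 hu1 S y fun n hn hnS => ?_⟩
  have := h (r * n) (mul_ne_zero hr.ne_zero hn) fun p hp hpp hd => (hpp.dvd_mul.mp hd).elim
    (fun h => hrS ((Nat.prime_dvd_prime_iff_eq hpp hr).mp h ▸ hp)) (hnS p hp hpp)
  rwa [hx, map_zero, Pi.zero_apply, zero_add, if_pos (dvd_mul_right r n),
    Nat.mul_div_cancel_left _ hr.pos] at this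

end Independence

end Fermat.Agent.TwoAdic.TypeSpace
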