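import Fermat.Agent.TwoAdic.Theta.Equivariance
import Mathlib.Data.Finset.NatAntidiagonal

/-!
# The `q`-expansion of a theta product evaluated at a vector

`evalFun m w (thetaProd f₀)` is `m θ_w(τ) θ₀(m τ)`; its coefficients are sums over the
representations by `f` and by `m f₀`.

Owner: helper77 (LT2, P3b).
-/

set_option autoImplicit false
set_option linter.unusedSectionVars false

noncomputable section

open UpperHalfPlane hiding I
open Fermat.Agent.TwoAdic.Theta
open scoped MatrixGroups ModularForm Manifold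

namespace Fermat.Agent.TwoAdic.TypeSpace

variable {m : ℕ} [NeZero m]

/-- The form `m f`. -/
def scaleForm (m : ℕ) [NeZero m] (f : PosForm) : PosForm where
  a := m * f.a
  b := m * f.b
  c := m * f.c
  a_pos := mul_pos (by exact_mod_cast NeZero.pos m) f.a_pos
  disc_neg := by
    have hm : (0 : ℤ) < (m : ℤ) ^ 2 := pow_pos (by exact_mod_cast NeZero.pos m) 2
    have := mul_lt_mul_of_pos_left f.disc_neg hm
    nlinarith

theorem eval_scaleForm (f : PosForm) (x : ℤ × ℤ) : (scaleForm m f).eval x = m * f.eval x := by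
  simp [PosForm.eval, scaleForm]
  ring

theorem thetaC_scaleForm (f : PosForm) (τ : ℂ) :
    thetaC (scaleForm m f) 1 (fun _ => 1) τ = thetaC f 1 (fun _ => 1) ((m : ℂ) * τ) := by
  refine tsum_congr fun x => ?_
  rw [eval_scaleForm]
  push_cast
  congr 2
  ring

theorem mem_repsOf_scaleForm {f : PosForm} {n : ℕ} {x : ℤ × ℤ} :
    x ∈ repsOf (scaleForm m f) n ↔ (m : ℤ) * f.eval x = n := by
  simp [repsOf, eval_scaleForm]

theorem analyticAt_thetaForm (f : PosForm) (m : ℕ) [NeZero m] (φ : ZMod m × ZMod m → ℂ) :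
    AnalyticAt ℂ (cuspFunction 1 (thetaH f m φ)) 0 := by
  haveI : NeZero (f.disc * m ^ 2) := ⟨mul_ne_zero f.disc_pos.ne' (pow_ne_zero 2 (NeZero.ne m))⟩
  rw [← coe_thetaForm f m φ]
  exact ModularFormClass.analyticAt_cuspFunction_zero (thetaForm f m φ) one_pos (by simp)

variable {ι : Type*} [Fintype ι] {F E : ι → Type*}
  [∀ i, Field (F i)] [∀ i, Field (E i)] [∀ i, Fintype (F i)] [∀ i, Fintype (E i)]
  [∀ i, Algebra (F i) (E i)] [∀ i, Weil.IsPlane (F i) (E i)]
  {f : PosForm} {d : Weil.Data (ZMod m) F ℂ} (P : PlaneCoord f d E)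
  {μ : (i : ι) → (E i)ˣ →* ℂˣ}

theorem evalFun_thetaProd (f₀ : PosForm) (w : Weil.cusp (F := F) μ) :
    Weil.evalFun m w (P.thetaProd μ f₀) =
      (m : ℂ) • (thetaH f m (P.pull (w : ((i : ι) → E i) → ℂ)) *
        thetaH (scaleForm m f₀) 1 (fun _ => 1)) := by
  funext τ
  have hm : m ≠ 0 := NeZero.ne m
  rw [Weil.evalFun, ModularForm.slash_heckeDiagMatrix_apply 2 hm, P.thetaProd_apply,
    Pi.smul_apply, Pi.mul_apply, Pi.mul_apply, smul_eq_mul, show (2 : ℤ) - 1 = 1 by norm_num,
    zpow_one, PlaneCoord.theta_apply, thetaScaled, ← thetaScaled_one_eq_thetaOne, thetaScaled,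
    thetaH, thetaH, ModularForm.coe_heckeDiagMatrix_smul hm, thetaC_scaleForm]
  have hmC : (m : ℂ) ≠ 0 := by exact_mod_cast hm
  rw [mul_div_cancel_left₀ _ hmC, Nat.cast_one, div_one]

/-- The coefficients of an evaluated theta product. -/
theorem qCoeff_evalFun_thetaProd (f₀ : PosForm) (w : Weil.cusp (F := F) μ) (n : ℕ) :
    ModularFormClass.qCoeff (Weil.evalFun m w (P.thetaProd μ f₀)) n =
      (m : ℂ) * ∑ p ∈ Finset.HasAntidiagonal.antidiagonal n,
        (∑ x ∈ (finite_repsOf f p.1).toFinset,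
          P.pull (w : ((i : ι) → E i) → ℂ) (vecCast m x)) *
        ((finite_repsOf (scaleForm m f₀) p.2).toFinset.card : ℂ) := by
  set φ := P.pull (w : ((i : ι) → E i) → ℂ) with hφ
  have h1 := analyticAt_thetaForm f m φ
  have h2 := analyticAt_thetaForm (scaleForm m f₀) 1 (fun _ => 1)
  rw [ModularFormClass.qCoeff, evalFun_thetaProd, ← hφ,
    UpperHalfPlane.qExpansion_smul (h1.fun_mul h2 |>.congr ?_), UpperHalfPlane.qExpansion_mul h1 h2,
    map_smul, smul_eq_mul, PowerSeries.coeff_mul]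
  · congr 1
    refine Finset.sum_congr rfl fun p _ => ?_
    have e1 := qCoeff_thetaForm f m φ p.1
    have e2 := qCoeff_thetaForm (scaleForm m f₀) 1 (fun _ => 1) p.2
    rw [coe_thetaForm, ModularFormClass.qCoeff] at e1 e2
    rw [e1, e2]
    simp
  · have h := UpperHalfPlane.cuspFunction_mul (h := (1 : ℝ)) h1.continuousAt h2.continuousAt
    rw [h]
    exact Filter.Eventually.of_forall fun z => rfl

end Fermat.Agent.TwoAdic.TypeSpace
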